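import Mathlib.NumberTheory.ModularForms.LevelOne.GradedRing
import Mathlib.Data.ZMod.Basic

/-!
# Level one modular forms: integral spanning sets and conjugation (helper96, package P3 of S23)

Main results (namespace `Fermat.Agent.S23.H96`):

* `qExpansion_E₄_eq`, `qExpansion_E₆_eq`, `qExpansion_discriminant_eq`: the `q`-expansions of
  `E₄`, `E₆`, `Δ` are the images of explicit power series over `ℤ`
  (`e4Series`, `e6Series`, `deltaSeries`); `E4_int`, `E6_int`, `Delta_int` coefficientwise.
* `hasIntSpanning`, `exists_int_spanning`: every space `M_k(SL₂(ℤ))` is spanned by finitely many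
  forms with integral `q`-expansions.
* `exists_conj`: for every ring hom `σ : ℂ →+* ℂ` and level one form `F` there is a level one
  form `F'` with `qExpansion 1 F' = (qExpansion 1 F).map σ`.
-/

set_option autoImplicit false

noncomputable section

namespace Fermat.Agent.S23.H96

open UpperHalfPlane ModularForm EisensteinSeries ModularFormClass
open scoped MatrixGroups

/-- Power series over `ℂ` all of whose coefficients are (images of) integers. -/
def intSeries : Subring (PowerSeries ℂ) := (PowerSeries.map (Int.castRingHom ℂ)).range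

theorem mem_intSeries_iff (P : PowerSeries ℂ) :
    P ∈ intSeries ↔ ∀ n : ℕ, ∃ m : ℤ, P.coeff n = (m : ℂ) := by
  constructor
  · rintro ⟨Q, rfl⟩ n
    exact ⟨Q.coeff n, by simp⟩
  · intro h
    choose m hm using h
    refine ⟨PowerSeries.mk m, ?_⟩
    ext n
    simp [hm n]

theorem map_eq_self_of_mem_intSeries {P : PowerSeries ℂ} (hP : P ∈ intSeries) (φ : ℂ →+* ℂ) :
    P.map φ = P := by
  obtain ⟨Q, rfl⟩ := hP
  ext n
  simp

/-- The divisor-sum series `∑_{n ≥ 1} σ_k(n) qⁿ` over `ℤ`. -/
def sigmaSeries (k : ℕ) : PowerSeries ℤ :=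
  PowerSeries.mk fun n => ((ArithmeticFunction.sigma k n : ℕ) : ℤ)

@[simp] theorem coeff_sigmaSeries (k n : ℕ) :
    (sigmaSeries k).coeff n = ((ArithmeticFunction.sigma k n : ℕ) : ℤ) := by
  simp [sigmaSeries]

/-- The integral q-expansion of `E₄`. -/
def e4Series : PowerSeries ℤ := 1 + PowerSeries.C (240 : ℤ) * sigmaSeries 3

/-- The integral q-expansion of `E₆`. -/
def e6Series : PowerSeries ℤ := 1 - PowerSeries.C (504 : ℤ) * sigmaSeries 5

theorem coeff_e4Series (m : ℕ) :
    e4Series.coeff m = if m = 0 then 1 else 240 * ((ArithmeticFunction.sigma 3 m : ℕ) : ℤ) := by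
  simp only [e4Series, map_add, PowerSeries.coeff_one, PowerSeries.coeff_C_mul, coeff_sigmaSeries]
  split_ifs with h
  · subst h; simp
  · simp

theorem coeff_e6Series (m : ℕ) :
    e6Series.coeff m = if m = 0 then 1 else -504 * ((ArithmeticFunction.sigma 5 m : ℕ) : ℤ) := by
  simp only [e6Series, map_sub, PowerSeries.coeff_one, PowerSeries.coeff_C_mul, coeff_sigmaSeries]
  split_ifs with h
  · subst h; simp
  · simp

theorem qExpansion_E₄_eq :
    qExpansion 1 E₄ = e4Series.map (Int.castRingHom ℂ) := by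
  ext m
  have h := E_qExpansion_coeff (k := 4) (by norm_num) ⟨2, rfl⟩ m
  rw [h, PowerSeries.coeff_map, coeff_e4Series]
  have hb : bernoulli 4 = -1 / 30 := by decide +kernel
  split_ifs with hm
  · simp
  · simp only [hb]
    push_cast
    norm_num

theorem qExpansion_E₆_eq :
    qExpansion 1 E₆ = e6Series.map (Int.castRingHom ℂ) := by
  ext m
  have h := E_qExpansion_coeff (k := 6) (by norm_num) ⟨3, rfl⟩ m
  rw [h, PowerSeries.coeff_map, coeff_e6Series]
  have hb : bernoulli 6 = 1 / 42 := by decide +kernel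
  split_ifs with hm
  · simp
  · simp only [hb]
    push_cast
    norm_num

theorem qExpansion_E₄_mem_intSeries : qExpansion 1 E₄ ∈ intSeries := ⟨_, qExpansion_E₄_eq.symm⟩

theorem qExpansion_E₆_mem_intSeries : qExpansion 1 E₆ ∈ intSeries := ⟨_, qExpansion_E₆_eq.symm⟩

theorem twelve_dvd_pow_five_sub_pow_three (d : ℤ) : (12 : ℤ) ∣ d ^ 5 - d ^ 3 := by
  have h : ∀ x : ZMod 12, x ^ 5 - x ^ 3 = 0 := by decide
  have := h (d : ZMod 12)
  have h2 := (ZMod.intCast_zmod_eq_zero_iff_dvd (d ^ 5 - d ^ 3) 12).mp (by push_cast; exact this)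
  exact_mod_cast h2

theorem twelve_dvd_sigma_five_sub_sigma_three (n : ℕ) :
    (12 : ℤ) ∣ ((ArithmeticFunction.sigma 5 n : ℕ) : ℤ) - ((ArithmeticFunction.sigma 3 n : ℕ) : ℤ) := by
  rw [ArithmeticFunction.sigma_apply, ArithmeticFunction.sigma_apply]
  push_cast
  rw [← Finset.sum_sub_distrib]
  exact Finset.dvd_sum fun d _ => twelve_dvd_pow_five_sub_pow_three d

/-- The series `(σ₅ - σ₃)/12`. -/
def cSeries : PowerSeries ℤ :=
  PowerSeries.mk fun n =>
    (((ArithmeticFunction.sigma 5 n : ℕ) : ℤ) - ((ArithmeticFunction.sigma 3 n : ℕ) : ℤ)) / 12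

theorem sigmaSeries_five_eq : sigmaSeries 5 = sigmaSeries 3 + PowerSeries.C (12 : ℤ) * cSeries := by
  ext n
  simp only [coeff_sigmaSeries, map_add, PowerSeries.coeff_C_mul, cSeries, PowerSeries.coeff_mk]
  have := Int.mul_ediv_cancel' (twelve_dvd_sigma_five_sub_sigma_three n)
  lia

/-- The integral q-expansion of `Δ`. -/
def deltaSeries : PowerSeries ℤ :=
  sigmaSeries 3 + PowerSeries.C (7 : ℤ) * cSeries + PowerSeries.C (100 : ℤ) * sigmaSeries 3 ^ 2
    + PowerSeries.C (8000 : ℤ) * sigmaSeries 3 ^ 3 - PowerSeries.C (147 : ℤ) * sigmaSeries 5 ^ 2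

theorem e4Series_cube_sub_e6Series_sq :
    e4Series ^ 3 - e6Series ^ 2 = PowerSeries.C (1728 : ℤ) * deltaSeries := by
  have h := sigmaSeries_five_eq
  simp only [e4Series, e6Series, deltaSeries]
  generalize sigmaSeries 3 = A at *
  generalize sigmaSeries 5 = B at *
  generalize cSeries = C at *
  subst h
  have h1 : (PowerSeries.C (240 : ℤ) : PowerSeries ℤ) = 240 := by simp
  have h2 : (PowerSeries.C (504 : ℤ) : PowerSeries ℤ) = 504 := by simp
  have h3 : (PowerSeries.C (12 : ℤ) : PowerSeries ℤ) = 12 := by simp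
  have h4 : (PowerSeries.C (1728 : ℤ) : PowerSeries ℤ) = 1728 := by simp
  have h5 : (PowerSeries.C (7 : ℤ) : PowerSeries ℤ) = 7 := by simp
  have h6 : (PowerSeries.C (100 : ℤ) : PowerSeries ℤ) = 100 := by simp
  have h7 : (PowerSeries.C (8000 : ℤ) : PowerSeries ℤ) = 8000 := by simp
  have h8 : (PowerSeries.C (147 : ℤ) : PowerSeries ℤ) = 147 := by simp
  rw [h1, h2, h3, h4, h5, h6, h7, h8]
  ring

/-- `E₄³ - E₆²` as a level one form of weight 12. -/
def e4CubeSubE6Sq : ModularForm 𝒮ℒ 12 :=
  ModularForm.mcast (by decide) (E₄.pow 3) - ModularForm.mcast (by decide) (E₆.pow 2)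

theorem qExpansion_e4CubeSubE6Sq :
    qExpansion 1 e4CubeSubE6Sq = qExpansion 1 E₄ ^ 3 - qExpansion 1 E₆ ^ 2 := by
  simp only [e4CubeSubE6Sq, FunLike.coe_sub, coe_mcast,
    ModularForm.qExpansion_sub one_pos one_mem_strictPeriods_SL,
    ModularForm.qExpansion_pow one_pos one_mem_strictPeriods_SL]

theorem e4CubeSubE6Sq_eq : (e4CubeSubE6Sq : ℍ → ℂ) = ((1728 : ℂ) • CuspForm.discriminant : CuspForm 𝒮ℒ 12) := by
  funext z
  have h := discriminant_eq_E₄_cube_sub_E₆_sq z
  simp only [e4CubeSubE6Sq, FunLike.coe_sub, coe_mcast, coe_pow, Pi.sub_apply, Pi.pow_apply]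
  change _ = (1728 : ℂ) * ModularForm.discriminant z
  rw [h]
  ring

theorem qExpansion_discriminant_eq :
    qExpansion 1 ModularForm.discriminant = deltaSeries.map (Int.castRingHom ℂ) := by
  have h1 : qExpansion 1 e4CubeSubE6Sq = (1728 : ℂ) • qExpansion 1 ModularForm.discriminant := by
    rw [e4CubeSubE6Sq_eq]
    exact ModularForm.qExpansion_smul one_pos one_mem_strictPeriods_SL (1728 : ℂ)
      CuspForm.discriminant
  rw [qExpansion_e4CubeSubE6Sq, qExpansion_E₄_eq, qExpansion_E₆_eq, ← map_pow, ← map_pow,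
    ← map_sub, e4Series_cube_sub_e6Series_sq, map_mul] at h1
  have h2 : (PowerSeries.map (Int.castRingHom ℂ)) (PowerSeries.C (1728 : ℤ))
      = PowerSeries.C (1728 : ℂ) := by
    ext n
    rw [PowerSeries.coeff_map, PowerSeries.coeff_C, PowerSeries.coeff_C]
    split_ifs <;> simp
  rw [h2, ← PowerSeries.smul_eq_C_mul] at h1
  exact (smul_right_injective _ (by norm_num : (1728 : ℂ) ≠ 0) h1).symm

theorem qExpansion_discriminant_mem_intSeries :
    qExpansion 1 ModularForm.discriminant ∈ intSeries := ⟨_, qExpansion_discriminant_eq.symm⟩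

theorem coeff_zero_deltaSeries : deltaSeries.coeff 0 = 0 := by
  have h := congrArg (fun P => P.coeff 0) qExpansion_discriminant_eq
  simp only [PowerSeries.coeff_map] at h
  have h0 : (qExpansion 1 ModularForm.discriminant).coeff 0 = 0 := by
    simpa using CuspFormClass.qExpansion_coeff_zero CuspForm.discriminant one_pos
      one_mem_strictPeriods_SL
  rw [h0] at h
  have h' : ((deltaSeries.coeff 0 : ℤ) : ℂ) = ((0 : ℤ) : ℂ) := by simpa using h.symm
  exact_mod_cast h'

theorem coeff_one_deltaSeries : deltaSeries.coeff 1 = 1 := by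
  have h := congrArg (fun P => P.coeff 1) qExpansion_discriminant_eq
  simp only [PowerSeries.coeff_map] at h
  rw [discriminant_qExpansion_coeff_one] at h
  have h' : ((deltaSeries.coeff 1 : ℤ) : ℂ) = ((1 : ℤ) : ℂ) := by simpa using h.symm
  exact_mod_cast h'

/-- The `q`-expansion as a linear map on level one forms. -/
def qExpLin (k : ℤ) : ModularForm 𝒮ℒ k →ₗ[ℂ] PowerSeries ℂ where
  toFun f := qExpansion 1 f
  map_add' f g := ModularForm.qExpansion_add one_pos one_mem_strictPeriods_SL f g
  map_smul' c f := ModularForm.qExpansion_smul one_pos one_mem_strictPeriods_SL c f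

@[simp] theorem qExpLin_apply (k : ℤ) (f : ModularForm 𝒮ℒ k) : qExpLin k f = qExpansion 1 f := rfl

theorem map_smul_powerSeries (φ : ℂ →+* ℂ) (c : ℂ) (P : PowerSeries ℂ) :
    (c • P).map φ = φ c • P.map φ := by
  ext n
  simp

/-- The property: weight `k` level one forms are spanned by finitely many forms with integral
`q`-expansion. -/
def HasIntSpanning (k : ℤ) : Prop :=
  ∃ (ι : Type) (_ : Fintype ι) (B : ι → ModularForm 𝒮ℒ k),
    (∀ i, qExpansion 1 (B i) ∈ intSeries) ∧
    ∀ F : ModularForm 𝒮ℒ k, ∃ c : ι → ℂ, F = ∑ i, c i • B i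

theorem hasIntSpanning_of_forall_eq_zero {k : ℤ} (h : ∀ F : ModularForm 𝒮ℒ k, F = 0) :
    HasIntSpanning k :=
  ⟨PEmpty, inferInstance, fun i => i.elim, fun i => i.elim, fun F => ⟨fun i => i.elim, by simp [h F]⟩⟩

theorem hasIntSpanning_zero : HasIntSpanning 0 := by
  refine ⟨Unit, inferInstance, fun _ => 1, fun _ => ?_, fun F => ?_⟩
  · rw [ModularForm.qExpansion_one]
    exact Subring.one_mem _
  · obtain ⟨c, hc⟩ := levelOne_weight_zero_const F
    refine ⟨fun _ => c, ?_⟩
    ext z
    simp [hc]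

/-- A weight `k` form (`k ≥ 4` even) with integral `q`-expansion and constant term `1`. -/
theorem exists_unitForm {k : ℤ} (hk : 4 ≤ k) (hk2 : Even k) :
    ∃ U : ModularForm 𝒮ℒ k, qExpansion 1 U ∈ intSeries ∧ (qExpansion 1 U).coeff 0 = 1 := by
  obtain ⟨a, b, hab⟩ : ∃ a b : ℕ, (a : ℤ) * 4 + (b : ℤ) * 6 = k := by
    obtain ⟨m, hm⟩ := hk2
    rcases Int.emod_two_eq_zero_or_one m with h | h
    · refine ⟨(m / 2).toNat, 0, ?_⟩
      have : 0 ≤ m / 2 := by omega
      rw [Int.toNat_of_nonneg this]
      omega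
    · refine ⟨((m - 3) / 2).toNat, 1, ?_⟩
      have : 0 ≤ (m - 3) / 2 := by omega
      rw [Int.toNat_of_nonneg this]
      omega
  refine ⟨ModularForm.mcast hab ((E₄.pow a).mul (E₆.pow b)), ?_, ?_⟩
  · rw [ModularForm.qExpansion_mcast, ModularForm.qExpansion_mul one_pos one_mem_strictPeriods_SL,
      ModularForm.qExpansion_pow one_pos one_mem_strictPeriods_SL,
      ModularForm.qExpansion_pow one_pos one_mem_strictPeriods_SL]
    exact Subring.mul_mem _ (Subring.pow_mem _ qExpansion_E₄_mem_intSeries _)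
      (Subring.pow_mem _ qExpansion_E₆_mem_intSeries _)
  · rw [ModularForm.qExpansion_mcast, ModularForm.qExpansion_mul one_pos one_mem_strictPeriods_SL,
      ModularForm.qExpansion_pow one_pos one_mem_strictPeriods_SL,
      ModularForm.qExpansion_pow one_pos one_mem_strictPeriods_SL]
    have h4 : PowerSeries.constantCoeff (qExpansion 1 E₄) = 1 := by
      simpa using E_qExpansion_coeff_zero (k := 4) (by norm_num) ⟨2, rfl⟩
    have h6 : PowerSeries.constantCoeff (qExpansion 1 E₆) = 1 := by
      simpa using E_qExpansion_coeff_zero (k := 6) (by norm_num) ⟨3, rfl⟩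
    simp [h4, h6]

/-- Multiplication by `Δ`, from weight `k - 12` to weight `k`, as a modular form. -/
def mulDelta {k : ℤ} (G : ModularForm 𝒮ℒ (k - 12)) : ModularForm 𝒮ℒ k :=
  ModularForm.mcast (by ring) ((CuspForm.discriminant : CuspForm 𝒮ℒ 12).toModularFormₗ.mul G)

theorem mulDelta_apply {k : ℤ} (G : ModularForm 𝒮ℒ (k - 12)) (z : ℍ) :
    mulDelta G z = ModularForm.discriminant z * G z := rfl

theorem qExpansion_mulDelta {k : ℤ} (G : ModularForm 𝒮ℒ (k - 12)) :
    qExpansion 1 (mulDelta G) = qExpansion 1 ModularForm.discriminant * qExpansion 1 G := by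
  rw [mulDelta, ModularForm.qExpansion_mcast,
    ModularForm.qExpansion_mul one_pos one_mem_strictPeriods_SL]
  rfl

theorem hasIntSpanning_step {k : ℤ} (hk : 4 ≤ k) (hk2 : Even k) (h : HasIntSpanning (k - 12)) :
    HasIntSpanning k := by
  obtain ⟨ι, _, B, hB, hspan⟩ := h
  obtain ⟨U, hU, hU0⟩ := exists_unitForm hk hk2
  refine ⟨Option ι, inferInstance, fun o => o.elim U (fun i => mulDelta (B i)), ?_, ?_⟩
  · rintro (_ | i)
    · exact hU
    · simp only [Option.elim]
      rw [qExpansion_mulDelta]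
      exact Subring.mul_mem _ qExpansion_discriminant_mem_intSeries (hB i)
  · intro F
    have h0 : (qExpansion 1 (F - (qExpansion 1 F).coeff 0 • U : ModularForm 𝒮ℒ k)).coeff 0
        = 0 := by
      rw [FunLike.coe_sub, ModularForm.qExpansion_sub one_pos one_mem_strictPeriods_SL,
        FunLike.coe_smul, ModularForm.qExpansion_smul one_pos one_mem_strictPeriods_SL, map_sub,
        PowerSeries.coeff_smul, hU0]
      simp
    obtain ⟨c, hc⟩ := hspan (CuspForm.discriminantEquiv
      (toCuspForm (F - (qExpansion 1 F).coeff 0 • U : ModularForm 𝒮ℒ k) h0))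
    refine ⟨fun o => o.elim ((qExpansion 1 F).coeff 0) c, ?_⟩
    ext z
    have hG := discriminant_mul_discriminantEquiv_apply
      (toCuspForm (F - (qExpansion 1 F).coeff 0 • U : ModularForm 𝒮ℒ k) h0) z
    rw [hc] at hG
    have e1 : (toCuspForm (F - (qExpansion 1 F).coeff 0 • U) h0) z
        = F z - (qExpansion 1 F).coeff 0 * U z := rfl
    have e2 : (∑ i, c i • B i : ModularForm 𝒮ℒ (k - 12)) z = ∑ i, c i * (B i) z := by
      rw [FunLike.coe_sum, Finset.sum_apply]
      rfl
    have e3 : (∑ o : Option ι, (o.elim ((qExpansion 1 F).coeff 0) c) •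
        (o.elim U (fun i => mulDelta (B i))) : ModularForm 𝒮ℒ k) z
        = (qExpansion 1 F).coeff 0 * U z
          + ∑ i, c i * (ModularForm.discriminant z * (B i) z) := by
      rw [FunLike.coe_sum, Finset.sum_apply, Fintype.sum_option]
      rfl
    rw [e1, e2, Finset.mul_sum] at hG
    rw [e3]
    have : ∑ i, c i * (ModularForm.discriminant z * (B i) z)
        = ∑ i, ModularForm.discriminant z * (c i * (B i) z) :=
      Finset.sum_congr rfl fun i _ => by ring
    rw [this, hG]
    ring

theorem hasIntSpanning_aux (m : ℕ) : ∀ k : ℤ, k ≤ m → HasIntSpanning k := by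
  induction m using Nat.strong_induction_on with
  | _ m ih =>
    intro k hk
    rcases lt_trichotomy k 0 with hneg | rfl | hpos
    · exact hasIntSpanning_of_forall_eq_zero fun F =>
        rank_zero_iff_forall_zero.mp (levelOne_neg_weight_rank_zero hneg) F
    · exact hasIntSpanning_zero
    · rcases Int.even_or_odd k with he | ho
      · rcases lt_or_ge k 4 with h4 | h4
        · have hk2 : k = 2 := by
            obtain ⟨r, hr⟩ := he
            omega
          subst hk2
          exact hasIntSpanning_of_forall_eq_zero fun F =>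
            rank_zero_iff_forall_zero.mp levelOne_weight_two_rank_zero F
        · refine hasIntSpanning_step h4 he ?_
          rcases lt_or_ge (k - 12) 0 with h12 | h12
          · exact hasIntSpanning_of_forall_eq_zero fun F =>
              rank_zero_iff_forall_zero.mp (levelOne_neg_weight_rank_zero h12) F
          · exact ih (k - 12).toNat (by omega) (k - 12) (by omega)
      · exact hasIntSpanning_of_forall_eq_zero fun F => levelOne_odd_weight_eq_zero ho F

/-- **Level one forms are spanned by finitely many forms with integral `q`-expansion.** -/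
theorem hasIntSpanning (k : ℤ) : HasIntSpanning k :=
  hasIntSpanning_aux k.toNat k (Int.self_le_toNat k)

/-- **Conjugation of level one forms**: for every ring homomorphism `φ : ℂ →+* ℂ` and every level
one form `F`, there is a level one form of the same weight whose `q`-expansion is obtained by
applying `φ` to the coefficients of the `q`-expansion of `F`. -/
theorem exists_conj_levelOne (φ : ℂ →+* ℂ) {k : ℤ} (F : ModularForm 𝒮ℒ k) :
    ∃ F' : ModularForm 𝒮ℒ k, qExpansion 1 F' = (qExpansion 1 F).map φ := by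
  obtain ⟨ι, _, B, hB, hspan⟩ := hasIntSpanning k
  obtain ⟨c, rfl⟩ := hspan F
  refine ⟨∑ i, φ (c i) • B i, ?_⟩
  have h1 : ∀ d : ι → ℂ, qExpansion 1 (∑ i, d i • B i : ModularForm 𝒮ℒ k)
      = ∑ i, d i • qExpansion 1 (B i) := by
    intro d
    have := map_sum (qExpLin k) (fun i => d i • B i) Finset.univ
    simp only [map_smul, qExpLin_apply] at this
    exact this
  rw [h1, h1, map_sum]
  refine Finset.sum_congr rfl fun i _ => ?_
  rw [map_smul_powerSeries, map_eq_self_of_mem_intSeries (hB i)]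

/-- Cusp form version of `exists_conj_levelOne`. -/
theorem exists_conj_levelOne_cusp (φ : ℂ →+* ℂ) {k : ℤ} (F : CuspForm 𝒮ℒ k) :
    ∃ F' : CuspForm 𝒮ℒ k, qExpansion 1 F' = (qExpansion 1 F).map φ := by
  obtain ⟨G, hG⟩ := exists_conj_levelOne φ (F : ModularForm 𝒮ℒ k)
  have hF0 : (qExpansion 1 F).coeff 0 = 0 :=
    CuspFormClass.qExpansion_coeff_zero F one_pos one_mem_strictPeriods_SL
  have h0 : (qExpansion 1 G).coeff 0 = 0 := by
    rw [hG, PowerSeries.coeff_map]
    have : (qExpansion 1 (F : ModularForm 𝒮ℒ k)).coeff 0 = 0 := hF0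
    rw [this, map_zero]
  exact ⟨toCuspForm G h0, hG⟩

/-! ### Interface statements (names as requested by helper22) -/

/-- (L1) Conjugation of level one modular forms by a ring endomorphism of `ℂ`. -/
theorem exists_conj (σ : ℂ →+* ℂ) {k : ℤ} (F : ModularForm 𝒮ℒ k) :
    ∃ F' : ModularForm 𝒮ℒ k, qExpansion 1 F' = (qExpansion 1 F).map σ :=
  exists_conj_levelOne σ F

/-- (L2) Level one forms of weight `k` are spanned by finitely many forms with integral
`q`-expansion coefficients. -/
theorem exists_int_spanning (k : ℤ) :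
    ∃ (n : ℕ) (B : Fin n → ModularForm 𝒮ℒ k),
      (∀ i m, ∃ c : ℤ, (qExpansion 1 (B i)).coeff m = (c : ℂ)) ∧
      ∀ F : ModularForm 𝒮ℒ k, ∃ c : Fin n → ℂ, F = ∑ i, c i • B i := by
  obtain ⟨ι, _, B, hB, hspan⟩ := hasIntSpanning k
  let e := Fintype.equivFin ι
  refine ⟨Fintype.card ι, fun j => B (e.symm j), fun i m => ?_, fun F => ?_⟩
  · exact (mem_intSeries_iff _).mp (hB (e.symm i)) m
  · obtain ⟨c, hc⟩ := hspan F
    refine ⟨fun j => c (e.symm j), ?_⟩
    rw [hc]
    exact (Equiv.sum_comp e.symm (fun i => c i • B i)).symm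

/-- (L3) The `q`-expansion coefficients of `E₄` are integers. -/
theorem E4_int (m : ℕ) : ∃ c : ℤ, (qExpansion 1 E₄).coeff m = (c : ℂ) :=
  (mem_intSeries_iff _).mp qExpansion_E₄_mem_intSeries m

/-- (L3) The `q`-expansion coefficients of `E₆` are integers. -/
theorem E6_int (m : ℕ) : ∃ c : ℤ, (qExpansion 1 E₆).coeff m = (c : ℂ) :=
  (mem_intSeries_iff _).mp qExpansion_E₆_mem_intSeries m

/-- (L3) The `q`-expansion coefficients of `Δ` are integers. -/
theorem Delta_int (m : ℕ) :
    ∃ c : ℤ, (qExpansion 1 (CuspForm.discriminant : ℍ → ℂ)).coeff m = (c : ℂ) :=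
  (mem_intSeries_iff _).mp qExpansion_discriminant_mem_intSeries m

end Fermat.Agent.S23.H96
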