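import Mathlib.NumberTheory.ModularForms.QExpansion
import Mathlib.NumberTheory.ModularForms.LevelOne.Basic

/-!
# Periodic holomorphic functions bounded at `i∞` and their `q`-expansions
(helper22, part of the S23 development)
-/

set_option autoImplicit false

open UpperHalfPlane ModularForm Function
open scoped MatrixGroups ModularForm Manifold

noncomputable section

namespace Fermat.Agent.S23.H22

/-- `F` is `h`-periodic, holomorphic and bounded at `i∞`. -/
structure Nice (h : ℝ) (F : ℍ → ℂ) : Prop where
  per : Periodic (F ∘ ofComplex) h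
  hol : MDiff F
  bdd : IsBoundedAtImInfty F

namespace Nice

variable {h : ℝ} {F G : ℍ → ℂ}

lemma analyticAt (hF : Nice h F) (hh : 0 < h) : AnalyticAt ℂ (cuspFunction h F) 0 :=
  analyticAt_cuspFunction_zero hh hF.per hF.hol hF.bdd

lemma add (hF : Nice h F) (hG : Nice h G) : Nice h (F + G) where
  per := fun w => by
    have := hF.per w; have := hG.per w
    simp only [comp_apply, Pi.add_apply] at *
    simp [*]
  hol := hF.hol.add hG.hol
  bdd := hF.bdd.add hG.bdd

lemma mul (hF : Nice h F) (hG : Nice h G) : Nice h (F * G) where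
  per := fun w => by
    have := hF.per w; have := hG.per w
    simp only [comp_apply, Pi.mul_apply] at *
    simp [*]
  hol := hF.hol.mul hG.hol
  bdd := hF.bdd.mul hG.bdd

lemma neg (hF : Nice h F) : Nice h (-F) where
  per := fun w => by
    have := hF.per w
    simp only [comp_apply, Pi.neg_apply] at *
    simp [*]
  hol := hF.hol.neg
  bdd := hF.bdd.neg

lemma sub (hF : Nice h F) (hG : Nice h G) : Nice h (F - G) := by
  rw [sub_eq_add_neg]; exact hF.add hG.neg

lemma const (h : ℝ) (c : ℂ) : Nice h (fun _ => c) where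
  per := fun _ => rfl
  hol := mdifferentiable_const
  bdd := Filter.const_boundedAtFilter _ _

lemma one (h : ℝ) : Nice h (1 : ℍ → ℂ) := const h 1

lemma zero (h : ℝ) : Nice h (0 : ℍ → ℂ) := const h 0

lemma smul (hF : Nice h F) (c : ℂ) : Nice h (c • F) := by
  have : c • F = (fun _ => c) * F := by ext z; simp
  rw [this]; exact (const h c).mul hF

lemma pow (hF : Nice h F) (n : ℕ) : Nice h (F ^ n) := by
  induction n with
  | zero => simpa using one h
  | succ n ih => rw [pow_succ]; exact ih.mul hF

lemma sum {κ : Type*} (s : Finset κ) {F : κ → ℍ → ℂ} (hF : ∀ i ∈ s, Nice h (F i)) :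
    Nice h (∑ i ∈ s, F i) := by
  classical
  induction s using Finset.induction_on with
  | empty => simpa using zero h
  | insert i t hi IH =>
    rw [Finset.sum_insert hi]
    exact (hF i (Finset.mem_insert_self _ _)).add
      (IH fun j hj => hF j (Finset.mem_insert_of_mem hj))

lemma prod {κ : Type*} (s : Finset κ) {F : κ → ℍ → ℂ} (hF : ∀ i ∈ s, Nice h (F i)) :
    Nice h (∏ i ∈ s, F i) := by
  classical
  induction s using Finset.induction_on with
  | empty => simpa using one h
  | insert i t hi IH =>
    rw [Finset.prod_insert hi]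
    exact (hF i (Finset.mem_insert_self _ _)).mul
      (IH fun j hj => hF j (Finset.mem_insert_of_mem hj))

/-! ### `q`-expansions -/

lemma qExpansion_add (hh : 0 < h) (hF : Nice h F) (hG : Nice h G) :
    qExpansion h (F + G) = qExpansion h F + qExpansion h G :=
  UpperHalfPlane.qExpansion_add (hF.analyticAt hh) (hG.analyticAt hh)

lemma qExpansion_mul (hh : 0 < h) (hF : Nice h F) (hG : Nice h G) :
    qExpansion h (F * G) = qExpansion h F * qExpansion h G :=
  UpperHalfPlane.qExpansion_mul (hF.analyticAt hh) (hG.analyticAt hh)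

lemma qExpansion_sub (hh : 0 < h) (hF : Nice h F) (hG : Nice h G) :
    qExpansion h (F - G) = qExpansion h F - qExpansion h G :=
  UpperHalfPlane.qExpansion_sub (hF.analyticAt hh) (hG.analyticAt hh)

lemma qExpansion_neg (hh : 0 < h) (hF : Nice h F) :
    qExpansion h (-F) = -qExpansion h F :=
  UpperHalfPlane.qExpansion_neg (hF.analyticAt hh)

lemma qExpansion_smul (hh : 0 < h) (hF : Nice h F) (c : ℂ) :
    qExpansion h (c • F) = c • qExpansion h F :=
  UpperHalfPlane.qExpansion_smul (hF.analyticAt hh) c

lemma qExpansion_pow (hh : 0 < h) (hF : Nice h F) (n : ℕ) :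
    qExpansion h (F ^ n) = qExpansion h F ^ n := by
  induction n with
  | zero => simpa using qExpansion_one h
  | succ n ih => rw [pow_succ, qExpansion_mul hh (hF.pow n) hF, ih, pow_succ]

lemma qExpansion_sum (hh : 0 < h) {κ : Type*} (s : Finset κ) {F : κ → ℍ → ℂ}
    (hF : ∀ i ∈ s, Nice h (F i)) :
    qExpansion h (∑ i ∈ s, F i) = ∑ i ∈ s, qExpansion h (F i) := by
  classical
  induction s using Finset.induction_on with
  | empty => simpa using qExpansion_zero h
  | insert i t hi IH =>
    rw [Finset.sum_insert hi, Finset.sum_insert hi,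
      qExpansion_add hh (hF i (Finset.mem_insert_self _ _))
        (sum t fun j hj => hF j (Finset.mem_insert_of_mem hj)),
      IH fun j hj => hF j (Finset.mem_insert_of_mem hj)]

lemma eq_zero_of_qExpansion_eq_zero (hh : 0 < h) (hF : Nice h F) (h0 : qExpansion h F = 0) :
    F = 0 :=
  (qExpansion_eq_zero_iff hh hF.per hF.hol hF.bdd).mp h0

lemma eq_of_qExpansion_eq (hh : 0 < h) (hF : Nice h F) (hG : Nice h G)
    (h0 : qExpansion h F = qExpansion h G) : F = G := by
  have := eq_zero_of_qExpansion_eq_zero hh (hF.sub hG) (by rw [qExpansion_sub hh hF hG, h0, sub_self])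
  exact sub_eq_zero.mp this

end Nice

/-- Modular forms are nice. -/
lemma nice_of_modularForm {Γ : Subgroup (GL (Fin 2) ℝ)} {k : ℤ} {F : Type*} [FunLike F ℍ ℂ]
    [ModularFormClass F Γ k] (f : F) {h : ℝ} (hh : 0 < h) (hΓ : h ∈ Γ.strictPeriods) :
    Nice h (f : ℍ → ℂ) where
  per := SlashInvariantFormClass.periodic_comp_ofComplex f hΓ
  hol := ModularFormClass.holo f
  bdd :=
    have : Fact (IsCusp OnePoint.infty Γ) := ⟨Γ.isCusp_of_mem_strictPeriods hh hΓ⟩
    ModularFormClass.bdd_at_infty f

lemma nice_levelOne {k : ℤ} {F : Type*} [FunLike F ℍ ℂ] [ModularFormClass F 𝒮ℒ k] (f : F) :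
    Nice 1 (f : ℍ → ℂ) :=
  nice_of_modularForm f one_pos one_mem_strictPeriods_SL

end Fermat.Agent.S23.H22
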