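import Fermat.Agent.S23.H22_Setup
import Fermat.Agent.S23.H22_Nice
import Fermat.Agent.S23.H96_LevelOne
import Fermat.Prelude.Thm_UpperHalfPlane_qCoeff_heckeT
import Fermat.Prelude.Thm_UpperHalfPlane_qCoeff_heckeU
import Fermat.Prelude.Thm_ModularForm_periodic_heckeT_comp_ofComplex
import Fermat.Prelude.Thm_ModularForm_periodic_heckeU_comp_ofComplex
import Fermat.Prelude.Thm_ModularForm_mdifferentiable_heckeT
import Fermat.Prelude.Thm_ModularForm_mdifferentiable_heckeU
import Fermat.Prelude.Thm_ModularForm_isBoundedAtImInfty_heckeT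
import Fermat.Prelude.Thm_ModularForm_isBoundedAtImInfty_heckeU
import Fermat.Prelude.Thm_CongruenceSubgroup_one_mem_strictPeriods_Gamma0

/-!
# The `q`-expansion of `F ∣[k] α_N` (helper22, part of the S23 development)
-/

set_option autoImplicit false
set_option linter.unusedSectionVars false

open UpperHalfPlane ModularForm Polynomial SlashInvariantForm EisensteinSeries
open scoped MatrixGroups ModularForm Manifold

noncomputable section

namespace Fermat.Agent.S23.H22

variable (N : ℕ) [NeZero N]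

lemma nice_G0 {k : ℤ} {F : Type*} [FunLike F ℍ ℂ] [ModularFormClass F (G0 N) k] (f : F) :
    Nice 1 (f : ℍ → ℂ) :=
  nice_of_modularForm f one_pos (CongruenceSubgroup.one_mem_strictPeriods_Gamma0 N)

/-- The coefficients of the `q`-expansion of the level raise `F ∣[k] α_N`. -/
theorem qExpansion_levelRaise_coeff {k : ℤ} {F : Type*} [FunLike F ℍ ℂ]
    [ModularFormClass F 𝒮ℒ k] (f : F) (n : ℕ) :
    (qExpansion 1 (levelRaise N f)).coeff n =
      if N ∣ n then (N : ℂ) ^ (k - 1) * (qExpansion 1 f).coeff (n / N) else 0 := by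
  have hN : N ≠ 0 := NeZero.ne N
  have hf := nice_levelOne f
  have hT : Nice 1 (heckeT k N f) :=
    ⟨periodic_heckeT_comp_ofComplex hf.per k N, mdifferentiable_heckeT hf.hol k N,
      isBoundedAtImInfty_heckeT hf.bdd k N⟩
  have hU : Nice 1 (heckeU k N f) :=
    ⟨periodic_heckeU_comp_ofComplex hf.per k N, mdifferentiable_heckeU hf.hol k N,
      isBoundedAtImInfty_heckeU hf.bdd k N⟩
  have heq : (levelRaise N f : ℍ → ℂ) = heckeT k N f - heckeU k N f := by
    rw [levelRaise_coe, heckeT_eq_heckeU_add]; simp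
  rw [heq, Nice.qExpansion_sub one_pos hT hU, map_sub]
  have h1 := UpperHalfPlane.qCoeff_heckeT hf.per hf.hol hf.bdd k hN n
  have h2 := UpperHalfPlane.qCoeff_heckeU hf.per hf.hol hf.bdd k hN n
  unfold ModularFormClass.qCoeff at h1 h2
  rw [h1, h2, coeffHeckeT_eq_coeffHeckeU_add]
  simp

/-- If `F` has integral `q`-expansion, so has its level raise. -/
theorem qExpansion_levelRaise_mem_intSeries {k : ℤ} (hk : 1 ≤ k) {F : Type*} [FunLike F ℍ ℂ]
    [ModularFormClass F 𝒮ℒ k] (f : F) (hf : qExpansion 1 f ∈ H96.intSeries) :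
    qExpansion 1 (levelRaise N f) ∈ H96.intSeries := by
  rw [H96.mem_intSeries_iff] at hf ⊢
  intro n
  rw [qExpansion_levelRaise_coeff]
  split_ifs with h
  · obtain ⟨m, hm⟩ := hf (n / N)
    refine ⟨(N : ℤ) ^ (k - 1).toNat * m, ?_⟩
    rw [hm]
    push_cast
    congr 1
    rw [← zpow_natCast]
    congr 1
    omega
  · exact ⟨0, by simp⟩

lemma qExpansion_E12_mem_intSeries : qExpansion 1 E12 ∈ H96.intSeries := by
  have h : qExpansion 1 E12 = qExpansion 1 E₄ * qExpansion 1 E₄ * qExpansion 1 E₄ := by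
    have h1 : (E12 : ℍ → ℂ) = ((E₄.mul E₄).mul E₄ : ModularForm 𝒮ℒ (4 + 4 + 4)) := rfl
    rw [h1, ModularForm.qExpansion_mul one_pos one_mem_strictPeriods_SL,
      ModularForm.qExpansion_mul one_pos one_mem_strictPeriods_SL]
  rw [h]
  exact mul_mem (mul_mem H96.qExpansion_E₄_mem_intSeries H96.qExpansion_E₄_mem_intSeries)
    H96.qExpansion_E₄_mem_intSeries

lemma qExpansion_eN_mem_intSeries : qExpansion 1 (eN N) ∈ H96.intSeries :=
  qExpansion_levelRaise_mem_intSeries N (by norm_num) E12 qExpansion_E12_mem_intSeries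

lemma qExpansion_deltaN_mem_intSeries : qExpansion 1 (deltaN N) ∈ H96.intSeries :=
  qExpansion_levelRaise_mem_intSeries N (by norm_num) CuspForm.discriminant
    H96.qExpansion_discriminant_mem_intSeries

end Fermat.Agent.S23.H22
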