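import Mathlib.NumberTheory.ModularForms.CongruenceSubgroups
import Mathlib.LinearAlgebra.Matrix.SpecialLinearGroup
import Fermat.Prelude.Def_ModularForm_HeckeOperator

/-!
# S23, package P4 (part a): Hermite normal form of `diag(N,1) * g`, `g ∈ SL(2,ℤ)`.
-/

set_option autoImplicit false

namespace Fermat.Agent.S23.H83

open scoped MatrixGroups
open Matrix

/-- Hermite normal form over `ℤ`: for `g ∈ SL(2,ℤ)` the matrix `diag(N,1) * g` is
`g' * [[a,b],[0,d]]` with `g' ∈ SL(2,ℤ)`, `a d = N`, `0 ≤ b < d`; and `d = 1` iff `g ∈ Γ₀(N)`. -/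
theorem exists_hermite_int (N : ℕ) (hN : N ≠ 0) (g : SL(2, ℤ)) :
    ∃ (g' : SL(2, ℤ)) (a b d : ℕ), a * d = N ∧ b < d ∧
      !![(N : ℤ), 0; 0, 1] * (g : Matrix (Fin 2) (Fin 2) ℤ) =
        (g' : Matrix (Fin 2) (Fin 2) ℤ) * !![(a : ℤ), (b : ℤ); 0, (d : ℤ)] ∧
      (d = 1 ↔ g ∈ CongruenceSubgroup.Gamma0 N) := by
  -- entries of g
  set α : ℤ := g 0 0 with hα
  set β : ℤ := g 0 1 with hβ
  set γ : ℤ := g 1 0 with hγ
  set δ : ℤ := g 1 1 with hδ
  have hdet : α * δ - β * γ = 1 := by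
    have := g.det_coe
    rw [Matrix.det_fin_two] at this
    exact this
  have hNpos : (0 : ℤ) < N := by exact_mod_cast Nat.pos_of_ne_zero hN
  -- a = gcd (N α, γ)
  set a : ℕ := Int.gcd (N * α) γ with ha
  have ha_dvd1 : (a : ℤ) ∣ N * α := Int.gcd_dvd_left _ _
  have ha_dvd2 : (a : ℤ) ∣ γ := Int.gcd_dvd_right _ _
  have ha_dvdN : (a : ℤ) ∣ N := by
    have h1 : (a : ℤ) ∣ N * α * δ - N * β * γ :=
      dvd_sub (Dvd.dvd.mul_right ha_dvd1 δ) (Dvd.dvd.mul_left ha_dvd2 _)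
    have h2 : (N : ℤ) * α * δ - N * β * γ = N := by linear_combination (N : ℤ) * hdet
    rwa [h2] at h1
  have ha0 : a ≠ 0 := by
    intro h0
    rw [h0] at ha_dvdN
    simp at ha_dvdN
    exact hN ha_dvdN
  have hapos : (0 : ℤ) < a := by exact_mod_cast Nat.pos_of_ne_zero ha0
  obtain ⟨d', hd'⟩ := ha_dvdN
  obtain ⟨u, hu⟩ := ha_dvd1
  obtain ⟨v, hv⟩ := ha_dvd2
  have huv : IsCoprime u v := by
    have h1 : Int.gcd (N * α) γ = a := rfl
    rw [hu, hv, Int.gcd_mul_left, Int.natAbs_natCast] at h1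
    have h2 : Int.gcd u v = 1 := by
      have : a * Int.gcd u v = a * 1 := by rw [h1, mul_one]
      exact Nat.eq_of_mul_eq_mul_left (Nat.pos_of_ne_zero ha0) this
    exact Int.isCoprime_iff_gcd_eq_one.mpr h2
  obtain ⟨g₀, hg₀0, hg₀1⟩ := huv.exists_SL2_col 0
  set s : ℤ := g₀ 0 1 with hs
  set t : ℤ := g₀ 1 1 with ht
  have hdet₀ : u * t - s * v = 1 := by
    have := g₀.det_coe
    rw [Matrix.det_fin_two, hg₀0, hg₀1] at this
    exact this
  have hd'pos : 0 < d' := by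
    by_contra hcon
    rw [not_lt] at hcon
    have : (a : ℤ) * d' ≤ 0 := mul_nonpos_of_nonneg_of_nonpos hapos.le hcon
    rw [← hd'] at this
    exact absurd hNpos (not_lt.mpr this)
  -- d as a natural number
  obtain ⟨d, rfl⟩ : ∃ d : ℕ, d' = (d : ℤ) := ⟨d'.toNat, (Int.toNat_of_nonneg hd'pos.le).symm⟩
  have hdpos : 0 < d := by exact_mod_cast hd'pos
  -- the raw upper right entry
  set b' : ℤ := t * (N * β) - s * δ with hb'
  -- second row second column
  have hdd : u * δ - v * (N * β) = d := by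
    have h1 : (a : ℤ) * (u * δ - v * (N * β)) = a * d := by
      have e1 : (a : ℤ) * u = N * α := hu.symm
      have e2 : (a : ℤ) * v = γ := hv.symm
      calc (a : ℤ) * (u * δ - v * (N * β)) = (a * u) * δ - (a * v) * (N * β) := by ring
        _ = N * α * δ - γ * (N * β) := by rw [e1, e2]
        _ = N * (α * δ - β * γ) := by ring
        _ = N := by rw [hdet, mul_one]
        _ = a * d := hd'
    exact mul_left_cancel₀ hapos.ne' h1
  -- reduce b' modulo d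
  set q : ℤ := b' / d with hq
  set b : ℕ := (b' % d).toNat with hb
  have hdz : (d : ℤ) ≠ 0 := by exact_mod_cast hdpos.ne'
  have hbnn : 0 ≤ b' % (d : ℤ) := Int.emod_nonneg _ hdz
  have hbcast : (b : ℤ) = b' % d := Int.toNat_of_nonneg hbnn
  have hblt : b < d := by
    have : (b : ℤ) < d := by rw [hbcast]; exact Int.emod_lt_of_pos _ (by exact_mod_cast hdpos)
    exact_mod_cast this
  have hb'eq : b' = b + q * d := by
    rw [hbcast, hq]
    have := Int.emod_add_mul_ediv b' d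
    linarith [this, mul_comm (b' / (d:ℤ)) (d : ℤ)]
  -- the matrix g' = g₀ * [[1,q],[0,1]]
  let T : SL(2, ℤ) := ⟨!![1, q; 0, 1], by rw [Matrix.det_fin_two_of]; ring⟩
  refine ⟨g₀ * T, a, b, d, ?_, hblt, ?_, ?_⟩
  · exact_mod_cast hd'.symm
  · have hg : (g : Matrix (Fin 2) (Fin 2) ℤ) = !![α, β; γ, δ] := by
      ext i j; fin_cases i <;> fin_cases j <;> rfl
    have hg₀ : (g₀ : Matrix (Fin 2) (Fin 2) ℤ) = !![u, s; v, t] := by
      ext i j; fin_cases i <;> fin_cases j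
      · exact hg₀0
      · rfl
      · exact hg₀1
      · rfl
    rw [Matrix.SpecialLinearGroup.coe_mul, hg, hg₀]
    show _ = !![u, s; v, t] * !![1, q; 0, 1] * _
    rw [Matrix.mul_fin_two, Matrix.mul_fin_two, Matrix.mul_fin_two]
    have e1 : (a : ℤ) * u = N * α := hu.symm
    have e2 : (a : ℤ) * v = γ := hv.symm
    -- N β = u b' + s d,  δ = v b' + t d
    have e3 : (N : ℤ) * β = u * b' + s * d := by
      rw [hb', ← hdd]; linear_combination (-(N:ℤ) * β) * hdet₀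
    have e4 : δ = v * b' + t * d := by
      rw [hb', ← hdd]; linear_combination (-δ) * hdet₀
    congr 1
    ext i j
    fin_cases i <;> fin_cases j <;> simp
    · linear_combination -e1
    · rw [e3, hb'eq]; ring
    · linear_combination -e2
    · rw [e4, hb'eq]; ring
  · rw [CongruenceSubgroup.Gamma0_mem]
    show d = 1 ↔ ((γ : ℤ) : ZMod N) = 0
    rw [ZMod.intCast_zmod_eq_zero_iff_dvd]
    constructor
    · intro hd1
      subst hd1
      have haN : (a : ℤ) = N := by simpa using hd'.symm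
      rw [← haN]
      exact ⟨v, hv⟩
    · intro hNγ
      have h1 : (N : ℤ) ∣ (a : ℤ) := by
        rw [ha]
        exact Int.dvd_coe_gcd (Dvd.intro _ rfl) hNγ
      have h2 : (a : ℤ) ∣ N := ⟨d, hd'⟩
      have h3 : (a : ℤ) = N := Int.dvd_antisymm hapos.le hNpos.le h2 h1
      have h4 : (a : ℤ) * d = a * 1 := by rw [← hd', mul_one, h3]
      have h5 : (d : ℤ) = 1 := mul_left_cancel₀ hapos.ne' h4
      exact_mod_cast h5

end Fermat.Agent.S23.H83

namespace Fermat.Agent.S23.H83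

open scoped MatrixGroups
open Matrix

/-- **P4a** Hermite normal form in `GL(2,ℝ)`: `α_N * γ = γ' * [[a,b],[0,d]]`. -/
theorem exists_hnf_iff (N : ℕ) [NeZero N] (γ : SL(2, ℤ)) :
    ∃ (γ' : SL(2, ℤ)) (a b d : ℕ) (h : (a : ℝ) * (d : ℝ) ≠ 0), a * d = N ∧ b < d ∧
      ModularForm.heckeDiagMatrix N * Matrix.SpecialLinearGroup.mapGL ℝ γ
        = Matrix.SpecialLinearGroup.mapGL ℝ γ' * ModularForm.upperTriangularGL a b d h ∧
      (d = 1 ↔ γ ∈ CongruenceSubgroup.Gamma0 N) := by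
  obtain ⟨γ', a, b, d, had, hb, hmat, hiff⟩ := exists_hermite_int N (NeZero.ne N) γ
  have h : (a : ℝ) * (d : ℝ) ≠ 0 := by
    rw [← Nat.cast_mul, had]; exact_mod_cast NeZero.ne N
  refine ⟨γ', a, b, d, h, had, hb, ?_, hiff⟩
  have hL : (!![(N : ℝ), 0; 0, 1] : Matrix (Fin 2) (Fin 2) ℝ)
      = (Int.castRingHom ℝ).mapMatrix !![(N : ℤ), 0; 0, 1] := by
    ext i j; fin_cases i <;> fin_cases j <;> simp
  have hR : (!![(a : ℝ), (b : ℝ); 0, (d : ℝ)] : Matrix (Fin 2) (Fin 2) ℝ)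
      = (Int.castRingHom ℝ).mapMatrix !![(a : ℤ), (b : ℤ); 0, (d : ℤ)] := by
    ext i j; fin_cases i <;> fin_cases j <;> simp
  have hmap : ∀ g : SL(2, ℤ), ((Matrix.SpecialLinearGroup.mapGL ℝ g : GL (Fin 2) ℝ) :
      Matrix (Fin 2) (Fin 2) ℝ) = (Int.castRingHom ℝ).mapMatrix (g : Matrix (Fin 2) (Fin 2) ℤ) := by
    intro g
    rw [Matrix.SpecialLinearGroup.mapGL_coe_matrix]
    rfl
  apply Units.ext
  rw [Units.val_mul, Units.val_mul]
  show ((ModularForm.heckeDiagMatrix N : GL (Fin 2) ℝ) : Matrix (Fin 2) (Fin 2) ℝ) *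
      ((Matrix.SpecialLinearGroup.mapGL ℝ γ : GL (Fin 2) ℝ) : Matrix (Fin 2) (Fin 2) ℝ) =
    ((Matrix.SpecialLinearGroup.mapGL ℝ γ' : GL (Fin 2) ℝ) : Matrix (Fin 2) (Fin 2) ℝ) *
      ((ModularForm.upperTriangularGL a b d h : GL (Fin 2) ℝ) : Matrix (Fin 2) (Fin 2) ℝ)
  rw [ModularForm.val_heckeDiagMatrix (NeZero.ne N), ModularForm.val_upperTriangularGL,
    hmap, hmap, hL, hR, ← map_mul, ← map_mul, hmat]

/-- **P4a** in the exact shape requested by helper22. -/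
theorem exists_hnf (N : ℕ) [NeZero N] (γ : SL(2, ℤ)) :
    ∃ (γ' : SL(2, ℤ)) (a b d : ℕ) (h : (a : ℝ) * (d : ℝ) ≠ 0), a * d = N ∧ b < d ∧
      ModularForm.heckeDiagMatrix N * Matrix.SpecialLinearGroup.mapGL ℝ γ
        = Matrix.SpecialLinearGroup.mapGL ℝ γ' * ModularForm.upperTriangularGL a b d h ∧
      (d = 1 → γ ∈ CongruenceSubgroup.Gamma0 N) := by
  obtain ⟨γ', a, b, d, h, had, hb, hmat, hiff⟩ := exists_hnf_iff N γ
  exact ⟨γ', a, b, d, h, had, hb, hmat, hiff.mp⟩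

end Fermat.Agent.S23.H83
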