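import Mathlib.NumberTheory.ModularForms.QExpansion
import Mathlib.NumberTheory.ModularForms.BoundedAtCusp
import Mathlib.NumberTheory.ModularForms.Cusps
import Fermat.Prelude.Def_ModularForm_HeckeOperator

/-!
# S23 package P4b: the `q_N`-expansion of `F((a z + b) / d)` for a level one form `F`, `a d = N`.
-/

set_option autoImplicit false

namespace Fermat.Agent.S23.H83

open Complex Function Filter
open UpperHalfPlane hiding I
open scoped Real MatrixGroups ModularForm Manifold Topology

section Matrices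

variable (a b d : ℕ) (h : (a : ℝ) * (d : ℝ) ≠ 0)

theorem det_upperTriangularGL :
    ((ModularForm.upperTriangularGL a b d h).det : ℝ) = (a : ℝ) * (d : ℝ) := by
  rw [Matrix.GeneralLinearGroup.val_det_apply, ModularForm.val_upperTriangularGL,
    Matrix.det_fin_two_of]
  ring

include h in
theorem natCast_mul_pos : (0 : ℝ) < (a : ℝ) * (d : ℝ) :=
  lt_of_le_of_ne (by positivity) (Ne.symm h)

theorem det_upperTriangularGL_pos : 0 < ((ModularForm.upperTriangularGL a b d h).det : ℝ) := by
  rw [det_upperTriangularGL]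
  exact natCast_mul_pos a d h

include h in
theorem natCast_a_ne_zero : (a : ℂ) ≠ 0 := by
  have h1 : (a : ℝ) ≠ 0 := left_ne_zero_of_mul h
  exact_mod_cast h1

include h in
theorem natCast_d_ne_zero : (d : ℂ) ≠ 0 := by
  have h1 : (d : ℝ) ≠ 0 := right_ne_zero_of_mul h
  exact_mod_cast h1

theorem denom_upperTriangularGL (τ : ℍ) :
    UpperHalfPlane.denom (ModularForm.upperTriangularGL a b d h) τ = d := by
  simp [UpperHalfPlane.denom]

theorem coe_upperTriangularGL_smul (τ : ℍ) :
    ((ModularForm.upperTriangularGL a b d h • τ : ℍ) : ℂ) = ((a : ℂ) * (τ : ℂ) + b) / d := by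
  rw [UpperHalfPlane.coe_smul_of_det_pos (det_upperTriangularGL_pos a b d h)]
  simp [UpperHalfPlane.num, UpperHalfPlane.denom]

theorem σ_upperTriangularGL :
    UpperHalfPlane.σ (ModularForm.upperTriangularGL a b d h) = .refl ℝ ℂ := by
  rw [UpperHalfPlane.σ, if_pos (det_upperTriangularGL_pos a b d h)]

theorem upperTriangularGL_one_zero :
    ((ModularForm.upperTriangularGL a b d h : GL (Fin 2) ℝ) : Matrix (Fin 2) (Fin 2) ℝ) 1 0 = 0 := by
  rw [ModularForm.val_upperTriangularGL]; rfl

theorem slash_upperTriangularGL_apply (k : ℤ) (f : ℍ → ℂ) (τ : ℍ) :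
    (f ∣[k] ModularForm.upperTriangularGL a b d h) τ
      = (((a : ℂ) * (d : ℂ)) ^ (k - 1) * (d : ℂ) ^ (-k))
        * f (ModularForm.upperTriangularGL a b d h • τ) := by
  rw [ModularForm.slash_apply, σ_upperTriangularGL, det_upperTriangularGL,
    denom_upperTriangularGL]
  simp only [ContinuousAlgEquiv.refl_apply]
  rw [abs_of_pos (natCast_mul_pos a d h)]
  push_cast
  ring

end Matrices

section Periodicity

/-- A function on `ℍ` invariant under `τ ↦ τ + N` gives an `N`-periodic function on `ℂ`. -/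
theorem periodic_comp_ofComplex_of_coe_add {g : ℍ → ℂ} (N : ℕ)
    (hg : ∀ τ τ' : ℍ, (τ' : ℂ) = τ + N → g τ' = g τ) :
    Periodic (g ∘ ofComplex) (N : ℂ) := by
  intro w
  by_cases hw : 0 < im w
  · have hw' : 0 < im (w + N) := by simpa using hw
    simp only [comp_apply, ofComplex_apply_of_im_pos hw', ofComplex_apply_of_im_pos hw]
    exact hg ⟨w, hw⟩ ⟨w + N, hw'⟩ rfl
  · have hw1 : im (w + N) ≤ 0 := by simpa using hw
    have hw0 : im w ≤ 0 := not_lt.mp hw
    simp only [comp_apply, ofComplex_apply_eq_of_im_nonpos hw1 hw0]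

theorem one_mem_strictPeriods_SL' : (1 : ℝ) ∈ (𝒮ℒ).strictPeriods := by simp

theorem levelOne_apply_eq_of_coe_eq_add_nat {k : ℤ} (F : ModularForm 𝒮ℒ k) {τ₁ τ₂ : ℍ} (m : ℕ)
    (hτ : (τ₁ : ℂ) = τ₂ + m) : F τ₁ = F τ₂ := by
  have hper : Periodic (F ∘ ofComplex) ((1 : ℝ) : ℂ) :=
    SlashInvariantFormClass.periodic_comp_ofComplex F one_mem_strictPeriods_SL'
  have h1 : (F ∘ ofComplex) ((τ₂ : ℂ) + m) = (F ∘ ofComplex) (τ₂ : ℂ) := by
    have := hper.nat_mul m
    rw [Complex.ofReal_one, mul_one] at this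
    exact this (τ₂ : ℂ)
  simp only [comp_apply] at h1
  rw [← hτ, ofComplex_apply, ofComplex_apply] at h1
  exact h1

end Periodicity

section Main

variable {k : ℤ} (F : ModularForm 𝒮ℒ k) (a b d : ℕ) (h : (a : ℝ) * (d : ℝ) ≠ 0)

theorem comp_apply_eq_of_coe_eq_add {τ τ' : ℍ} (hτ : (τ' : ℂ) = τ + (a * d : ℕ)) :
    F (ModularForm.upperTriangularGL a b d h • τ')
      = F (ModularForm.upperTriangularGL a b d h • τ) := by
  refine levelOne_apply_eq_of_coe_eq_add_nat F (a ^ 2) ?_
  rw [coe_upperTriangularGL_smul, coe_upperTriangularGL_smul, hτ]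
  have hd := natCast_d_ne_zero a d h
  push_cast
  field_simp
  ring

theorem qParam_upperTriangularGL_smul (τ : ℍ) :
    Periodic.qParam 1 ((ModularForm.upperTriangularGL a b d h • τ : ℍ) : ℂ)
      = Complex.exp (2 * π * Complex.I * b / d) * Periodic.qParam ((a * d : ℕ) : ℝ) τ ^ (a ^ 2) := by
  have ha := natCast_a_ne_zero a d h
  have hd := natCast_d_ne_zero a d h
  rw [coe_upperTriangularGL_smul]
  simp only [Periodic.qParam]
  rw [← Complex.exp_nat_mul, ← Complex.exp_add]
  congr 1
  push_cast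
  field_simp
  ring

/-- The coefficients of the `q_N`-expansion of `F ((a z + b) / d)`. -/
noncomputable def compCoeff (n : ℕ) : ℂ :=
  if a ^ 2 ∣ n then
    Complex.exp (2 * π * Complex.I * b * ((n / a ^ 2 : ℕ) : ℂ) / d)
      * (qExpansion 1 F).coeff (n / a ^ 2)
  else 0

theorem hasSum_comp_upperTriangular (τ : ℍ) :
    HasSum (fun n : ℕ ↦ compCoeff F a b d n • Periodic.qParam ((a * d : ℕ) : ℝ) τ ^ n)
      (F (ModularForm.upperTriangularGL a b d h • τ)) := by
  have ha : a ≠ 0 := by
    have := natCast_a_ne_zero a d h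
    exact_mod_cast this
  have ha2 : a ^ 2 ≠ 0 := pow_ne_zero 2 ha
  have : Fact (IsCusp OnePoint.infty (𝒮ℒ : Subgroup (GL (Fin 2) ℝ))) :=
    ⟨Subgroup.isCusp_of_mem_strictPeriods one_pos one_mem_strictPeriods_SL'⟩
  have hF := ModularForm.hasSum_qExpansion F one_pos one_mem_strictPeriods_SL'
    (ModularForm.upperTriangularGL a b d h • τ)
  rw [qParam_upperTriangularGL_smul] at hF
  have hinj : Function.Injective (fun l : ℕ ↦ l * a ^ 2) := mul_left_injective₀ ha2
  refine (hinj.hasSum_iff (fun m hm => ?_)).mp ?_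
  · have hnd : ¬ a ^ 2 ∣ m := by
      rintro ⟨l, rfl⟩
      exact hm ⟨l, by simp [mul_comm]⟩
    simp [compCoeff, hnd]
  · convert hF using 1
    funext l
    simp only [comp_apply, compCoeff, if_pos (dvd_mul_left (a ^ 2) l),
      Nat.mul_div_cancel _ (Nat.pos_of_ne_zero ha2), smul_eq_mul]
    rw [mul_pow, ← pow_mul, ← Complex.exp_nat_mul, mul_comm l (a ^ 2)]
    have : (l : ℂ) * (2 * π * Complex.I * b / d) = 2 * π * Complex.I * b * (l : ℂ) / d := by ring
    rw [this]
    ring

theorem mdifferentiable_comp_upperTriangular :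
    MDiff (fun z : ℍ => F (ModularForm.upperTriangularGL a b d h • z)) :=
  (ModularFormClass.holo F).comp (mdifferentiable_smul (det_upperTriangularGL_pos a b d h))

theorem periodic_comp_upperTriangular :
    Periodic ((fun z : ℍ => F (ModularForm.upperTriangularGL a b d h • z)) ∘ ofComplex)
      ((a * d : ℕ) : ℂ) :=
  periodic_comp_ofComplex_of_coe_add (a * d)
    (fun _ _ hτ => comp_apply_eq_of_coe_eq_add F a b d h hτ)

include h in
theorem natCast_mul_pos' : (0 : ℝ) < ((a * d : ℕ) : ℝ) := by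
  have := natCast_mul_pos a d h
  push_cast
  exact this

theorem isBoundedAtImInfty_comp_upperTriangular :
    IsBoundedAtImInfty (fun z : ℍ => F (ModularForm.upperTriangularGL a b d h • z)) :=
  isBoundedAtImInfty_of_hasSum_qExpansion (natCast_mul_pos' a d h)
    (hasSum_comp_upperTriangular F a b d h)

theorem qExpansion_comp_upperTriangular_coeff (n : ℕ) :
    (qExpansion ((a * d : ℕ) : ℝ)
      (fun z : ℍ => F (ModularForm.upperTriangularGL a b d h • z))).coeff n
      = compCoeff F a b d n := by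
  have hper : Periodic ((fun z : ℍ => F (ModularForm.upperTriangularGL a b d h • z)) ∘ ofComplex)
      ((((a * d : ℕ) : ℝ)) : ℂ) := by
    rw [Complex.ofReal_natCast]
    exact periodic_comp_upperTriangular F a b d h
  have han := analyticAt_cuspFunction_zero (natCast_mul_pos' a d h) hper
    (mdifferentiable_comp_upperTriangular F a b d h)
    (isBoundedAtImInfty_comp_upperTriangular F a b d h)
  exact (UpperHalfPlane.qExpansion_coeff_unique
    (ContinuousMap.mk _ (mdifferentiable_comp_upperTriangular F a b d h).continuous)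
    (natCast_mul_pos' a d h) han (hasSum_comp_upperTriangular F a b d h) n).symm

theorem slash_upperTriangularGL_eq_smul :
    (⇑F ∣[k] ModularForm.upperTriangularGL a b d h)
      = (((a : ℂ) * (d : ℂ)) ^ (k - 1) * (d : ℂ) ^ (-k))
        • (fun z : ℍ => F (ModularForm.upperTriangularGL a b d h • z)) := by
  funext τ
  rw [slash_upperTriangularGL_apply]
  rfl

include h in
theorem slash_const_ne_zero : ((a : ℂ) * (d : ℂ)) ^ (k - 1) * (d : ℂ) ^ (-k) ≠ 0 := by
  have ha := natCast_a_ne_zero a d h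
  have hd := natCast_d_ne_zero a d h
  exact mul_ne_zero (zpow_ne_zero _ (mul_ne_zero ha hd)) (zpow_ne_zero _ hd)

end Main

/-- **P4b**: the `q_N`-expansion of `z ↦ F ((a z + b) / d)` for `F` of level one and `a d = N`. -/
theorem comp_upperTriangular (N : ℕ) [NeZero N] {k : ℤ} (F : ModularForm 𝒮ℒ k)
    (a b d : ℕ) (h : (a : ℝ) * (d : ℝ) ≠ 0) (had : a * d = N) :
    let G : ℍ → ℂ := fun z => F (ModularForm.upperTriangularGL a b d h • z)
    Function.Periodic (G ∘ UpperHalfPlane.ofComplex) N ∧ MDiff G ∧ IsBoundedAtImInfty G ∧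
    (∀ n, (qExpansion N G).coeff n = if a ^ 2 ∣ n then
        Complex.exp (2 * π * Complex.I * b * ((n / a ^ 2 : ℕ) : ℂ) / d)
          * (qExpansion 1 F).coeff (n / a ^ 2)
      else 0) ∧
    ∃ C : ℂ, C ≠ 0 ∧ (⇑F ∣[k] ModularForm.upperTriangularGL a b d h) = C • G := by
  subst had
  intro G
  refine ⟨periodic_comp_upperTriangular F a b d h, mdifferentiable_comp_upperTriangular F a b d h,
    isBoundedAtImInfty_comp_upperTriangular F a b d h,
    fun n => qExpansion_comp_upperTriangular_coeff F a b d h n,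
    _, slash_const_ne_zero a d h, slash_upperTriangularGL_eq_smul F a b d h⟩

end Fermat.Agent.S23.H83
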