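import Mathlib.NumberTheory.ModularForms.NormTrace
import Mathlib.NumberTheory.ModularForms.QExpansion
import Mathlib.LinearAlgebra.Lagrange

/-!
# Symmetric polynomial expressions of equivariant families are level-one modular forms
(helper22, part of the S23 development)
-/

set_option autoImplicit false

open UpperHalfPlane ModularForm Polynomial
open scoped MatrixGroups ModularForm Manifold

noncomputable section

namespace Fermat.Agent.S23.H22

/-- Build a level one modular form from invariance under `SL(2, ℤ)`, holomorphy and boundedness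
at `i∞`. -/
def mkLevelOne (k : ℤ) (F : ℍ → ℂ) (hinv : ∀ γ : SL(2, ℤ), F ∣[k] γ = F) (hol : MDiff F)
    (hb : IsBoundedAtImInfty F) : ModularForm 𝒮ℒ k where
  toFun := F
  slash_action_eq' A hA := by
    obtain ⟨A, rfl⟩ := hA
    exact hinv A
  holo' := hol
  bdd_at_cusps' hc := by
    rw [OnePoint.isBoundedAt_iff_forall_SL2Z hc]
    intro γ _
    rw [hinv γ]
    exact hb

@[simp] lemma mkLevelOne_apply (k : ℤ) (F : ℍ → ℂ) (hinv : ∀ γ : SL(2, ℤ), F ∣[k] γ = F)
    (hol : MDiff F) (hb : IsBoundedAtImInfty F) (z : ℍ) :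
    mkLevelOne k F hinv hol hb z = F z := rfl

/-- Build a level one cusp form from invariance under `SL(2, ℤ)`, holomorphy and vanishing
at `i∞`. -/
def mkLevelOneCusp (k : ℤ) (F : ℍ → ℂ) (hinv : ∀ γ : SL(2, ℤ), F ∣[k] γ = F) (hol : MDiff F)
    (hb : IsZeroAtImInfty F) : CuspForm 𝒮ℒ k where
  toFun := F
  slash_action_eq' A hA := by
    obtain ⟨A, rfl⟩ := hA
    exact hinv A
  holo' := hol
  zero_at_cusps' hc := by
    rw [OnePoint.isZeroAt_iff_forall_SL2Z hc]
    intro γ _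
    rw [hinv γ]
    exact hb

@[simp] lemma mkLevelOneCusp_apply (k : ℤ) (F : ℍ → ℂ) (hinv : ∀ γ : SL(2, ℤ), F ∣[k] γ = F)
    (hol : MDiff F) (hb : IsZeroAtImInfty F) (z : ℍ) :
    mkLevelOneCusp k F hinv hol hb z = F z := rfl

/-- The polynomial `∏ i, (A i z * X + B i z)`. -/
def famPoly {ι : Type*} [Fintype ι] (A B : ι → ℍ → ℂ) (z : ℍ) : ℂ[X] :=
  ∏ i, (C (A i z) * X + C (B i z))

lemma famPoly_natDegree_le {ι : Type*} [Fintype ι] (A B : ι → ℍ → ℂ) (z : ℍ) :
    (famPoly A B z).natDegree ≤ Fintype.card ι := by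
  unfold famPoly
  refine (natDegree_prod_le _ _).trans ?_
  calc ∑ i : ι, (C (A i z) * X + C (B i z)).natDegree ≤ ∑ _i : ι, 1 := by
        refine Finset.sum_le_sum fun i _ => ?_
        exact natDegree_linear_le
    _ = Fintype.card ι := by simp

lemma famPoly_eval {ι : Type*} [Fintype ι] (A B : ι → ℍ → ℂ) (z : ℍ) (x : ℂ) :
    (famPoly A B z).eval x = ∏ i, (A i z * x + B i z) := by
  simp [famPoly, eval_prod]

/-- Scaling lemma for the coefficients. -/
lemma coeff_prod_scale {ι : Type*} [Fintype ι] (α β : ι → ℂ) (J : ℂ) (hJ : J ≠ 0) (a b : ℤ)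
    (m : ℕ) :
    (∏ i, (C (α i * J ^ a) * X + C (β i * J ^ b))).coeff m =
      J ^ (a * m + b * (Fintype.card ι - m)) * (∏ i, (C (α i) * X + C (β i))).coeff m := by
  have h1 : ∀ i, (C (α i * J ^ a) * X + C (β i * J ^ b) : ℂ[X]) =
      C (J ^ b) * ((C (α i) * X + C (β i)).comp (C (J ^ (a - b)) * X)) := by
    intro i
    simp only [add_comp, mul_comp, C_comp, X_comp, map_mul]
    have : (J ^ a : ℂ) = J ^ b * J ^ (a - b) := by
      rw [← zpow_add₀ hJ]; congr 1; ring
    rw [this, map_mul]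
    ring
  simp_rw [h1]
  rw [Finset.prod_mul_distrib, Finset.prod_const, ← prod_comp, ← map_pow, coeff_C_mul,
    comp_C_mul_X_coeff, Finset.card_univ]
  have h2 : (J ^ b) ^ Fintype.card ι * (J ^ (a - b)) ^ m =
      J ^ (a * m + b * (Fintype.card ι - m)) := by
    rw [← zpow_natCast (J ^ b), ← zpow_mul, ← zpow_natCast (J ^ (a - b)), ← zpow_mul,
      ← zpow_add₀ hJ]
    congr 1
    ring
  rw [← h2]
  ring

/-- Interpolation: the coefficient of a polynomial of degree `≤ n` is a fixed linear combination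
of its values at `0, 1, …, n`. -/
lemma coeff_eq_sum_eval (n m : ℕ) :
    ∃ c : ℕ → ℂ, ∀ p : ℂ[X], p.natDegree ≤ n →
      p.coeff m = ∑ j ∈ Finset.range (n + 1), p.eval (j : ℂ) * c j := by
  classical
  refine ⟨fun j => (Lagrange.basis (Finset.range (n + 1)) (fun j : ℕ => (j : ℂ)) j).coeff m, ?_⟩
  intro p hp
  have hinj : Set.InjOn (fun j : ℕ => (j : ℂ)) (Finset.range (n + 1) : Set ℕ) := by
    intro x _ y _ h
    simpa using h
  have hdeg : p.degree < (Finset.range (n + 1)).card := by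
    rw [Finset.card_range]
    refine lt_of_le_of_lt degree_le_natDegree ?_
    exact_mod_cast Nat.lt_succ_of_le hp
  have := Lagrange.eq_interpolate (f := p) hinj hdeg
  conv_lhs => rw [this]
  rw [Lagrange.interpolate_apply, finsetSum_coeff]
  refine Finset.sum_congr rfl fun j _ => ?_
  rw [coeff_C_mul]

section SymPoly

variable {ι : Type} [Fintype ι] (π : SL(2, ℤ) → Equiv.Perm ι) {a b : ℤ} (A B : ι → ℍ → ℂ)

lemma apply_smul_of_slash {k : ℤ} {f g : ℍ → ℂ} {γ : SL(2, ℤ)} (h : f ∣[k] γ = g) (z : ℍ) :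
    f (γ • z) = g z * denom γ z ^ k := by
  have := congrFun h z
  rw [SL_slash_apply] at this
  rw [← this, mul_assoc, ← zpow_add₀ (denom_ne_zero γ z), neg_add_cancel, zpow_zero, mul_one]

lemma famPoly_smul (hA : ∀ γ i, A i ∣[a] γ = A (π γ i)) (hB : ∀ γ i, B i ∣[b] γ = B (π γ i))
    (γ : SL(2, ℤ)) (z : ℍ) :
    famPoly A B (γ • z) =
      ∏ i, (C (A i z * denom γ z ^ a) * X + C (B i z * denom γ z ^ b)) := by
  unfold famPoly
  simp_rw [apply_smul_of_slash (hA γ _), apply_smul_of_slash (hB γ _)]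
  exact Equiv.prod_comp (π γ)
    (fun i => (C (A i z * denom γ z ^ a) * X + C (B i z * denom γ z ^ b) : ℂ[X]))

lemma famPoly_coeff_slash (hA : ∀ γ i, A i ∣[a] γ = A (π γ i))
    (hB : ∀ γ i, B i ∣[b] γ = B (π γ i)) (m : ℕ) (γ : SL(2, ℤ)) :
    (fun z => (famPoly A B z).coeff m) ∣[a * m + b * (Fintype.card ι - m)] γ =
      fun z => (famPoly A B z).coeff m := by
  ext z
  rw [SL_slash_apply, famPoly_smul π A B hA hB, coeff_prod_scale _ _ _ (denom_ne_zero γ z)]
  unfold famPoly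
  rw [mul_comm, ← mul_assoc, ← zpow_add₀ (denom_ne_zero γ z), neg_add_cancel, zpow_zero, one_mul]

lemma famPoly_coeff_mdiff (hA : ∀ i, MDiff (A i)) (hB : ∀ i, MDiff (B i)) (m : ℕ) :
    MDiff (fun z => (famPoly A B z).coeff m) := by
  obtain ⟨c, hc⟩ := coeff_eq_sum_eval (Fintype.card ι) m
  have : (fun z => (famPoly A B z).coeff m) =
      ∑ j ∈ Finset.range (Fintype.card ι + 1),
        (∏ i, (A i * (fun _ => (j : ℂ)) + B i)) * (fun _ => c j) := by
    ext z
    rw [hc _ (famPoly_natDegree_le A B z)]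
    simp [famPoly_eval, Finset.sum_apply, Finset.prod_apply]
  rw [this]
  refine MDifferentiable.sum fun j _ => ?_
  have h1 : MDifferentiable 𝓘(ℂ) 𝓘(ℂ) (∏ i, (A i * (fun _ => (j : ℂ)) + B i) : ℍ → ℂ) :=
    MDifferentiable.prod fun i _ => ((hA i).mul mdifferentiable_const).add (hB i)
  exact h1.mul mdifferentiable_const

lemma famPoly_coeff_bdd (hA : ∀ i, IsBoundedAtImInfty (A i)) (hB : ∀ i, IsBoundedAtImInfty (B i))
    (m : ℕ) : IsBoundedAtImInfty (fun z => (famPoly A B z).coeff m) := by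
  obtain ⟨c, hc⟩ := coeff_eq_sum_eval (Fintype.card ι) m
  have : (fun z => (famPoly A B z).coeff m) =
      ∑ j ∈ Finset.range (Fintype.card ι + 1),
        (∏ i, (A i * (fun _ => (j : ℂ)) + B i)) * (fun _ => c j) := by
    ext z
    rw [hc _ (famPoly_natDegree_le A B z)]
    simp [famPoly_eval, Finset.sum_apply, Finset.prod_apply]
  rw [this]
  unfold IsBoundedAtImInfty at *
  refine (Filter.boundedFilterSubmodule ℂ atImInfty).sum_mem fun j _ => ?_
  refine Filter.BoundedAtFilter.mul ?_ (Filter.const_boundedAtFilter _ _)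
  refine Filter.BoundedAtFilter.prod _ fun i _ => ?_
  exact ((hA i).mul (Filter.const_boundedAtFilter _ _)).add (hB i)

/-- **SymPoly**: the coefficients of `∏ i, (A i * X + B i)` are level one modular forms. -/
theorem exists_modularForm_coeff_famPoly (hA : ∀ γ i, A i ∣[a] γ = A (π γ i))
    (hB : ∀ γ i, B i ∣[b] γ = B (π γ i)) (hAh : ∀ i, MDiff (A i)) (hBh : ∀ i, MDiff (B i))
    (hAb : ∀ i, IsBoundedAtImInfty (A i)) (hBb : ∀ i, IsBoundedAtImInfty (B i)) (m : ℕ) :
    ∃ F : ModularForm 𝒮ℒ (a * m + b * (Fintype.card ι - m)),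
      ∀ z, F z = (famPoly A B z).coeff m :=
  ⟨mkLevelOne _ _ (famPoly_coeff_slash π A B hA hB m) (famPoly_coeff_mdiff A B hAh hBh m)
    (famPoly_coeff_bdd A B hAb hBb m), fun _ => rfl⟩

end SymPoly

end Fermat.Agent.S23.H22
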