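import Mathlib.NumberTheory.ModularForms.Discriminant
import Mathlib.NumberTheory.ModularForms.LevelOne.DimensionFormula
import Fermat.Prelude.Def_ModularForm_HeckeOperator

/-!
# Upper triangular matrices acting on the upper half plane, and asymptotics at `i∞`
(helper77, part of the S23 development: used for `Dhat ≠ 0`)
-/

set_option autoImplicit false

open UpperHalfPlane ModularForm Filter Topology
open scoped MatrixGroups ModularForm Manifold Real

noncomputable section

namespace Fermat.Agent.S23.H77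

variable (a b d : ℕ) (h : (a : ℝ) * (d : ℝ) ≠ 0)

theorem det_upperTriangularGL : ((upperTriangularGL a b d h).det : ℝ) = a * d := by
  rw [Matrix.GeneralLinearGroup.val_det_apply, val_upperTriangularGL, Matrix.det_fin_two_of]
  ring

theorem det_upperTriangularGL_pos : 0 < ((upperTriangularGL a b d h).det : ℝ) := by
  rw [det_upperTriangularGL]
  have h1 : (0 : ℝ) ≤ (a : ℝ) * d := by positivity
  exact lt_of_le_of_ne h1 (Ne.symm h)

omit h in
theorem d_ne_zero_of (h : (a : ℝ) * (d : ℝ) ≠ 0) : d ≠ 0 := by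
  rintro rfl
  simp at h

omit h in
theorem a_ne_zero_of (h : (a : ℝ) * (d : ℝ) ≠ 0) : a ≠ 0 := by
  rintro rfl
  simp at h

theorem denom_upperTriangularGL (τ : ℍ) :
    UpperHalfPlane.denom (upperTriangularGL a b d h) τ = d := by
  simp [UpperHalfPlane.denom, val_upperTriangularGL]

theorem coe_upperTriangularGL_smul (τ : ℍ) :
    ((upperTriangularGL a b d h • τ : ℍ) : ℂ) = ((a : ℂ) * τ + b) / d := by
  rw [UpperHalfPlane.coe_smul_of_det_pos (det_upperTriangularGL_pos a b d h)]
  simp [UpperHalfPlane.num, UpperHalfPlane.denom, val_upperTriangularGL]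

theorem im_upperTriangularGL_smul (τ : ℍ) :
    (upperTriangularGL a b d h • τ : ℍ).im = (a : ℝ) / d * τ.im := by
  have hd : (d : ℝ) ≠ 0 := by exact_mod_cast d_ne_zero_of a d h
  have h1 : (upperTriangularGL a b d h • τ : ℍ).im
      = (((upperTriangularGL a b d h • τ : ℍ) : ℂ)).im := rfl
  rw [h1, coe_upperTriangularGL_smul]
  have h2 : (((a : ℂ) * τ + b) / d) = (((a : ℝ) / d : ℝ) : ℂ) * (τ : ℂ) + (((b : ℝ) / d : ℝ) : ℂ) := by
    push_cast
    field_simp
  rw [h2]
  simp

theorem σ_upperTriangularGL : UpperHalfPlane.σ (upperTriangularGL a b d h) = .refl ℝ ℂ := by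
  rw [UpperHalfPlane.σ, if_pos (det_upperTriangularGL_pos a b d h)]

theorem slash_upperTriangularGL_apply (k : ℤ) (f : ℍ → ℂ) (τ : ℍ) :
    (f ∣[k] upperTriangularGL a b d h) τ
      = ((a : ℂ) * d) ^ (k - 1) * (d : ℂ) ^ (-k) * f (upperTriangularGL a b d h • τ) := by
  rw [ModularForm.slash_apply, σ_upperTriangularGL, det_upperTriangularGL,
    denom_upperTriangularGL]
  simp only [ContinuousAlgEquiv.refl_apply]
  have h1 : |(a : ℝ) * d| = (a : ℝ) * d := abs_of_nonneg (by positivity)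
  rw [h1]
  push_cast
  ring

theorem tendsto_upperTriangularGL_smul :
    Tendsto (fun τ : ℍ => upperTriangularGL a b d h • τ) atImInfty atImInfty := by
  rw [atImInfty, tendsto_comap_iff]
  have hpos : 0 < (a : ℝ) / d := by
    have ha : (0 : ℝ) < a := by exact_mod_cast Nat.pos_of_ne_zero (a_ne_zero_of a d h)
    have hd : (0 : ℝ) < d := by exact_mod_cast Nat.pos_of_ne_zero (d_ne_zero_of a d h)
    positivity
  have : (UpperHalfPlane.im ∘ fun τ : ℍ => upperTriangularGL a b d h • τ)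
      = fun τ : ℍ => (a : ℝ) / d * τ.im := by
    funext τ
    exact im_upperTriangularGL_smul a b d h τ
  rw [this]
  exact (tendsto_id.const_mul_atTop hpos).comp tendsto_comap

/-- A level one modular form tends to its constant `q`-coefficient at `i∞`. -/
theorem tendsto_levelOne_atImInfty {k : ℤ} (F : ModularForm 𝒮ℒ k) :
    Tendsto (fun τ : ℍ => F τ) atImInfty (𝓝 ((qExpansion 1 F).coeff 0)) := by
  have hper := SlashInvariantFormClass.periodic_comp_ofComplex F _root_.one_mem_strictPeriods_SL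
  have hhol := ModularFormClass.holo F
  have hbdd := ModularFormClass.bdd_at_infty F
  have han := UpperHalfPlane.analyticAt_cuspFunction_zero one_pos hper hhol hbdd
  have hval := UpperHalfPlane.qExpansion_coeff_zero one_pos han hper
  rw [hval]
  have hO := UpperHalfPlane.exp_decay_sub_atImInfty one_pos hper hhol hbdd
  have hexp : Tendsto (fun τ : ℍ => Real.exp (-2 * π * τ.im / 1)) atImInfty (𝓝 0) := by
    have h1 : Tendsto (fun τ : ℍ => 2 * π * τ.im) atImInfty atTop :=
      (tendsto_id.const_mul_atTop Real.two_pi_pos).comp tendsto_comap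
    have h2 := Real.tendsto_exp_neg_atTop_nhds_zero.comp h1
    refine h2.congr fun τ => ?_
    simp only [Function.comp_apply]
    congr 1
    ring
  have h0 := hO.trans_tendsto hexp
  have := h0.add_const (valueAtInfty (F : ℍ → ℂ))
  simpa using this

theorem tendsto_E₄_atImInfty : Tendsto (fun τ : ℍ => E₄ τ) atImInfty (𝓝 1) := by
  have := tendsto_levelOne_atImInfty E₄
  rwa [EisensteinSeries.E_qExpansion_coeff_zero _ ⟨2, rfl⟩] at this

theorem norm_qParam_one (τ : ℍ) :
    ‖Function.Periodic.qParam 1 (τ : ℂ)‖ = Real.exp (-2 * π * τ.im) := by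
  simp [Function.Periodic.qParam, Complex.norm_exp]

/-- The infinite product factor of `Δ`. -/
def discProd (w : ℍ) : ℂ := ∏' n : ℕ, (1 - eta_q n w) ^ 24

theorem discriminant_eq_qParam_mul_discProd (w : ℍ) :
    ModularForm.discriminant w = Function.Periodic.qParam 1 (w : ℂ) * discProd w :=
  discriminant_eq_q_prod w

theorem tendsto_discProd : Tendsto discProd atImInfty (𝓝 1) :=
  tendsto_atImInfty_tprod_one_sub_eta_q_pow

theorem discProd_ne_zero (w : ℍ) : discProd w ≠ 0 := by
  intro h0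
  have := discriminant_ne_zero w
  rw [discriminant_eq_qParam_mul_discProd, h0, mul_zero] at this
  exact this rfl

theorem qParam_one_ne_zero (w : ℍ) : Function.Periodic.qParam 1 (w : ℂ) ≠ 0 := by
  intro h0
  have := discriminant_ne_zero w
  rw [discriminant_eq_qParam_mul_discProd, h0, zero_mul] at this
  exact this rfl

variable (a₁ b₁ d₁ a₂ b₂ d₂ : ℕ) (h₁ : (a₁ : ℝ) * (d₁ : ℝ) ≠ 0) (h₂ : (a₂ : ℝ) * (d₂ : ℝ) ≠ 0)

theorem tendsto_qParam_ratio (hlt : (a₂ : ℝ) / d₂ < (a₁ : ℝ) / d₁) :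
    Tendsto (fun z : ℍ => Function.Periodic.qParam 1 ((upperTriangularGL a₁ b₁ d₁ h₁ • z : ℍ) : ℂ) /
      Function.Periodic.qParam 1 ((upperTriangularGL a₂ b₂ d₂ h₂ • z : ℍ) : ℂ)) atImInfty (𝓝 0) := by
  rw [tendsto_zero_iff_norm_tendsto_zero]
  set c : ℝ := 2 * π * ((a₁ : ℝ) / d₁ - (a₂ : ℝ) / d₂) with hc
  have hcpos : 0 < c := mul_pos Real.two_pi_pos (sub_pos.2 hlt)
  have h1 : Tendsto (fun τ : ℍ => c * τ.im) atImInfty atTop :=
    (tendsto_id.const_mul_atTop hcpos).comp tendsto_comap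
  have h2 := Real.tendsto_exp_neg_atTop_nhds_zero.comp h1
  refine h2.congr fun z => ?_
  simp only [Function.comp_apply]
  rw [norm_div, norm_qParam_one, norm_qParam_one, im_upperTriangularGL_smul,
    im_upperTriangularGL_smul, ← Real.exp_sub]
  congr 1
  rw [hc]
  ring

/-- The bracket `E₄(αz)³ Δ(βz) - Δ(αz) E₄(βz)³` is eventually nonzero at `i∞` when the
slope of `α` is bigger than the slope of `β`. -/
theorem eventually_bracket_ne_zero (hlt : (a₂ : ℝ) / d₂ < (a₁ : ℝ) / d₁) :
    ∀ᶠ z : ℍ in atImInfty,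
      E₄ (upperTriangularGL a₁ b₁ d₁ h₁ • z) ^ 3 *
          ModularForm.discriminant (upperTriangularGL a₂ b₂ d₂ h₂ • z)
        - ModularForm.discriminant (upperTriangularGL a₁ b₁ d₁ h₁ • z) *
          E₄ (upperTriangularGL a₂ b₂ d₂ h₂ • z) ^ 3 ≠ 0 := by
  set α := upperTriangularGL a₁ b₁ d₁ h₁ with hα
  set β := upperTriangularGL a₂ b₂ d₂ h₂ with hβ
  have tα : Tendsto (fun z : ℍ => α • z) atImInfty atImInfty :=
    tendsto_upperTriangularGL_smul a₁ b₁ d₁ h₁
  have tβ : Tendsto (fun z : ℍ => β • z) atImInfty atImInfty :=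
    tendsto_upperTriangularGL_smul a₂ b₂ d₂ h₂
  have hE1 : Tendsto (fun z : ℍ => E₄ (α • z)) atImInfty (𝓝 1) := tendsto_E₄_atImInfty.comp tα
  have hE2 : Tendsto (fun z : ℍ => E₄ (β • z)) atImInfty (𝓝 1) := tendsto_E₄_atImInfty.comp tβ
  have hP1 : Tendsto (fun z : ℍ => discProd (α • z)) atImInfty (𝓝 1) := tendsto_discProd.comp tα
  have hP2 : Tendsto (fun z : ℍ => discProd (β • z)) atImInfty (𝓝 1) := tendsto_discProd.comp tβ
  have hq := tendsto_qParam_ratio a₁ b₁ d₁ a₂ b₂ d₂ h₁ h₂ hlt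
  have hR : Tendsto (fun z : ℍ => E₄ (α • z) ^ 3 -
      (Function.Periodic.qParam 1 ((α • z : ℍ) : ℂ) / Function.Periodic.qParam 1 ((β • z : ℍ) : ℂ))
        * (discProd (α • z) / discProd (β • z)) * E₄ (β • z) ^ 3) atImInfty (𝓝 (1 ^ 3 - 0 * (1 / 1) * 1 ^ 3)) :=
    (hE1.pow 3).sub ((hq.mul (hP1.div hP2 one_ne_zero)).mul (hE2.pow 3))
  have hne : (1 : ℂ) ^ 3 - 0 * (1 / 1) * 1 ^ 3 ≠ 0 := by norm_num
  filter_upwards [hR.eventually_ne hne] with z hz
  intro hzero
  apply hz
  have hΔβ : ModularForm.discriminant (β • z) ≠ 0 := discriminant_ne_zero _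
  have hqβ := qParam_one_ne_zero (β • z)
  have hPβ := discProd_ne_zero (β • z)
  have key : (E₄ (α • z) ^ 3 -
      (Function.Periodic.qParam 1 ((α • z : ℍ) : ℂ) / Function.Periodic.qParam 1 ((β • z : ℍ) : ℂ))
        * (discProd (α • z) / discProd (β • z)) * E₄ (β • z) ^ 3) * ModularForm.discriminant (β • z)
      = E₄ (α • z) ^ 3 * ModularForm.discriminant (β • z)
        - ModularForm.discriminant (α • z) * E₄ (β • z) ^ 3 := by
    rw [discriminant_eq_qParam_mul_discProd (β • z), discriminant_eq_qParam_mul_discProd (α • z)]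
    field_simp
  rw [hzero] at key
  exact (mul_eq_zero.1 key).resolve_right hΔβ

end Fermat.Agent.S23.H77
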