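import Fermat.Agent.S23.H22_GS2

/-!
# Galois stability of `S_k(Γ₀(N))`: the conjugate function (helper22, part of the S23 development)
-/

set_option autoImplicit false
set_option linter.unusedSectionVars false

open UpperHalfPlane ModularForm Polynomial SlashInvariantForm EisensteinSeries
open scoped MatrixGroups ModularForm Manifold

noncomputable section

namespace Fermat.Agent.S23.H22

variable (N : ℕ) [NeZero N]

lemma card_Q_pos : 0 < Fintype.card (Q N) := Fintype.card_pos_iff.mpr ⟨q1⟩

/-- The weight of the reindexed coefficient forms of the norm relation. -/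
def relWeight (k : ℤ) (m : ℕ) : ℤ :=
  0 * (((Fintype.card (Q N) - 1 - m : ℕ) : ℕ) : ℤ) +
    k * ((Fintype.card (Q N) : ℤ) - ((Fintype.card (Q N) - 1 - m : ℕ) : ℤ))

lemma relWeight_eq (k : ℤ) (m : ℕ) (hm : m ≤ Fintype.card (Q N) - 1) :
    relWeight N k m = k * ((m : ℤ) + 1) := by
  have := card_Q_pos N
  unfold relWeight
  have h : ((Fintype.card (Q N) - 1 - m : ℕ) : ℤ) = (Fintype.card (Q N) : ℤ) - 1 - m := by omega
  rw [h]; ring

/-- The norm relation in the format of `relFun`. -/
theorem exists_norm_relation' {k : ℤ} (f : CuspForm (G0 N) k) :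
    ∃ c : (m : ℕ) → CuspForm 𝒮ℒ (relWeight N k m), ∀ z,
      f z ^ (Fintype.card (Q N) - 1 + 1) + ∑ m ∈ Finset.range (Fintype.card (Q N) - 1 + 1),
        c m z * f z ^ (Fintype.card (Q N) - 1 - m) = 0 := by
  obtain ⟨c, hc⟩ := exists_norm_relation N f
  refine ⟨fun m => c (Fintype.card (Q N) - 1 - m), fun z => ?_⟩
  have hpos := card_Q_pos N
  have h1 : Fintype.card (Q N) - 1 + 1 = Fintype.card (Q N) := by omega
  rw [h1, ← hc z]
  congr 1
  exact Finset.sum_range_reflect (fun j => c j z * f z ^ j) (Fintype.card (Q N))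

/-- `Dhat` is a nice function. -/
lemma Dhat_nice : Nice 1 (Dhat N) := by
  obtain ⟨Φ, hΦ⟩ := exists_identity_one N
  have hDf : combo N Φ = Dhat N := funext fun z => by rw [combo_apply, hΦ]
  rw [← hDf]
  exact combo_nice N Φ

/-- The conjugate function: holomorphic, `Γ₀(N)`-invariant of weight `k`, satisfying a monic
relation with level one cusp forms as coefficients, together with the numerator/denominator
presentation that determines its `q`-expansion. -/
theorem exists_conj_fun (hD : Dhat N ≠ 0) (σ : ℂ →+* ℂ) {k : ℤ} (f : CuspForm (G0 N) k) :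
    ∃ (g : ℍ → ℂ) (D' : ℍ → ℂ) (c' : (m : ℕ) → CuspForm 𝒮ℒ (relWeight N k m)),
      MDiff g ∧ Nice 1 D' ∧ D' ≠ 0 ∧
      qExpansion 1 D' = (qExpansion 1 (Dhat N)).map σ ∧
      qExpansion 1 (g * D') = (qExpansion 1 f).map σ * (qExpansion 1 (Dhat N)).map σ ∧
      (∀ γ : SL(2, ℤ), γ ∈ CongruenceSubgroup.Gamma0 N → g ∣[k] γ = g) ∧
      (∀ z, g z ^ (Fintype.card (Q N) - 1 + 1) +
        ∑ m ∈ Finset.range (Fintype.card (Q N) - 1 + 1),
          c' m z * g z ^ (Fintype.card (Q N) - 1 - m) = 0) := by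
  have hpos := card_Q_pos N
  obtain ⟨H, hH⟩ := exists_identity N f
  obtain ⟨Φ, hΦ⟩ := exists_identity_one N
  obtain ⟨c, hc⟩ := exists_norm_relation' N f
  choose H' hH' using fun j => H96.exists_conj σ (H j)
  choose Φ' hΦ' using fun j => H96.exists_conj σ (Φ j)
  choose c' hc' using fun m => H96.exists_conj_levelOne_cusp σ (c m)
  have hGf : combo N H = (f : ℍ → ℂ) * Dhat N := funext fun z => by
    rw [combo_apply, hH]; rfl
  have hDf : combo N Φ = Dhat N := funext fun z => by rw [combo_apply, hΦ]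
  have hfn : Nice 1 (f : ℍ → ℂ) := nice_G0 N f
  have hDn : Nice 1 (Dhat N) := Dhat_nice N
  have hG'n : Nice 1 (combo N H') := combo_nice N H'
  have hD'n : Nice 1 (combo N Φ') := combo_nice N Φ'
  have hG'q : qExpansion 1 (combo N H') =
      (qExpansion 1 f).map σ * (qExpansion 1 (Dhat N)).map σ := by
    rw [qExpansion_combo_conj N σ H H' hH', hGf, Nice.qExpansion_mul one_pos hfn hDn, map_mul]
  have hD'q : qExpansion 1 (combo N Φ') = (qExpansion 1 (Dhat N)).map σ := by
    rw [qExpansion_combo_conj N σ Φ Φ' hΦ', hDf]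
  have hD'0 : combo N Φ' ≠ 0 := by
    intro h0
    apply hD
    apply Nice.eq_zero_of_qExpansion_eq_zero one_pos hDn
    have h1 : (qExpansion 1 (Dhat N)).map σ = 0 := by
      rw [← hD'q, h0]; exact qExpansion_zero 1
    exact (PowerSeries.map_injective σ σ.injective) (by rw [h1, map_zero])
  -- the relation
  have hrel0 : relFun (Fintype.card (Q N) - 1) (fun m => (c m : ℍ → ℂ))
      ((f : ℍ → ℂ) * Dhat N) (Dhat N) = 0 :=
    relFun_mul_eq_zero _ _ _ _ hc
  have hcn : ∀ m, Nice 1 (c m : ℍ → ℂ) := fun m => nice_levelOne (c m)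
  have hc'n : ∀ m, Nice 1 (c' m : ℍ → ℂ) := fun m => nice_levelOne (c' m)
  have hrel1 : relFun (Fintype.card (Q N) - 1) (fun m => (c' m : ℍ → ℂ))
      (combo N H') (combo N Φ') = 0 := by
    apply Nice.eq_zero_of_qExpansion_eq_zero one_pos (relFun_nice _ hc'n hG'n hD'n)
    rw [qExpansion_relFun _ hc'n hG'n hD'n, hG'q, hD'q]
    have h2 := congrArg (PowerSeries.map σ) (congrArg (qExpansion 1) hrel0)
    rw [qExpansion_relFun _ hcn (hfn.mul hDn) hDn, Nice.qExpansion_mul one_pos hfn hDn,
      qExpansion_zero, map_zero, map_add, map_pow, map_mul, map_sum] at h2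
    rw [← h2]
    congr 1
    refine Finset.sum_congr rfl fun m _ => ?_
    rw [map_mul, map_mul, map_pow, map_pow, map_mul, hc']
  have hrel2 : ∀ z, combo N H' z ^ (Fintype.card (Q N) - 1 + 1) +
      ∑ m ∈ Finset.range (Fintype.card (Q N) - 1 + 1),
        c' m z * combo N Φ' z ^ (m + 1) * combo N H' z ^ (Fintype.card (Q N) - 1 - m) = 0 := by
    intro z
    have := congrFun hrel1 z
    rwa [relFun_apply] at this
  obtain ⟨g, hgd, hgD⟩ := H96.exists_mdiff_div (Fintype.card (Q N) - 1) (combo N H')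
    (combo N Φ') hG'n.hol hD'n.hol hD'0 (fun m => (c' m : ℍ → ℂ))
    (fun m => (hc'n m).hol) hrel2
  have hgG : g * combo N Φ' = combo N H' := funext fun z => hgD z
  refine ⟨g, combo N Φ', c', hgd, hD'n, hD'0, hD'q, by rw [hgG, hG'q], ?_, ?_⟩
  · -- invariance
    intro γ hγ
    have hF : MDiff (g ∣[k] γ - g) := (hgd.slash k _).sub hgd
    have hzero := H96.mdiff_eq_zero_of_mul_eq_zero (g ∣[k] γ - g) (combo N Φ') hF hD'n.hol hD'0
      (fun z => by
        have hJ := denom_ne_zero γ z
        have e1 := combo_smul N H' γ hγ z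
        have e2 := combo_smul N Φ' γ hγ z
        have e3 := hgD (γ • z)
        have e4 := hgD z
        rw [Pi.sub_apply, ModularForm.SL_slash_apply, sub_mul]
        have hpow : denom γ z ^ (lagrWeight (Q N) k 12 + 12 * ((Fintype.card (Q N) : ℤ) - 1)) =
            denom γ z ^ k *
              denom γ z ^ (lagrWeight (Q N) 0 12 + 12 * ((Fintype.card (Q N) : ℤ) - 1)) := by
          rw [← zpow_add₀ hJ]
          congr 1
          unfold lagrWeight; push_cast; ring
        have hne : denom γ z ^ (lagrWeight (Q N) 0 12 + 12 * ((Fintype.card (Q N) : ℤ) - 1)) ≠ 0 :=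
          zpow_ne_zero _ hJ
        rw [e1, hpow] at e3
        rw [e2] at e3
        have hk : denom γ z ^ k ≠ 0 := zpow_ne_zero _ hJ
        have e5 : g (γ • z) * combo N Φ' z = denom γ z ^ k * combo N H' z := by
          apply mul_left_cancel₀ hne
          linear_combination e3
        rw [sub_eq_zero, mul_right_comm, e5, e4, zpow_neg]
        field_simp)
    exact sub_eq_zero.mp hzero
  · exact monic_rel_of_relFun_eq_zero _ _ g (combo N Φ') (fun m => (hc'n m).hol) hgd hD'n.hol
      hD'0 (by rw [hgG]; exact hrel1)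

end Fermat.Agent.S23.H22
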