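import Fermat.Agent.S23.H22_Setup
import Fermat.Agent.S23.H83_Hermite
import Mathlib.NumberTheory.ModularForms.Discriminant
import Mathlib.NumberTheory.ModularForms.EisensteinSeries.QExpansion

/-!
# `Dhat N ≠ 0` (helper96, part of the S23 development)

Growth comparison at `i∞`: for a coset `q ≠ 1` the conjugate `Δ ∣ (a b; 0 d)` has `d > 1`, hence
decays like `exp (-2π (a/d) y)` with `a / d < N`, while `Δ ∣ α_N` decays like `exp (-2π N y)`.
-/

set_option autoImplicit false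
set_option linter.unusedSectionVars false

open UpperHalfPlane ModularForm SlashInvariantForm EisensteinSeries Filter Topology
open scoped MatrixGroups ModularForm Manifold

noncomputable section

namespace Fermat.Agent.S23.H96

local notation "𝕢" => Function.Periodic.qParam

/-! ### Behaviour of `E₄` and `Δ` at `i∞` -/

theorem tendsto_E4_atImInfty : Tendsto (fun τ : ℍ => E₄ τ) atImInfty (𝓝 1) := by
  have h1 : ContinuousAt (cuspFunction 1 E₄) 0 :=
    (ModularFormClass.analyticAt_cuspFunction_zero E₄ one_pos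
      one_mem_strictPeriods_SL).continuousAt
  have h2 : cuspFunction 1 E₄ 0 = 1 := by
    have := E_qExpansion_coeff_zero (k := 4) (by norm_num) (by decide)
    rw [qExpansion_coeff] at this
    simpa using this
  have h3 : Tendsto (fun τ : ℍ => cuspFunction 1 E₄ (𝕢 1 τ)) atImInfty (𝓝 1) := by
    rw [← h2]
    exact h1.tendsto.comp (qParam_tendsto_atImInfty one_pos)
  refine h3.congr fun τ => ?_
  exact SlashInvariantFormClass.eq_cuspFunction E₄ τ one_mem_strictPeriods_SL one_ne_zero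

/-- The bounded factor of `Δ`. -/
def deltaFactor (τ : ℍ) : ℂ := ∏' n : ℕ, (1 - eta_q n τ) ^ 24

theorem discriminant_eq_q_mul (τ : ℍ) : discriminant τ = 𝕢 1 τ * deltaFactor τ :=
  discriminant_eq_q_prod τ

theorem tendsto_deltaFactor : Tendsto deltaFactor atImInfty (𝓝 1) :=
  tendsto_atImInfty_tprod_one_sub_eta_q_pow

/-! ### Upper triangular matrices -/

section UT

variable (a b d : ℝ) (h : a * d ≠ 0)

theorem det_ut : ((upperTriangularGL a b d h).det : ℝ) = a * d := by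
  rw [Matrix.GeneralLinearGroup.val_det_apply, val_upperTriangularGL, Matrix.det_fin_two_of]
  ring

variable {a d}

theorem det_ut_pos (ha : 0 < a) (hd : 0 < d) : 0 < ((upperTriangularGL a b d h).det : ℝ) := by
  rw [det_ut]
  positivity

theorem denom_ut (τ : ℍ) : denom (upperTriangularGL a b d h) τ = d := by
  simp [denom, val_upperTriangularGL]

theorem coe_ut_smul (ha : 0 < a) (hd : 0 < d) (τ : ℍ) :
    ((upperTriangularGL a b d h • τ : ℍ) : ℂ) = ((a : ℂ) * τ + b) / d := by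
  rw [coe_smul_of_det_pos (det_ut_pos b h ha hd)]
  simp [num, denom, val_upperTriangularGL]

theorem im_ut_smul (ha : 0 < a) (hd : 0 < d) (τ : ℍ) :
    (upperTriangularGL a b d h • τ : ℍ).im = a / d * τ.im := by
  have h1 := coe_ut_smul b h ha hd τ
  have h2 : (upperTriangularGL a b d h • τ : ℍ).im
      = (((upperTriangularGL a b d h • τ : ℍ) : ℂ)).im := rfl
  rw [h2, h1]
  have hd' : (d : ℂ) ≠ 0 := by exact_mod_cast hd.ne'
  have : ((a : ℂ) * τ + b) / d = ((a / d : ℝ) : ℂ) * τ + ((b / d : ℝ) : ℂ) := by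
    push_cast
    field_simp
  rw [this]
  simp

theorem tendsto_ut_smul (ha : 0 < a) (hd : 0 < d) :
    Tendsto (fun τ : ℍ => upperTriangularGL a b d h • τ) atImInfty atImInfty := by
  rw [atImInfty, tendsto_comap_iff]
  have : (im ∘ fun τ : ℍ => upperTriangularGL a b d h • τ) = fun τ : ℍ => a / d * τ.im := by
    funext τ
    exact im_ut_smul b h ha hd τ
  rw [this]
  exact Tendsto.const_mul_atTop (by positivity) tendsto_comap

theorem σ_ut (ha : 0 < a) (hd : 0 < d) : σ (upperTriangularGL a b d h) = .refl ℝ ℂ := by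
  rw [σ, if_pos (det_ut_pos b h ha hd)]

theorem slash_ut_apply (k : ℤ) (ha : 0 < a) (hd : 0 < d) (f : ℍ → ℂ) (τ : ℍ) :
    (f ∣[k] upperTriangularGL a b d h) τ
      = ((a : ℂ) * d) ^ (k - 1) * (d : ℂ) ^ (-k) * f (upperTriangularGL a b d h • τ) := by
  rw [ModularForm.slash_apply, σ_ut b h ha hd, det_ut, denom_ut]
  have : |a * d| = a * d := abs_of_pos (by positivity)
  rw [this]
  simp only [ContinuousAlgEquiv.refl_apply, Complex.ofReal_mul]
  ring

end UT

/-! ### The growth comparison -/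

/-- Abstract comparison: if `q(u z) = q(w z) * ρ z` with `ρ → 0`, then
`E₄(u)³ Δ(w) - Δ(u) E₄(w)³` is eventually non-zero. -/
theorem eventually_comparison_ne_zero (u w : ℍ → ℍ) (ρ : ℍ → ℂ)
    (hu : Tendsto u atImInfty atImInfty) (hw : Tendsto w atImInfty atImInfty)
    (hρ : Tendsto ρ atImInfty (𝓝 0)) (hq : ∀ z, 𝕢 1 (u z) = 𝕢 1 (w z) * ρ z) :
    ∀ᶠ z : ℍ in atImInfty,
      E₄ (u z) ^ 3 * discriminant (w z) - discriminant (u z) * E₄ (w z) ^ 3 ≠ 0 := by
  have h1 : Tendsto (fun z => E₄ (u z) ^ 3 * deltaFactor (w z)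
      - ρ z * deltaFactor (u z) * E₄ (w z) ^ 3) atImInfty (𝓝 (1 ^ 3 * 1 - 0 * 1 * 1 ^ 3)) :=
    (((tendsto_E4_atImInfty.comp hu).pow 3).mul (tendsto_deltaFactor.comp hw)).sub
      ((hρ.mul (tendsto_deltaFactor.comp hu)).mul ((tendsto_E4_atImInfty.comp hw).pow 3))
  have h2 : (1 : ℂ) ^ 3 * 1 - 0 * 1 * 1 ^ 3 ≠ 0 := by norm_num
  filter_upwards [h1.eventually_ne h2] with z hz
  have : E₄ (u z) ^ 3 * discriminant (w z) - discriminant (u z) * E₄ (w z) ^ 3
      = 𝕢 1 (w z) * (E₄ (u z) ^ 3 * deltaFactor (w z)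
        - ρ z * deltaFactor (u z) * E₄ (w z) ^ 3) := by
    rw [discriminant_eq_q_mul, discriminant_eq_q_mul, hq]
    ring
  rw [this]
  exact mul_ne_zero (Complex.exp_ne_zero _) hz

/-- The comparison for upper triangular matrices. -/
theorem eventually_ut_ne_zero {N a d : ℝ} (b : ℝ) (hN : 0 < N) (ha : 0 < a) (hd : 0 < d)
    (hlt : a < N * d) (hα : N * 1 ≠ 0) (h : a * d ≠ 0) :
    ∀ᶠ z : ℍ in atImInfty,
      E₄ (upperTriangularGL N 0 1 hα • z) ^ 3 * discriminant (upperTriangularGL a b d h • z)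
        - discriminant (upperTriangularGL N 0 1 hα • z)
          * E₄ (upperTriangularGL a b d h • z) ^ 3 ≠ 0 := by
  have hpos : 0 < N * d - a := by linarith
  have h' : (N * d - a) * d ≠ 0 := (mul_pos hpos hd).ne'
  refine eventually_comparison_ne_zero _ _
    (fun z => 𝕢 1 ((upperTriangularGL (N * d - a) (-b) d h' • z : ℍ) : ℂ))
    (tendsto_ut_smul 0 hα hN one_pos) (tendsto_ut_smul b h ha hd)
    ((qParam_tendsto_atImInfty one_pos).comp (tendsto_ut_smul (-b) h' hpos hd)) ?_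
  intro z
  simp only [Function.Periodic.qParam]
  rw [← Complex.exp_add]
  congr 1
  rw [coe_ut_smul 0 hα hN one_pos, coe_ut_smul b h ha hd, coe_ut_smul (-b) h' hpos hd]
  have hd' : (d : ℂ) ≠ 0 := by exact_mod_cast hd.ne'
  push_cast
  field_simp
  ring

/-! ### Coset bookkeeping -/

open Fermat.Agent.S23.H22

variable (N : ℕ) [NeZero N]

theorem heckeDiagMatrix_eq_ut (hα : (N : ℝ) * 1 ≠ 0) :
    heckeDiagMatrix N = upperTriangularGL (N : ℝ) 0 1 hα := by
  rw [heckeDiagMatrix, dif_neg (NeZero.ne N)]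

/-- The conjugate of a level raise at a coset, via the Hermite normal form. -/
theorem quotientFunc_levelRaise_eq {k : ℤ} {F : Type*} [FunLike F ℍ ℂ] [ModularFormClass F 𝒮ℒ k]
    (f : F) (γ γ' : SL(2, ℤ)) (T : GL (Fin 2) ℝ)
    (hmat : heckeDiagMatrix N * Matrix.SpecialLinearGroup.mapGL ℝ γ⁻¹
      = Matrix.SpecialLinearGroup.mapGL ℝ γ' * T) :
    quotientFunc (levelRaise N f) (⟦toSL γ⟧ : Q N) = (f : ℍ → ℂ) ∣[k] T := by
  rw [quotientFunc_mk, levelRaise_coe, ← SlashAction.slash_mul]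
  have : heckeDiagMatrix N * (toSL γ).val⁻¹ = Matrix.SpecialLinearGroup.mapGL ℝ γ' * T := by
    rw [← hmat, map_inv]
    rfl
  rw [this, SlashAction.slash_mul]
  congr 1
  exact SlashInvariantFormClass.slash_action_eq f _ ⟨γ', rfl⟩

theorem mk_toSL_eq_q1 {γ : SL(2, ℤ)} (hγ : γ ∈ CongruenceSubgroup.Gamma0 N) :
    (⟦toSL γ⟧ : Q N) = q1 := by
  show ((toSL γ : ↥𝒮ℒ) : Q N) = ((1 : ↥𝒮ℒ) : Q N)
  rw [QuotientGroup.eq, mul_one, Subgroup.mem_subgroupOf]
  refine ⟨γ⁻¹, inv_mem hγ, ?_⟩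
  simp [toSL]

/-- For a coset `q ≠ q1` the corresponding factor of `Dhat` is eventually non-zero. -/
theorem eventually_factor_ne_zero (q : Q N) (hq : q ≠ q1) :
    ∀ᶠ z : ℍ in atImInfty, eN N z * deltaFam N q z - deltaN N z * eFam N q z ≠ 0 := by
  induction q using Quotient.inductionOn with
  | h r =>
    obtain ⟨r, γ, rfl⟩ := r
    have hq' : (⟦toSL γ⟧ : Q N) ≠ q1 := hq
    have hγ : γ ∉ CongruenceSubgroup.Gamma0 N := fun hmem => hq' (mk_toSL_eq_q1 N hmem)
    obtain ⟨γ', a, b, d, h, had, hb, hmat, hd1⟩ := H83.exists_hnf N γ⁻¹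
    have hN0 : N ≠ 0 := NeZero.ne N
    have ha0 : a ≠ 0 := by
      rintro rfl
      exact hN0 (by simpa using had.symm)
    have hd0 : d ≠ 0 := by
      rintro rfl
      exact hN0 (by simpa using had.symm)
    have hdne : d ≠ 1 := fun h1 => hγ (by simpa using inv_mem (hd1 h1))
    have hd2 : 2 ≤ d := by omega
    have hNpos : (0 : ℝ) < N := by exact_mod_cast Nat.pos_of_ne_zero hN0
    have hapos : (0 : ℝ) < a := by exact_mod_cast Nat.pos_of_ne_zero ha0
    have hdpos : (0 : ℝ) < d := by exact_mod_cast Nat.pos_of_ne_zero hd0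
    have hlt : (a : ℝ) < N * d := by
      have h1 : a < N * d := by
        rw [← had]
        nlinarith [Nat.pos_of_ne_zero ha0]
      exact_mod_cast h1
    have hα : (N : ℝ) * 1 ≠ 0 := by
      rw [mul_one]
      exact hNpos.ne'
    have hδ : deltaFam N (⟦toSL γ⟧ : Q N)
        = (CuspForm.discriminant : ℍ → ℂ) ∣[(12 : ℤ)] upperTriangularGL a b d h :=
      quotientFunc_levelRaise_eq N CuspForm.discriminant γ γ' _ hmat
    have he : eFam N (⟦toSL γ⟧ : Q N)
        = (E12 : ℍ → ℂ) ∣[(12 : ℤ)] upperTriangularGL a b d h :=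
      quotientFunc_levelRaise_eq N E12 γ γ' _ hmat
    have hev := eventually_ut_ne_zero (b : ℝ) hNpos hapos hdpos hlt hα h
    filter_upwards [hev] with z hz
    show eN N z * deltaFam N (⟦toSL γ⟧ : Q N) z - deltaN N z * eFam N (⟦toSL γ⟧ : Q N) z ≠ 0
    rw [hδ, he, slash_ut_apply (b : ℝ) h 12 hapos hdpos, slash_ut_apply (b : ℝ) h 12 hapos hdpos,
      eN_apply, deltaN_apply, E12_apply, heckeDiagMatrix_eq_ut N hα]
    have hNc : ((N : ℂ)) ^ (11 : ℤ) ≠ 0 := zpow_ne_zero _ (by exact_mod_cast hN0)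
    have hκ : (((a : ℝ) : ℂ) * ((d : ℝ) : ℂ)) ^ ((12 : ℤ) - 1) * ((d : ℝ) : ℂ) ^ (-(12 : ℤ)) ≠ 0 := by
      refine mul_ne_zero (zpow_ne_zero _ (mul_ne_zero ?_ ?_)) (zpow_ne_zero _ ?_)
      · exact_mod_cast ha0
      · exact_mod_cast hd0
      · exact_mod_cast hd0
    have hmain := mul_ne_zero (mul_ne_zero hNc hκ) hz
    refine fun hzero => hmain ?_
    rw [← hzero]
    simp only [CuspForm.coe_discriminant]
    ring

/-- **`Dhat` is eventually non-zero at `i∞`.** -/
theorem eventually_Dhat_ne_zero : ∀ᶠ z : ℍ in atImInfty, Dhat N z ≠ 0 := by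
  have h1 : ∀ᶠ z : ℍ in atImInfty, ∀ q ∈ Finset.univ.erase (q1 (N := N)),
      eN N z * deltaFam N q z - deltaN N z * eFam N q z ≠ 0 := by
    rw [Filter.eventually_all_finset]
    intro q hq
    exact eventually_factor_ne_zero N q (Finset.ne_of_mem_erase hq)
  filter_upwards [h1] with z hz
  rw [Dhat]
  exact mul_ne_zero (deltaN_ne_zero N z) (Finset.prod_ne_zero_iff.mpr hz)

/-- `Dhat` does not vanish identically: there is a point where it is non-zero. -/
theorem exists_Dhat_ne_zero : ∃ z : ℍ, Dhat N z ≠ 0 :=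
  (eventually_Dhat_ne_zero N).exists

/-- **`Dhat N ≠ 0`.** -/
theorem Dhat_ne_zero : Dhat N ≠ 0 := by
  obtain ⟨z, hz⟩ := exists_Dhat_ne_zero N
  intro h
  exact hz (by rw [h]; rfl)

end Fermat.Agent.S23.H96
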