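import Mathlib.Analysis.Complex.RemovableSingularity
import Mathlib.Analysis.Complex.UpperHalfPlane.Manifold
import Mathlib.Analysis.Complex.UpperHalfPlane.FunctionsBoundedAtInfty
import Mathlib.Analysis.Analytic.IsolatedZeros
import Mathlib.Analysis.Analytic.Uniqueness

/-!
# Analysis lemmas for Galois stability (helper96, package P6 of S23)

* `mdiff_eq_zero_of_mul_eq_zero` (NZD): holomorphic functions on `ℍ` have no zero divisors.
* `isZeroAtImInfty_of_monic_rel` (ROOT): a root of a monic polynomial whose lower coefficients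
  tend to zero at `i∞` tends to zero at `i∞`.
* `exists_mdiff_div` (DIV): holomorphic division via the removable singularity theorem.
-/

set_option autoImplicit false

namespace Fermat.Agent.S23.H96

open UpperHalfPlane Filter Topology
open scoped Manifold

/-! ### Root bounds -/

theorem norm_pow_succ_le_of_monic_rel (μ : ℕ) (x : ℂ) (a : ℕ → ℂ)
    (h : x ^ (μ + 1) + ∑ m ∈ Finset.range (μ + 1), a m * x ^ (μ - m) = 0) :
    ‖x‖ ^ (μ + 1) ≤ ∑ m ∈ Finset.range (μ + 1), ‖a m‖ * ‖x‖ ^ (μ - m) := by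
  have h1 : x ^ (μ + 1) = -∑ m ∈ Finset.range (μ + 1), a m * x ^ (μ - m) :=
    eq_neg_of_add_eq_zero_left h
  calc ‖x‖ ^ (μ + 1) = ‖x ^ (μ + 1)‖ := (norm_pow _ _).symm
    _ = ‖∑ m ∈ Finset.range (μ + 1), a m * x ^ (μ - m)‖ := by rw [h1, norm_neg]
    _ ≤ ∑ m ∈ Finset.range (μ + 1), ‖a m * x ^ (μ - m)‖ := norm_sum_le _ _
    _ = ∑ m ∈ Finset.range (μ + 1), ‖a m‖ * ‖x‖ ^ (μ - m) := by
        simp only [norm_mul, norm_pow]

/-- If `‖x‖ ≥ 1` then `‖x‖` is bounded by the sum of the norms of the coefficients. -/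
theorem norm_le_sum_of_monic_rel_of_one_le (μ : ℕ) (x : ℂ) (a : ℕ → ℂ)
    (h : x ^ (μ + 1) + ∑ m ∈ Finset.range (μ + 1), a m * x ^ (μ - m) = 0) (hx : 1 ≤ ‖x‖) :
    ‖x‖ ≤ ∑ m ∈ Finset.range (μ + 1), ‖a m‖ := by
  have h1 := norm_pow_succ_le_of_monic_rel μ x a h
  have h2 : ∑ m ∈ Finset.range (μ + 1), ‖a m‖ * ‖x‖ ^ (μ - m)
      ≤ ∑ m ∈ Finset.range (μ + 1), ‖a m‖ * ‖x‖ ^ μ := by
    refine Finset.sum_le_sum fun m _ => ?_
    exact mul_le_mul_of_nonneg_left (pow_le_pow_right₀ hx (Nat.sub_le μ m)) (norm_nonneg _)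
  rw [← Finset.sum_mul] at h2
  have h3 : ‖x‖ ^ μ * ‖x‖ ≤ (∑ m ∈ Finset.range (μ + 1), ‖a m‖) * ‖x‖ ^ μ := by
    rw [← pow_succ]; exact h1.trans h2
  have hpos : 0 < ‖x‖ ^ μ := pow_pos (lt_of_lt_of_le one_pos hx) μ
  rw [mul_comm] at h3
  exact le_of_mul_le_mul_right h3 hpos

/-- If `‖x‖ ≤ 1` then `‖x‖ ^ (μ + 1)` is bounded by the sum of the norms of the coefficients. -/
theorem norm_pow_le_sum_of_monic_rel_of_le_one (μ : ℕ) (x : ℂ) (a : ℕ → ℂ)
    (h : x ^ (μ + 1) + ∑ m ∈ Finset.range (μ + 1), a m * x ^ (μ - m) = 0) (hx : ‖x‖ ≤ 1) :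
    ‖x‖ ^ (μ + 1) ≤ ∑ m ∈ Finset.range (μ + 1), ‖a m‖ := by
  refine (norm_pow_succ_le_of_monic_rel μ x a h).trans (Finset.sum_le_sum fun m _ => ?_)
  exact mul_le_of_le_one_right (norm_nonneg _) (pow_le_one₀ (norm_nonneg _) hx)

/-- A root of a monic polynomial is bounded by `max 1 (∑ ‖aₘ‖)`. -/
theorem norm_le_max_of_monic_rel (μ : ℕ) (x : ℂ) (a : ℕ → ℂ)
    (h : x ^ (μ + 1) + ∑ m ∈ Finset.range (μ + 1), a m * x ^ (μ - m) = 0) :
    ‖x‖ ≤ max 1 (∑ m ∈ Finset.range (μ + 1), ‖a m‖) := by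
  rcases le_total ‖x‖ 1 with hx | hx
  · exact hx.trans (le_max_left _ _)
  · exact (norm_le_sum_of_monic_rel_of_one_le μ x a h hx).trans (le_max_right _ _)

/-! ### (ROOT) -/

/-- (ROOT) A function satisfying a monic polynomial relation whose lower coefficients tend to
zero at `i∞` itself tends to zero at `i∞`. -/
theorem isZeroAtImInfty_of_monic_rel (μ : ℕ) (g : ℍ → ℂ) (c : ℕ → ℍ → ℂ)
    (hc : ∀ m, IsZeroAtImInfty (c m))
    (hrel : ∀ z, g z ^ (μ + 1) + ∑ m ∈ Finset.range (μ + 1), c m z * g z ^ (μ - m) = 0) :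
    IsZeroAtImInfty g := by
  have hS : Tendsto (fun z => ∑ m ∈ Finset.range (μ + 1), ‖c m z‖) atImInfty (𝓝 0) := by
    have : Tendsto (fun z => ∑ m ∈ Finset.range (μ + 1), ‖c m z‖) atImInfty
        (𝓝 (∑ m ∈ Finset.range (μ + 1), (0 : ℝ))) := by
      refine tendsto_finsetSum _ fun m _ => ?_
      exact tendsto_norm_zero.comp (hc m)
    simpa using this
  unfold IsZeroAtImInfty ZeroAtFilter
  rw [Metric.tendsto_nhds]
  intro ε hε
  set ε' := min ε 1 with hε'
  have hε'pos : 0 < ε' := lt_min hε one_pos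
  have hε'le : ε' ≤ 1 := min_le_right _ _
  have hev := (Metric.tendsto_nhds.mp hS) (ε' ^ (μ + 1)) (pow_pos hε'pos _)
  filter_upwards [hev] with z hz
  rw [dist_zero_right] at hz ⊢
  have hSnn : 0 ≤ ∑ m ∈ Finset.range (μ + 1), ‖c m z‖ :=
    Finset.sum_nonneg fun m _ => norm_nonneg _
  rw [Real.norm_of_nonneg hSnn] at hz
  have hpow_le : ε' ^ (μ + 1) ≤ 1 := pow_le_one₀ hε'pos.le hε'le
  rcases le_or_gt 1 ‖g z‖ with h1 | h1
  · have := norm_le_sum_of_monic_rel_of_one_le μ (g z) (fun m => c m z) (hrel z) h1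
    linarith
  · have h2 := norm_pow_le_sum_of_monic_rel_of_le_one μ (g z) (fun m => c m z) (hrel z) h1.le
    have h3 : ‖g z‖ ^ (μ + 1) < ε' ^ (μ + 1) := lt_of_le_of_lt h2 hz
    have h4 : ‖g z‖ < ε' := lt_of_pow_lt_pow_left₀ _ hε'pos.le h3
    exact lt_of_lt_of_le h4 (min_le_left _ _)

/-! ### (NZD) -/

/-- (NZD) Holomorphic functions on the upper half plane have no zero divisors. -/
theorem mdiff_eq_zero_of_mul_eq_zero (F D : ℍ → ℂ) (hF : MDiff F) (hD : MDiff D) (hD0 : D ≠ 0)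
    (h : ∀ z, F z * D z = 0) : F = 0 := by
  obtain ⟨τ, hτ⟩ : ∃ τ, D τ ≠ 0 := by
    by_contra hcon
    simp only [not_exists, not_not] at hcon
    exact hD0 (funext hcon)
  have hcont : ContinuousAt D τ := hD.continuous.continuousAt
  have hev : ∀ᶠ z in 𝓝 τ, D z ≠ 0 := hcont.eventually_ne hτ
  apply UpperHalfPlane.eq_zero_of_frequently hF (τ := τ)
  apply Eventually.frequently
  apply eventually_nhdsWithin_of_eventually_nhds
  filter_upwards [hev] with z hz
  exact (mul_eq_zero.mp (h z)).resolve_right hz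

/-! ### (DIV) -/

/-- The candidate quotient on `ℂ`: the limit of `G / D` along punctured neighbourhoods. -/
noncomputable def divLim (G D : ℍ → ℂ) (z : ℂ) : ℂ :=
  limUnder (𝓝[≠] z) (fun w => (G ∘ ofComplex) w / (D ∘ ofComplex) w)

theorem divLim_eq_of_ne {G D : ℍ → ℂ} (hG : MDiff G) (hD : MDiff D) {z : ℂ} (hz : 0 < z.im)
    (hDz : (D ∘ ofComplex) z ≠ 0) :
    divLim G D z = (G ∘ ofComplex) z / (D ∘ ofComplex) z := by
  have hG' : DifferentiableAt ℂ (G ∘ ofComplex) z :=
    (mdifferentiable_iff.mp hG z hz).differentiableAt (isOpen_upperHalfPlaneSet.mem_nhds hz)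
  have hD' : DifferentiableAt ℂ (D ∘ ofComplex) z :=
    (mdifferentiable_iff.mp hD z hz).differentiableAt (isOpen_upperHalfPlaneSet.mem_nhds hz)
  have hq : ContinuousAt (fun w => (G ∘ ofComplex) w / (D ∘ ofComplex) w) z :=
    (hG'.div hD' hDz).continuousAt
  exact (hq.tendsto.mono_left nhdsWithin_le_nhds).limUnder_eq

/-- (DIV) Holomorphic division: if `G / D` satisfies a monic polynomial relation with holomorphic
coefficients (written after clearing denominators), then `D` divides `G` among holomorphic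
functions on `ℍ`. -/
theorem exists_mdiff_div (μ : ℕ) (G D : ℍ → ℂ) (hG : MDiff G) (hD : MDiff D) (hD0 : D ≠ 0)
    (c : ℕ → ℍ → ℂ) (hc : ∀ m, MDiff (c m))
    (hrel : ∀ z, G z ^ (μ + 1) +
      ∑ m ∈ Finset.range (μ + 1), c m z * D z ^ (m + 1) * G z ^ (μ - m) = 0) :
    ∃ g : ℍ → ℂ, MDiff g ∧ ∀ z, g z * D z = G z := by
  set U : Set ℂ := {z : ℂ | 0 < z.im} with hU
  have hUo : IsOpen U := isOpen_upperHalfPlaneSet
  set G' : ℂ → ℂ := G ∘ ofComplex with hG'def
  set D' : ℂ → ℂ := D ∘ ofComplex with hD'def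
  set q : ℂ → ℂ := fun w => G' w / D' w with hq
  have hGd : DifferentiableOn ℂ G' U := mdifferentiable_iff.mp hG
  have hDd : DifferentiableOn ℂ D' U := mdifferentiable_iff.mp hD
  have hcd : ∀ m, DifferentiableOn ℂ (c m ∘ ofComplex) U := fun m => mdifferentiable_iff.mp (hc m)
  have hDan : AnalyticOnNhd ℂ D' U := hDd.analyticOnNhd hUo
  -- the relation satisfied by the quotient
  have hqrel : ∀ z ∈ U, D' z ≠ 0 → q z ^ (μ + 1) +
      ∑ m ∈ Finset.range (μ + 1), (c m ∘ ofComplex) z * q z ^ (μ - m) = 0 := by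
    intro z hz hDz
    have h := hrel (ofComplex z)
    have hpow : D' z ^ (μ + 1) ≠ 0 := pow_ne_zero _ hDz
    have : q z ^ (μ + 1) + ∑ m ∈ Finset.range (μ + 1), (c m ∘ ofComplex) z * q z ^ (μ - m)
        = (G (ofComplex z) ^ (μ + 1) + ∑ m ∈ Finset.range (μ + 1),
            c m (ofComplex z) * D (ofComplex z) ^ (m + 1) * G (ofComplex z) ^ (μ - m))
          / D' z ^ (μ + 1) := by
      rw [add_div, Finset.sum_div]
      congr 1
      · simp only [hq, div_pow]; rfl
      · refine Finset.sum_congr rfl fun m hm => ?_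
        have hm' : m ≤ μ := Nat.lt_succ_iff.mp (Finset.mem_range.mp hm)
        have e : D' z ^ (μ + 1) = D' z ^ (m + 1) * D' z ^ (μ - m) := by
          rw [← pow_add]; congr 1; omega
        have hDz' : D (ofComplex z) ≠ 0 := hDz
        simp only [hq, div_pow, Function.comp_apply, hG'def, hD'def] at e ⊢
        rw [e]
        field_simp
    rw [this, h, zero_div]
  -- zeros of D' are isolated
  have hDiso : ∀ z ∈ U, ∀ᶠ w in 𝓝[≠] z, D' w ≠ 0 := by
    intro z hz
    rcases (hDan z hz).eventually_eq_zero_or_eventually_ne_zero with h0 | hne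
    · exfalso
      have hpre : IsPreconnected U :=
        (Complex.isConnected_of_upperHalfPlane subset_rfl (by grind)).isPreconnected
      have := hDan.eqOn_zero_of_preconnected_of_eventuallyEq_zero hpre hz h0
      apply hD0
      funext τ
      have h1 := this τ.2
      simpa [hD'def] using h1
    · exact hne
  -- differentiability of the candidate
  have hdiff : ∀ z ∈ U, DifferentiableAt ℂ (divLim G D) z := by
    intro z hz
    have hev := hDiso z hz
    rw [eventually_nhdsWithin_iff] at hev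
    -- a closed ball inside U on which D' is nonzero off the centre
    obtain ⟨r, hr, hball⟩ : ∃ r > 0, Metric.closedBall z r ⊆ U ∩ {w | w ≠ z → D' w ≠ 0} := by
      have hmem : U ∩ {w | w ≠ z → D' w ≠ 0} ∈ 𝓝 z := inter_mem (hUo.mem_nhds hz) hev
      obtain ⟨r, hr, hr'⟩ := Metric.nhds_basis_closedBall.mem_iff.mp hmem
      exact ⟨r, hr, hr'⟩
    set s := Metric.ball z r with hs
    have hsub : s ⊆ U ∩ {w | w ≠ z → D' w ≠ 0} := Metric.ball_subset_closedBall.trans hball
    have hsn : s ∈ 𝓝 z := Metric.ball_mem_nhds z hr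
    have hqd : DifferentiableOn ℂ q (s \ {z}) := by
      intro w hw
      have hwU : w ∈ U := (hsub hw.1).1
      have hwD : D' w ≠ 0 := (hsub hw.1).2 hw.2
      exact ((hGd w hwU).div (hDd w hwU) hwD).mono (fun x hx => (hsub hx.1).1)
    -- boundedness of the coefficients on the closed ball
    have hcb : ∀ m, ∃ C, ∀ w ∈ Metric.closedBall z r, ‖(c m ∘ ofComplex) w‖ ≤ C := by
      intro m
      have hcont : ContinuousOn (c m ∘ ofComplex) (Metric.closedBall z r) :=
        (hcd m).continuousOn.mono (fun x hx => (hball hx).1)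
      obtain ⟨C, hC⟩ := (isCompact_closedBall z r).bddAbove_image hcont.norm
      exact ⟨C, fun w hw => hC (Set.mem_image_of_mem _ hw)⟩
    choose C hC using hcb
    have hqb : BddAbove (norm ∘ q '' (s \ {z})) := by
      refine ⟨max 1 (∑ m ∈ Finset.range (μ + 1), C m), ?_⟩
      rintro _ ⟨w, hw, rfl⟩
      have hwU : w ∈ U := (hsub hw.1).1
      have hwD : D' w ≠ 0 := (hsub hw.1).2 hw.2
      have h1 := norm_le_max_of_monic_rel μ (q w) (fun m => (c m ∘ ofComplex) w)
        (hqrel w hwU hwD)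
      refine h1.trans (max_le_max le_rfl (Finset.sum_le_sum fun m _ => ?_))
      exact hC m w (Metric.ball_subset_closedBall hw.1)
    have hupd := Complex.differentiableOn_update_limUnder_of_bddAbove hsn hqd hqb
    have hupd' : DifferentiableAt ℂ (Function.update q z (limUnder (𝓝[≠] z) q)) z :=
      hupd.differentiableAt hsn
    refine hupd'.congr_of_eventuallyEq ?_
    filter_upwards [hsn] with w hw
    by_cases hwz : w = z
    · subst hwz
      simp [divLim, hq, hG'def, hD'def]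
    · rw [Function.update_of_ne hwz]
      exact divLim_eq_of_ne hG hD (hsub hw).1 ((hsub hw).2 hwz)
  refine ⟨fun τ => divLim G D τ, ?_, fun τ => ?_⟩
  · rw [UpperHalfPlane.mdifferentiable_iff]
    intro z hz
    have : DifferentiableWithinAt ℂ (divLim G D) U z := (hdiff z hz).differentiableWithinAt
    refine this.congr (fun w hw => ?_) ?_
    · simp [Function.comp_apply, ofComplex_apply_of_im_pos hw]
    · simp [Function.comp_apply, ofComplex_apply_of_im_pos hz]
  · by_cases hDτ : D τ = 0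
    · have h := hrel τ
      rw [hDτ] at h
      have hsum : ∑ m ∈ Finset.range (μ + 1), c m τ * (0 : ℂ) ^ (m + 1) * G τ ^ (μ - m) = 0 :=
        Finset.sum_eq_zero fun m _ => by simp
      rw [hsum, add_zero] at h
      have hG0 : G τ = 0 := pow_eq_zero_iff (Nat.succ_ne_zero μ) |>.mp h
      rw [hDτ, hG0, mul_zero]
    · have hD'τ : (D ∘ ofComplex) (τ : ℂ) ≠ 0 := by simpa using hDτ
      have := divLim_eq_of_ne hG hD τ.2 hD'τ
      simp only [Function.comp_apply, ofComplex_apply] at this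
      show divLim G D τ * D τ = G τ
      rw [this, div_mul_cancel₀ _ hDτ]

end Fermat.Agent.S23.H96
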