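import Fermat.Agent.S23.H22_SymPoly
import Fermat.Agent.S23.H96_Div
import Mathlib.NumberTheory.ModularForms.CongruenceSubgroups

/-!
# CUSP piece: a holomorphic `Γ₀(N)`-invariant function satisfying a monic relation with level one
cusp form coefficients is a cusp form (helper77, part of the S23 development)
-/

set_option autoImplicit false

open UpperHalfPlane ModularForm
open scoped MatrixGroups ModularForm Manifold

noncomputable section

namespace Fermat.Agent.S23.H77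

/-- The monic relation is inherited by every `SL(2, ℤ)`-translate. -/
theorem slash_monic_rel (k : ℤ) (μ : ℕ) (g : ℍ → ℂ)
    (w : ℕ → ℤ) (hw : ∀ m, m ≤ μ → w m = k * ((m : ℤ) + 1))
    (c : (m : ℕ) → CuspForm 𝒮ℒ (w m))
    (hrel : ∀ z, g z ^ (μ + 1) + ∑ m ∈ Finset.range (μ + 1), c m z * g z ^ (μ - m) = 0)
    (γ : SL(2, ℤ)) (z : ℍ) :
    (g ∣[k] γ) z ^ (μ + 1) +
      ∑ m ∈ Finset.range (μ + 1), c m z * (g ∣[k] γ) z ^ (μ - m) = 0 := by
  have hJ : denom γ z ≠ 0 := denom_ne_zero γ z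
  set J := denom γ z with hJdef
  have hc : ∀ m, c m (γ • z) = c m z * J ^ (w m) := by
    intro m
    have hsl : (c m : ℍ → ℂ) ∣[w m] γ = (c m : ℍ → ℂ) :=
      SlashInvariantFormClass.slash_action_eq (c m) (Matrix.SpecialLinearGroup.mapGL ℝ γ) ⟨γ, rfl⟩
    exact Fermat.Agent.S23.H22.apply_smul_of_slash hsl z
  have hg : (g ∣[k] γ) z = g (γ • z) * J ^ (-k) := by
    rw [SL_slash_apply]
  have h := hrel (γ • z)
  rw [hg]
  have hmain : (g (γ • z) * J ^ (-k)) ^ (μ + 1) +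
      ∑ m ∈ Finset.range (μ + 1), c m z * (g (γ • z) * J ^ (-k)) ^ (μ - m)
      = J ^ (-k * ((μ : ℤ) + 1)) * (g (γ • z) ^ (μ + 1) +
        ∑ m ∈ Finset.range (μ + 1), c m (γ • z) * g (γ • z) ^ (μ - m)) := by
    rw [mul_add, Finset.mul_sum]
    congr 1
    · rw [mul_pow, ← zpow_natCast (J ^ (-k)) (μ + 1), ← zpow_mul]
      push_cast
      ring
    · refine Finset.sum_congr rfl fun m hm => ?_
      have hmμ : m ≤ μ := Nat.lt_succ_iff.mp (Finset.mem_range.mp hm)
      have hJw : J ^ (w m) = J ^ (k * ((m : ℤ) + 1)) := by rw [hw m hmμ]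
      rw [hc m, hJw, mul_pow, ← zpow_natCast (J ^ (-k)) (μ - m), ← zpow_mul]
      have hexp : J ^ (-k * ((μ - m : ℕ) : ℤ)) = J ^ (-k * ((μ : ℤ) + 1)) * J ^ (k * ((m : ℤ) + 1)) := by
        rw [← zpow_add₀ hJ]
        congr 1
        rw [Nat.cast_sub hmμ]
        ring
      rw [hexp]
      ring
  rw [hmain, h, mul_zero]

/-- **CUSP**: a holomorphic function on `ℍ`, invariant of weight `k` under `Γ₀(N)`, which is a
root of a monic polynomial whose lower coefficients are level one cusp forms, is a cusp form. -/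
theorem exists_cuspForm_of_monic_rel (N : ℕ) [NeZero N] (k : ℤ) (μ : ℕ)
    (g : ℍ → ℂ) (hg : MDiff g)
    (hinv : ∀ γ : SL(2, ℤ), γ ∈ CongruenceSubgroup.Gamma0 N → g ∣[k] γ = g)
    (w : ℕ → ℤ) (hw : ∀ m, m ≤ μ → w m = k * ((m : ℤ) + 1))
    (c : (m : ℕ) → CuspForm 𝒮ℒ (w m))
    (hrel : ∀ z, g z ^ (μ + 1) + ∑ m ∈ Finset.range (μ + 1), c m z * g z ^ (μ - m) = 0) :
    ∃ G : CuspForm (CongruenceSubgroup.Gamma0 N) k, ∀ z, G z = g z := by
  have hzero : ∀ γ : SL(2, ℤ), IsZeroAtImInfty (g ∣[k] γ) := by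
    intro γ
    refine Fermat.Agent.S23.H96.isZeroAtImInfty_of_monic_rel μ (g ∣[k] γ) (fun m => (c m : ℍ → ℂ))
      (fun m => ?_) (slash_monic_rel k μ g w hw c hrel γ)
    exact CuspFormClass.zero_at_infty (c m)
  refine ⟨{ toFun := g
            slash_action_eq' := ?_
            holo' := hg
            zero_at_cusps' := ?_ }, fun z => rfl⟩
  · intro A hA
    obtain ⟨γ, hγ, rfl⟩ := hA
    exact hinv γ hγ
  · intro c hc
    rw [Subgroup.IsArithmetic.isCusp_iff_isCusp_SL2Z] at hc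
    rw [OnePoint.isZeroAt_iff_forall_SL2Z hc]
    intro γ _
    exact hzero γ

end Fermat.Agent.S23.H77
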