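import Fermat.Agent.S23.H22_GS3
import Fermat.Agent.S23.H77_Cusp

/-!
# Galois stability of `S_k(Γ₀(N))` (helper22, part of the S23 development)
-/

set_option autoImplicit false
set_option linter.unusedSectionVars false

open UpperHalfPlane ModularForm Polynomial SlashInvariantForm EisensteinSeries
open scoped MatrixGroups ModularForm Manifold

noncomputable section

namespace Fermat.Agent.S23.H22

variable (N : ℕ) [NeZero N]

/-- **Galois stability**, assuming the nonvanishing of `Dhat`. -/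
theorem galois_stable_of_Dhat (hD : Dhat N ≠ 0) (σ : ℂ →+* ℂ) {k : ℤ}
    (f : CuspForm (CongruenceSubgroup.Gamma0 N) k) :
    ∃ g : CuspForm (CongruenceSubgroup.Gamma0 N) k,
      qExpansion 1 g = (qExpansion 1 f).map σ := by
  obtain ⟨g, D', c', hgd, hD'n, hD'0, hD'q, hgq, hinv, hrel⟩ := exists_conj_fun N hD σ f
  obtain ⟨G, hG⟩ := H77.exists_cuspForm_of_monic_rel N k (Fintype.card (Q N) - 1) g hgd hinv
    (relWeight N k) (fun m hm => relWeight_eq N k m hm) c' hrel
  refine ⟨G, ?_⟩
  have hGg : (G : ℍ → ℂ) = g := funext hG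
  have hgn : Nice 1 g := hGg ▸ nice_G0 N G
  rw [Nice.qExpansion_mul one_pos hgn hD'n, hD'q] at hgq
  have hne : (qExpansion 1 (Dhat N)).map σ ≠ 0 := by
    rw [← hD'q]
    intro h0
    exact hD'0 (Nice.eq_zero_of_qExpansion_eq_zero one_pos hD'n h0)
  rw [hGg]
  exact mul_right_cancel₀ hne hgq

/-- **Galois stability** in the form needed for the integral structure. -/
theorem galois_stable_qCoeff_of_Dhat (hD : Dhat N ≠ 0) (σ : ℂ →+* ℂ)
    (f : CuspForm (CongruenceSubgroup.Gamma0 N) 2) :
    ∃ g : CuspForm (CongruenceSubgroup.Gamma0 N) 2, ∀ n : ℕ,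
      ModularFormClass.qCoeff g n = σ (ModularFormClass.qCoeff f n) := by
  obtain ⟨g, hg⟩ := galois_stable_of_Dhat N hD σ f
  refine ⟨g, fun n => ?_⟩
  unfold ModularFormClass.qCoeff
  rw [hg, PowerSeries.coeff_map]

end Fermat.Agent.S23.H22
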