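import Mathlib

/-!
# P1 (FIX): a complex number fixed by every ring endomorphism of `ℂ` is rational.
-/

set_option autoImplicit false

namespace Fermat.Agent.S23.H77

open MvPolynomial

/-- CORE: a ring automorphism of the polynomial ring on a transcendence basis extends to `ℂ`. -/
theorem exists_ringEquiv_of_mvPolynomial_equiv {K₀ : Type} [Field K₀] [Algebra K₀ ℂ]
    {ι : Type} (v : ι → ℂ) (hv : IsTranscendenceBasis K₀ v)
    (e : MvPolynomial ι K₀ ≃+* MvPolynomial ι K₀) :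
    ∃ σ : ℂ ≃+* ℂ, ∀ p : MvPolynomial ι K₀,
      σ (MvPolynomial.aeval v p) = MvPolynomial.aeval v (e p) := by
  classical
  let _ := IsAlgClosed.isAlgClosure_of_transcendence_basis v hv
  let a := hv.1.aevalEquiv
  let e' : Algebra.adjoin K₀ (Set.range v) ≃+* Algebra.adjoin K₀ (Set.range v) :=
    a.symm.toRingEquiv.trans (e.trans a.toRingEquiv)
  refine ⟨IsAlgClosure.equivOfEquiv ℂ ℂ e', fun p => ?_⟩
  have h1 : ∀ q : MvPolynomial ι K₀,
      MvPolynomial.aeval v q = algebraMap (Algebra.adjoin K₀ (Set.range v)) ℂ (a q) := by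
    intro q
    exact (hv.1.algebraMap_aevalEquiv q).symm
  rw [h1 p, IsAlgClosure.equivOfEquiv_algebraMap, h1 (e p)]
  congr 1
  simp [e']

/-- The "shift one variable" automorphism of a polynomial ring. -/
noncomputable def shiftEquiv {ι : Type} [DecidableEq ι] (i₀ : ι) :
    MvPolynomial ι ℚ ≃ₐ[ℚ] MvPolynomial ι ℚ :=
  AlgEquiv.ofAlgHom
    (MvPolynomial.aeval fun i => if i = i₀ then (X i + 1 : MvPolynomial ι ℚ) else X i)
    (MvPolynomial.aeval fun i => if i = i₀ then (X i - 1 : MvPolynomial ι ℚ) else X i)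
    (by
      ext i
      by_cases h : i = i₀ <;> simp [h])
    (by
      ext i
      by_cases h : i = i₀ <;> simp [h])

theorem shiftEquiv_X {ι : Type} [DecidableEq ι] (i₀ : ι) :
    shiftEquiv i₀ (X i₀) = X i₀ + 1 := by
  simp [shiftEquiv]

/-- Transcendental case. -/
theorem exists_ringEquiv_ne_of_transcendental {x : ℂ} (hx : Transcendental ℚ x) :
    ∃ σ : ℂ ≃+* ℂ, σ x ≠ x := by
  classical
  have hs : AlgebraicIndepOn ℚ id ({x} : Set ℂ) := by
    have : AlgebraicIndependent ℚ (fun i : ({x} : Set ℂ) => (i : ℂ)) := by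
      rw [algebraicIndependent_unique_type_iff]
      simpa using hx
    exact this
  obtain ⟨t, hst, ht⟩ := exists_isTranscendenceBasis_superset hs
  let i₀ : t := ⟨x, hst rfl⟩
  obtain ⟨σ, hσ⟩ := exists_ringEquiv_of_mvPolynomial_equiv (K₀ := ℚ) _ ht
    (shiftEquiv i₀).toRingEquiv
  refine ⟨σ, ?_⟩
  have h := hσ (X i₀)
  have h2 : (shiftEquiv i₀).toRingEquiv (X i₀) = X i₀ + 1 := shiftEquiv_X i₀
  rw [h2] at h
  simp only [aeval_X, map_add, map_one] at h
  intro hfix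
  have hx' : ((i₀ : t) : ℂ) = x := rfl
  rw [hx'] at h
  rw [hfix] at h
  simp at h

/-- Algebraic case. -/
theorem exists_ringEquiv_ne_of_isAlgebraic {x : ℂ} (hx : IsAlgebraic ℚ x)
    (hq : ∀ r : ℚ, x ≠ (r : ℂ)) : ∃ σ : ℂ ≃+* ℂ, σ x ≠ x := by
  classical
  let K₀ := algebraicClosure ℚ ℂ
  have hxK : x ∈ K₀ := (mem_algebraicClosure_iff).2 hx
  let x' : K₀ := ⟨x, hxK⟩
  have hnr : x' ∉ Set.range (algebraMap ℚ K₀) := by
    rintro ⟨r, hr⟩
    apply hq r
    have := congrArg (Subtype.val) hr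
    simpa [x'] using this.symm
  have hcl : IsAlgClosure ℚ (algebraicClosure ℚ ℂ) := algebraicClosure.isAlgClosure ℚ ℂ
  have hgal : IsGalois ℚ (algebraicClosure ℚ ℂ) :=
    IsAlgClosure.isGalois ℚ (algebraicClosure ℚ ℂ)
  have hnr' : ¬ ∀ f : Gal((algebraicClosure ℚ ℂ)/ℚ), f x' = x' := fun hall =>
    hnr ((InfiniteGalois.mem_range_algebraMap_iff_fixed x').2 hall)
  obtain ⟨τ, hτ⟩ := not_forall.1 hnr'
  obtain ⟨s, hs⟩ := exists_isTranscendenceBasis K₀ ℂ
  obtain ⟨σ, hσ⟩ := exists_ringEquiv_of_mvPolynomial_equiv (K₀ := K₀) _ hs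
    (MvPolynomial.mapEquiv s τ.toRingEquiv)
  refine ⟨σ, ?_⟩
  have h := hσ (C x')
  have h3 : (MvPolynomial.mapEquiv s τ.toRingEquiv) (C x') = C (τ x') := by
    simp
  rw [h3] at h
  simp only [aeval_C] at h
  have h4 : algebraMap K₀ ℂ x' = x := rfl
  rw [h4] at h
  rw [h]
  intro hcon
  apply hτ
  apply Subtype.ext
  exact hcon

/-- **P1 (FIX)**: a complex number fixed by every ring endomorphism of `ℂ` is rational. -/
theorem exists_rat_of_forall_ringHom_fixed (x : ℂ) (h : ∀ σ : ℂ →+* ℂ, σ x = x) :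
    ∃ r : ℚ, x = (r : ℂ) := by
  by_contra hcon
  have hcon : ∀ r : ℚ, x ≠ (r : ℂ) := fun r hr => hcon ⟨r, hr⟩
  by_cases hx : IsAlgebraic ℚ x
  · obtain ⟨σ, hσ⟩ := exists_ringEquiv_ne_of_isAlgebraic hx hcon
    exact hσ (h σ.toRingHom)
  · obtain ⟨σ, hσ⟩ := exists_ringEquiv_ne_of_transcendental hx
    exact hσ (h σ.toRingHom)

end Fermat.Agent.S23.H77
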