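import Mathlib
import Fermat.Agent.S23.H77_Fix

/-!
# P2 (DESC): a subspace of `ι → ℂ` stable under all coefficientwise ring endomorphisms of `ℂ`
is spanned by its rational vectors.
-/

set_option autoImplicit false

namespace Fermat.Agent.S23.H77

open Finset

/-- The set of rational vectors of a subspace. -/
def ratVectors {ι : Type} (W : Submodule ℂ (ι → ℂ)) : Set (ι → ℂ) :=
  {w | w ∈ W ∧ ∀ i, ∃ r : ℚ, w i = (r : ℂ)}

theorem desc_aux {ι : Type} [Fintype ι] [DecidableEq ι] (W : Submodule ℂ (ι → ℂ))
    (hW : ∀ σ : ℂ →+* ℂ, ∀ w ∈ W, (fun i => σ (w i)) ∈ W) :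
    ∀ (s : ℕ) (w : ι → ℂ), w ∈ W → (univ.filter fun i => w i ≠ 0).card ≤ s →
      w ∈ Submodule.span ℂ (ratVectors W) := by
  intro s
  induction s with
  | zero =>
    intro w _ hcard
    have h0 : w = 0 := by
      funext i
      by_contra hne
      have hne' : w i ≠ 0 := hne
      have : i ∈ univ.filter fun i => w i ≠ 0 := by simp [hne']
      have hpos : 0 < (univ.filter fun i => w i ≠ 0).card := Finset.card_pos.2 ⟨i, this⟩
      omega
    rw [h0]
    exact Submodule.zero_mem _
  | succ s ih =>
    intro w hw hcard
    by_cases hrat : ∀ i, ∃ r : ℚ, w i = (r : ℂ)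
    · exact Submodule.subset_span ⟨hw, hrat⟩
    · -- some coordinate is irrational
      obtain ⟨i₁, hi₁⟩ := not_forall.1 hrat
      have hi₁0 : w i₁ ≠ 0 := by
        intro h0
        exact hi₁ ⟨0, by simp [h0]⟩
      -- normalise at i₁
      set c : ℂ := (w i₁)⁻¹ with hc
      set w₁ : ι → ℂ := c • w with hw₁
      have hw₁W : w₁ ∈ W := W.smul_mem c hw
      have hw₁i : w₁ i₁ = 1 := by simp [hw₁, hc, hi₁0]
      have hsupp₁ : ∀ i, w₁ i ≠ 0 → w i ≠ 0 := by
        intro i hi h0
        apply hi
        simp [hw₁, h0]
      by_cases hrat₁ : ∀ i, ∃ r : ℚ, w₁ i = (r : ℂ)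
      · -- then w = (w i₁) • w₁ with w₁ rational
        have : w = (w i₁) • w₁ := by
          funext i
          simp [hw₁, hc, hi₁0]
        rw [this]
        exact Submodule.smul_mem _ _ (Submodule.subset_span ⟨hw₁W, hrat₁⟩)
      · obtain ⟨i₂, hi₂⟩ := not_forall.1 hrat₁
        -- there is σ moving w₁ i₂
        have hex : ∃ σ : ℂ →+* ℂ, σ (w₁ i₂) ≠ w₁ i₂ := by
          by_contra hcon
          apply hi₂
          apply exists_rat_of_forall_ringHom_fixed
          intro σ
          by_contra h
          exact hcon ⟨σ, h⟩
        obtain ⟨σ, hσ⟩ := hex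
        set u : ι → ℂ := (fun i => σ (w₁ i)) - w₁ with hu
        have huW : u ∈ W := W.sub_mem (hW σ w₁ hw₁W) hw₁W
        have hu1 : u i₁ = 0 := by simp [hu, hw₁i]
        have hu2 : u i₂ ≠ 0 := by
          simp only [hu, Pi.sub_apply]
          exact sub_ne_zero.2 hσ
        have husupp : ∀ i, u i ≠ 0 → w i ≠ 0 := by
          intro i hi
          apply hsupp₁
          intro h0
          apply hi
          simp [hu, h0]
        -- u has smaller support
        have hcardu : (univ.filter fun i => u i ≠ 0).card ≤ s := by
          have hsub : (univ.filter fun i => u i ≠ 0) ⊆ (univ.filter fun i => w i ≠ 0).erase i₁ := by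
            intro i hi
            simp only [mem_filter, mem_univ, true_and] at hi
            simp only [mem_erase, mem_filter, mem_univ, true_and]
            refine ⟨?_, husupp i hi⟩
            rintro rfl
            exact hi hu1
          have h1 := Finset.card_le_card hsub
          have h2 : i₁ ∈ univ.filter fun i => w i ≠ 0 := by simp [hi₁0]
          rw [Finset.card_erase_of_mem h2] at h1
          omega
        have huspan := ih u huW hcardu
        -- w' := w - (w i₂ / u i₂) • u has smaller support
        set w' : ι → ℂ := w - (w i₂ / u i₂) • u with hw'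
        have hw'W : w' ∈ W := W.sub_mem hw (W.smul_mem _ huW)
        have hw'2 : w' i₂ = 0 := by
          simp [hw', hu2]
        have hwi₂ : w i₂ ≠ 0 := husupp i₂ hu2
        have hcardw' : (univ.filter fun i => w' i ≠ 0).card ≤ s := by
          have hsub : (univ.filter fun i => w' i ≠ 0) ⊆ (univ.filter fun i => w i ≠ 0).erase i₂ := by
            intro i hi
            simp only [mem_filter, mem_univ, true_and] at hi
            simp only [mem_erase, mem_filter, mem_univ, true_and]
            refine ⟨?_, ?_⟩
            · rintro rfl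
              exact hi hw'2
            · intro h0
              apply hi
              have hu0 : u i = 0 := by
                by_contra hne
                exact husupp i hne h0
              simp [hw', h0, hu0]
          have h1 := Finset.card_le_card hsub
          have h2 : i₂ ∈ univ.filter fun i => w i ≠ 0 := by simp [hwi₂]
          rw [Finset.card_erase_of_mem h2] at h1
          omega
        have hw'span := ih w' hw'W hcardw'
        have : w = w' + (w i₂ / u i₂) • u := by
          simp [hw']
        rw [this]
        exact Submodule.add_mem _ hw'span (Submodule.smul_mem _ _ huspan)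

/-- **P2 (DESC)**. -/
theorem desc {ι : Type} [Fintype ι] (W : Submodule ℂ (ι → ℂ))
    (hW : ∀ σ : ℂ →+* ℂ, ∀ w ∈ W, (fun i => σ (w i)) ∈ W) :
    W = Submodule.span ℂ (ratVectors W) := by
  classical
  apply le_antisymm
  · intro w hw
    exact desc_aux W hW _ w hw le_rfl
  · rw [Submodule.span_le]
    intro w hw
    exact hw.1

end Fermat.Agent.S23.H77
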