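import Fermat.Statements.S23
import Fermat.Prelude.Thm_CuspForm_intLattice_fg
import Fermat.Agent.S23.H77_Desc

/-!
# S23 assembly: Galois stability (GS) + bounded denominators (BD) imply `HasIntegralStructure N 2`.
-/

set_option autoImplicit false

namespace Fermat.Agent.S23.H77

open ModularFormClass
open P2MW.S_CuspForm_intLattice_fg.W3WsD

local notation "Γ₀(" N ")" => CongruenceSubgroup.Gamma0 N

theorem qCoeff_smulC {N : ℕ} {k : ℤ} (c : ℂ) (f : CuspForm Γ₀(N) k) (n : ℕ) :
    qCoeff ⇑(c • f) n = c * qCoeff ⇑f n := by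
  have h1 : ⇑(c • f) = c • ⇑f := by
    ext z
    simp
  simp only [qCoeff, h1]
  rw [ModularForm.qExpansion_smul one_pos (hΓ N) c f]
  simp

/-- The truncated `q`-expansion map, as a `ℂ`-linear map. -/
noncomputable def truncC (N : ℕ) (k : ℤ) :
    CuspForm Γ₀(N) k →ₗ[ℂ] (Fin (sturmB N k + 1) → ℂ) where
  toFun f i := qCoeff ⇑f i
  map_add' f g := by
    funext i
    exact qCoeff_add f g i
  map_smul' c f := by
    funext i
    exact qCoeff_smulC c f i

theorem truncC_apply {N : ℕ} {k : ℤ} (f : CuspForm Γ₀(N) k) (i : Fin (sturmB N k + 1)) :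
    truncC N k f i = qCoeff ⇑f i := rfl

theorem truncC_injective (N : ℕ) [NeZero N] (k : ℤ) : Function.Injective (truncC N k) := by
  intro f g h
  apply trunc_injective N k
  funext i
  exact congrFun h i

/-- **Assembly**: Galois stability and bounded denominators give the integral structure. -/
theorem hasIntegralStructure_of_GS_BD (N : ℕ) [NeZero N]
    (GS : ∀ (σ : ℂ →+* ℂ) (f : CuspForm (CongruenceSubgroup.Gamma0 N) 2),
      ∃ g : CuspForm (CongruenceSubgroup.Gamma0 N) 2, ∀ n : ℕ,
        ModularFormClass.qCoeff g n = σ (ModularFormClass.qCoeff f n))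
    (BD : ∀ f : CuspForm (CongruenceSubgroup.Gamma0 N) 2,
      (∀ n : ℕ, ∃ r : ℚ, ModularFormClass.qCoeff f n = (r : ℂ)) →
      ∃ M : ℕ, M ≠ 0 ∧ ∀ n : ℕ, ∃ m : ℤ, (M : ℂ) * ModularFormClass.qCoeff f n = (m : ℂ)) :
    CuspForm.HasIntegralStructure N 2 := by
  classical
  unfold CuspForm.HasIntegralStructure
  rw [eq_top_iff]
  intro f _
  -- the image of the truncation map
  set W : Submodule ℂ (Fin (sturmB N 2 + 1) → ℂ) := LinearMap.range (truncC N 2) with hWdef
  have hW : ∀ σ : ℂ →+* ℂ, ∀ w ∈ W, (fun i => σ (w i)) ∈ W := by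
    rintro σ w ⟨f, rfl⟩
    obtain ⟨g, hg⟩ := GS σ f
    refine ⟨g, ?_⟩
    funext i
    rw [truncC_apply, hg, truncC_apply]
  have hdesc := desc W hW
  -- every rational vector of W comes from a form in the span of the integral lattice
  have key : ∀ w ∈ ratVectors W, ∃ g : CuspForm Γ₀(N) 2, truncC N 2 g = w ∧
      g ∈ Submodule.span ℂ ((CuspForm.intLattice N 2 : Submodule ℤ (CuspForm Γ₀(N) 2)) :
        Set (CuspForm Γ₀(N) 2)) := by
    rintro w ⟨⟨g, rfl⟩, hrat⟩
    refine ⟨g, rfl, ?_⟩
    -- all coefficients of g are rational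
    have hall : ∀ n : ℕ, ∃ r : ℚ, qCoeff g n = (r : ℂ) := by
      intro n
      apply exists_rat_of_forall_ringHom_fixed
      intro σ
      obtain ⟨g', hg'⟩ := GS σ g
      have hgg' : g' = g := by
        apply truncC_injective N 2
        funext i
        rw [truncC_apply, hg']
        obtain ⟨r, hr⟩ := hrat i
        rw [truncC_apply] at hr
        rw [truncC_apply, hr]
        simp
      rw [← hg' n, hgg']
    obtain ⟨M, hM0, hM⟩ := BD g hall
    have hMg : ((M : ℂ) • g) ∈ CuspForm.intLattice N 2 := by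
      apply Submodule.subset_span
      intro n
      obtain ⟨m, hm⟩ := hM n
      exact ⟨m, by rw [qCoeff_smulC, hm]⟩
    have hMC : (M : ℂ) ≠ 0 := by exact_mod_cast hM0
    have : g = (M : ℂ)⁻¹ • ((M : ℂ) • g) := by
      rw [smul_smul, inv_mul_cancel₀ hMC, one_smul]
    rw [this]
    exact Submodule.smul_mem _ _ (Submodule.subset_span hMg)
  -- now decompose `truncC f`
  have hfW : truncC N 2 f ∈ Submodule.span ℂ (ratVectors W) := by
    rw [← hdesc]
    exact ⟨f, rfl⟩
  -- the span of the integral lattice maps onto the span of rational vectors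
  have hle : Submodule.span ℂ (ratVectors W) ≤
      (Submodule.span ℂ ((CuspForm.intLattice N 2 : Submodule ℤ (CuspForm Γ₀(N) 2)) :
        Set (CuspForm Γ₀(N) 2))).map (truncC N 2) := by
    rw [Submodule.span_le]
    intro w hw
    obtain ⟨g, hg, hgs⟩ := key w hw
    exact ⟨g, hgs, hg⟩
  obtain ⟨g, hgs, hg⟩ := hle hfW
  have : g = f := truncC_injective N 2 hg
  rw [← this]
  exact hgs

end Fermat.Agent.S23.H77
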