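import Fermat.Statements.S23
import Fermat.Prelude.Def_CuspForm_HeckeAlgebra
import Fermat.Prelude.Thm_ModularFormClass_qCoeff_heckeT
import Fermat.Prelude.Thm_ModularFormClass_qCoeff_heckeU
import Fermat.Prelude.Thm_CongruenceSubgroup_one_mem_strictPeriods_Gamma0
import Fermat.Agent.S23.H77_Assembly

/-!
# Bounded denominators (BD) for `S₂(Γ₀(N))` from finiteness of the Hecke algebra (S22).
-/

set_option autoImplicit false

namespace Fermat.Agent.S23.H77

open ModularFormClass CuspForm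
open P2MW.S_CuspForm_intLattice_fg.W3WsD

local notation "Γ₀(" N ")" => CongruenceSubgroup.Gamma0 N

variable {N : ℕ}

/-- The `n`-th `q`-coefficient as a `ℂ`-linear functional. -/
noncomputable def coeffLin (N : ℕ) (k : ℤ) (n : ℕ) : CuspForm Γ₀(N) k →ₗ[ℂ] ℂ where
  toFun f := qCoeff ⇑f n
  map_add' f g := qCoeff_add f g n
  map_smul' c f := qCoeff_smulC c f n

theorem coeffLin_apply {k : ℤ} (n : ℕ) (f : CuspForm Γ₀(N) k) :
    coeffLin N k n f = qCoeff ⇑f n := rfl

theorem coeffLin_zero_eq_zero {k : ℤ} (f : CuspForm Γ₀(N) k) : coeffLin N k 0 f = 0 := by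
  rw [coeffLin_apply, qCoeff]
  exact CuspFormClass.qExpansion_coeff_zero f one_pos (hΓ N)

theorem coeffLin_heckeTLin {k : ℤ} {p : ℕ} (hp : p.Prime) (hpN : ¬ p ∣ N)
    (f : CuspForm Γ₀(N) k) (n : ℕ) :
    coeffLin N k n (CuspForm.heckeTLin k hp hpN f)
      = ModularForm.coeffHeckeT k p (fun m => coeffLin N k m f) n := by
  rw [coeffLin_apply, CuspForm.coe_heckeTLin_apply]
  exact ModularFormClass.qCoeff_heckeT f (hΓ N) hp.ne_zero n

theorem coeffLin_heckeULin [NeZero N] {k : ℤ} {p : ℕ} (hp : p.Prime) (hpN : p ∣ N)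
    (f : CuspForm Γ₀(N) k) (n : ℕ) :
    coeffLin N k n (CuspForm.heckeULin k hpN f)
      = ModularForm.coeffHeckeU p (fun m => coeffLin N k m f) n := by
  rw [coeffLin_apply, CuspForm.coe_heckeULin_apply]
  exact ModularFormClass.qCoeff_heckeU f (hΓ N) hp.ne_zero n

/-- For every `n ≥ 1` there is a Hecke operator `T_n` in the Hecke algebra with
`a₁ (T_n g) = a_n g`. -/
theorem exists_hecke_coeff [NeZero N] (n : ℕ) (hn : 0 < n) :
    ∃ T ∈ CuspForm.heckeAlgebra N 2 ∅, ∀ g : CuspForm Γ₀(N) 2,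
      coeffLin N 2 1 (T g) = coeffLin N 2 n g := by
  induction n using Nat.strong_induction_on with
  | _ n ih =>
    by_cases h1 : n = 1
    · subst h1
      exact ⟨1, Subalgebra.one_mem _, fun g => rfl⟩
    · have hp : (n.minFac).Prime := Nat.minFac_prime h1
      obtain ⟨m, hm⟩ : n.minFac ∣ n := Nat.minFac_dvd n
      set p := n.minFac with hpdef
      have hp0 : 0 < p := hp.pos
      have hm0 : 0 < m := by
        rcases Nat.eq_zero_or_pos m with h | h
        · rw [h, mul_zero] at hm; omega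
        · exact h
      have hmn : m < n := by
        rw [hm]
        have : 2 ≤ p := hp.two_le
        nlinarith
      obtain ⟨Tm, hTm, hTm'⟩ := ih m hmn hm0
      by_cases hpN : p ∣ N
      · refine ⟨Tm * CuspForm.heckeULin 2 hpN,
          mul_mem hTm (CuspForm.heckeULin_mem_heckeAlgebra hp hpN (by simp)), fun g => ?_⟩
        rw [Module.End.mul_apply, hTm', coeffLin_heckeULin hp hpN, ModularForm.coeffHeckeU_apply,
          hm, mul_comm]
      · by_cases hpm : p ∣ m
        · have hmp0 : 0 < m / p := Nat.div_pos (Nat.le_of_dvd hm0 hpm) hp0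
          have hmpn : m / p < n := lt_of_le_of_lt (Nat.div_le_self m p) hmn
          obtain ⟨Tm', hTm'mem, hTm'spec⟩ := ih (m / p) hmpn hmp0
          refine ⟨Tm * CuspForm.heckeTLin 2 hp hpN - (p : ℤ) • Tm',
            sub_mem (mul_mem hTm (CuspForm.heckeTLin_mem_heckeAlgebra hp hpN (by simp)))
              (Subalgebra.zsmul_mem _ hTm'mem _), fun g => ?_⟩
          rw [LinearMap.sub_apply, LinearMap.smul_apply, Module.End.mul_apply, map_sub, hTm',
            coeffLin_heckeTLin hp hpN, ModularForm.coeffHeckeT_of_dvd 2 hpm]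
          have hz : ((p : ℤ) • Tm' g) = ((p : ℂ)) • Tm' g := by
            rw [← Int.cast_natCast (R := ℂ), Int.cast_smul_eq_zsmul]
          rw [hz, map_smul, hTm'spec, hm, mul_comm p m]
          simp only [smul_eq_mul]
          norm_num
        · refine ⟨Tm * CuspForm.heckeTLin 2 hp hpN,
            mul_mem hTm (CuspForm.heckeTLin_mem_heckeAlgebra hp hpN (by simp)), fun g => ?_⟩
          rw [Module.End.mul_apply, hTm', coeffLin_heckeTLin hp hpN,
            ModularForm.coeffHeckeT_of_not_dvd 2 hpm, hm, mul_comm]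

/-- A finitely generated `ℤ`-submodule of `ℂ` consisting of rational numbers has a common
denominator. -/
theorem exists_common_denominator (Λ₀ : Submodule ℤ ℂ) (hfg : Λ₀.FG)
    (hrat : ∀ x ∈ Λ₀, ∃ r : ℚ, x = (r : ℂ)) :
    ∃ M : ℕ, M ≠ 0 ∧ ∀ x ∈ Λ₀, ∃ m : ℤ, (M : ℂ) * x = (m : ℂ) := by
  classical
  obtain ⟨s, hs⟩ := hfg
  have hsmem : ∀ x ∈ s, x ∈ Λ₀ := fun x hx => hs ▸ Submodule.subset_span hx
  choose! r hr using hrat
  refine ⟨∏ x ∈ s, (r x).den, Finset.prod_ne_zero_iff.2 fun x _ => (r x).den_nz, ?_⟩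
  intro x hx
  rw [← hs] at hx
  induction hx using Submodule.span_induction with
  | mem x hx =>
    have hxs : x ∈ s := hx
    refine ⟨(∏ y ∈ s.erase x, ((r y).den : ℤ)) * (r x).num, ?_⟩
    rw [← Finset.prod_erase_mul _ _ hxs]
    have h1 : x = (r x : ℂ) := hr x (hsmem x hxs)
    have h2 : ((r x).den : ℂ) * (r x : ℂ) = ((r x).num : ℂ) := by
      have := Rat.den_mul_eq_num (r x)
      exact_mod_cast this
    have h3 : ((r x).den : ℂ) * x = ((r x).num : ℂ) := by
      rw [← h1] at h2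
      exact h2
    push_cast
    rw [mul_assoc, h3]
  | zero => exact ⟨0, by simp⟩
  | add x y _ _ hx hy =>
    obtain ⟨a, ha⟩ := hx
    obtain ⟨b, hb⟩ := hy
    exact ⟨a + b, by rw [mul_add, ha, hb]; push_cast; ring⟩
  | smul c x _ hx =>
    obtain ⟨a, ha⟩ := hx
    refine ⟨c * a, ?_⟩
    rw [zsmul_eq_mul, mul_left_comm, ha]
    push_cast
    ring

/-- **BD** from finiteness of the Hecke algebra. -/
theorem bounded_denominators_of_finite [NeZero N]
    (hfin : Module.Finite ℤ (CuspForm.heckeAlgebra N 2 ∅))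
    (f : CuspForm Γ₀(N) 2)
    (hf : ∀ n : ℕ, ∃ r : ℚ, ModularFormClass.qCoeff f n = (r : ℂ)) :
    ∃ M : ℕ, M ≠ 0 ∧ ∀ n : ℕ, ∃ m : ℤ, (M : ℂ) * ModularFormClass.qCoeff f n = (m : ℂ) := by
  classical
  -- the additive map `T ↦ a₁ (T f)`
  let Φ : CuspForm.heckeAlgebra N 2 ∅ →ₗ[ℤ] ℂ :=
    { toFun := fun T => coeffLin N 2 1 ((T : Module.End ℂ (CuspForm Γ₀(N) 2)) f)
      map_add' := fun T T' => by
        simp only [Subalgebra.coe_add, LinearMap.add_apply, map_add]
      map_smul' := fun c T => by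
        simp only [Subalgebra.coe_smul, LinearMap.smul_apply, eq_intCast, Int.cast_id]
        have hz : (c • ((T : Module.End ℂ (CuspForm Γ₀(N) 2)) f))
            = ((c : ℂ)) • ((T : Module.End ℂ (CuspForm Γ₀(N) 2)) f) := by
          rw [Int.cast_smul_eq_zsmul]
        rw [hz, map_smul, smul_eq_mul, zsmul_eq_mul] }
  set Λ : Submodule ℤ ℂ := LinearMap.range Φ with hΛ
  have hΛfg : Λ.FG := by
    rw [hΛ, LinearMap.range_eq_map]
    exact (Module.Finite.fg_top).map Φ
  -- the rational numbers as a `ℤ`-submodule of `ℂ`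
  let Q : Submodule ℤ ℂ :=
    { carrier := {x | ∃ r : ℚ, x = (r : ℂ)}
      add_mem' := by
        rintro x y ⟨a, rfl⟩ ⟨b, rfl⟩
        exact ⟨a + b, by push_cast; rfl⟩
      zero_mem' := ⟨0, by simp⟩
      smul_mem' := by
        rintro c x ⟨a, rfl⟩
        exact ⟨c * a, by rw [zsmul_eq_mul]; push_cast; rfl⟩ }
  have hΛ₀fg : (Λ ⊓ Q).FG := hΛfg.of_le inf_le_left
  obtain ⟨M, hM0, hM⟩ := exists_common_denominator (Λ ⊓ Q) hΛ₀fg (fun x hx => hx.2)
  refine ⟨M, hM0, fun n => ?_⟩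
  rcases Nat.eq_zero_or_pos n with h0 | hn
  · subst h0
    have : ModularFormClass.qCoeff f 0 = 0 := coeffLin_zero_eq_zero f
    exact ⟨0, by rw [this]; simp⟩
  · apply hM
    refine ⟨?_, hf n⟩
    obtain ⟨T, hT, hTspec⟩ := exists_hecke_coeff (N := N) n hn
    exact ⟨⟨T, hT⟩, hTspec f⟩

end Fermat.Agent.S23.H77
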