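import Fermat.Agent.S22
import Fermat.Agent.S23.H77_BDHecke

/-!
# S23 from Galois stability alone (bounded denominators come from S22).
-/

set_option autoImplicit false

namespace Fermat.Agent.S23.H77

/-- `HasIntegralStructure N 2` from Galois stability (GS) of the `q`-expansions of
`S₂(Γ₀(N))`; bounded denominators are supplied by the finiteness of the Hecke algebra (S22). -/
theorem hasIntegralStructure_of_GS (N : ℕ) [NeZero N]
    (GS : ∀ (σ : ℂ →+* ℂ) (f : CuspForm (CongruenceSubgroup.Gamma0 N) 2),
      ∃ g : CuspForm (CongruenceSubgroup.Gamma0 N) 2, ∀ n : ℕ,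
        ModularFormClass.qCoeff g n = σ (ModularFormClass.qCoeff f n)) :
    CuspForm.HasIntegralStructure N 2 :=
  hasIntegralStructure_of_GS_BD N GS fun f hf =>
    bounded_denominators_of_finite (Fermat.Agent.S22.result N 2 ∅) f hf

end Fermat.Agent.S23.H77
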