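import Fermat.Agent.S23.H22_Core
import Mathlib.NumberTheory.ModularForms.Discriminant
import Mathlib.NumberTheory.ModularForms.EisensteinSeries.Basic

/-!
# The concrete families for `Γ₀(N)` and the identity `f * Dhat = ∑ H_k e^k δ^(μ-1-k)`
(helper22, part of the S23 development)
-/

set_option autoImplicit false
set_option linter.unusedSectionVars false

open UpperHalfPlane ModularForm Polynomial SlashInvariantForm EisensteinSeries
open scoped MatrixGroups ModularForm Manifold

noncomputable section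

namespace Fermat.Agent.S23.H22

/-- `E₄ ^ 3` as a level one modular form of weight `12`. -/
def E12 : ModularForm 𝒮ℒ 12 := ModularForm.mcast (by norm_num) ((E₄.mul E₄).mul E₄)

lemma E12_apply (z : ℍ) : E12 z = E₄ z ^ 3 := by
  show (E₄ z * E₄ z) * E₄ z = E₄ z ^ 3
  ring

variable (N : ℕ) [NeZero N]

instance instDecidableEqQ : DecidableEq (Q N) := Classical.decEq _

/-- `δ = Δ ∣[12] α_N`, i.e. `N ^ 11 * Δ (N z)`, a modular form on `Γ₀(N)`. -/
def deltaN : ModularForm (G0 N) 12 := levelRaise N CuspForm.discriminant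

/-- `e = E₄ ^ 3 ∣[12] α_N`, i.e. `N ^ 11 * E₄ (N z) ^ 3`, a modular form on `Γ₀(N)`. -/
def eN : ModularForm (G0 N) 12 := levelRaise N E12

/-- The conjugates of `δ`. -/
def deltaFam (q : Q N) : ℍ → ℂ := quotientFunc (deltaN N) q

/-- The conjugates of `e`. -/
def eFam (q : Q N) : ℍ → ℂ := quotientFunc (eN N) q

lemma deltaFam_q1 : deltaFam N q1 = deltaN N := quotientFunc_q1 _

lemma eFam_q1 : eFam N q1 = eN N := quotientFunc_q1 _

/-- `Dhat = δ * ∏_{q ≠ 1} (e * δ_q - δ * e_q)`: the homogenised `Φ_N'(j_N)`. -/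
def Dhat : ℍ → ℂ := fun z =>
  deltaN N z * ∏ q ∈ Finset.univ.erase (q1 (N := N)), (eN N z * deltaFam N q z - deltaN N z * eFam N q z)

lemma deltaN_apply (z : ℍ) :
    deltaN N z = (N : ℂ) ^ (11 : ℤ) * ModularForm.discriminant (heckeDiagMatrix N • z) := by
  rw [deltaN, levelRaise_apply]
  norm_num

lemma eN_apply (z : ℍ) :
    eN N z = (N : ℂ) ^ (11 : ℤ) * E₄ (heckeDiagMatrix N • z) ^ 3 := by
  rw [eN, levelRaise_apply, E12_apply]
  norm_num

lemma deltaN_ne_zero (z : ℍ) : deltaN N z ≠ 0 := by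
  rw [deltaN_apply]
  refine mul_ne_zero (zpow_ne_zero _ ?_) (discriminant_ne_zero _)
  exact_mod_cast NeZero.ne N

/-- **The Lagrange identity for a family.** -/
theorem exists_identity_fam {wa : ℤ} (a : Q N → ℍ → ℂ)
    (ha : ∀ γ q, a q ∣[wa] γ = a (piPerm N γ q)) (hah : ∀ q, MDiff (a q))
    (hab : ∀ q, IsBoundedAtImInfty (a q)) :
    ∃ H : ℕ → ModularForm 𝒮ℒ (lagrWeight (Q N) wa 12), ∀ z,
      ∑ k ∈ Finset.range (Fintype.card (Q N)),
        H k z * eN N z ^ k * deltaN N z ^ (Fintype.card (Q N) - 1 - k) = a q1 z * Dhat N z := by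
  obtain ⟨H, hH⟩ := exists_lagrange_forms (piPerm N) (wa := wa) (w := 12) a (deltaFam N) (eFam N)
    ha (fun γ q => quotientFunc_slash _ γ q) (fun γ q => quotientFunc_slash _ γ q)
    hah (fun q => quotientFunc_mdiff _ q) (fun q => quotientFunc_mdiff _ q)
    hab (fun q => quotientFunc_bdd _ q) (fun q => quotientFunc_bdd _ q)
  refine ⟨H, fun z => ?_⟩
  simp_rw [hH]
  have := lagrange_identity (fun q => a q z) (fun q => deltaFam N q z) (fun q => eFam N q z) q1
    (by rw [deltaFam_q1]; exact deltaN_ne_zero N z)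
  simp only [deltaFam_q1, eFam_q1] at this
  rw [this, Dhat, mul_assoc]

/-- **The Lagrange identity for a modular form on `Γ₀(N)`.** -/
theorem exists_identity {k : ℤ} {F : Type*} [FunLike F ℍ ℂ] [ModularFormClass F (G0 N) k]
    (f : F) :
    ∃ H : ℕ → ModularForm 𝒮ℒ (lagrWeight (Q N) k 12), ∀ z,
      ∑ j ∈ Finset.range (Fintype.card (Q N)),
        H j z * eN N z ^ j * deltaN N z ^ (Fintype.card (Q N) - 1 - j) = f z * Dhat N z := by
  obtain ⟨H, hH⟩ := exists_identity_fam N (wa := k) (fun q => quotientFunc f q)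
    (fun γ q => quotientFunc_slash _ γ q) (fun q => quotientFunc_mdiff _ q)
    (fun q => quotientFunc_bdd _ q)
  refine ⟨H, fun z => ?_⟩
  rw [hH z, quotientFunc_q1]

/-- `Dhat` itself is of the same shape. -/
theorem exists_identity_one :
    ∃ H : ℕ → ModularForm 𝒮ℒ (lagrWeight (Q N) 0 12), ∀ z,
      ∑ j ∈ Finset.range (Fintype.card (Q N)),
        H j z * eN N z ^ j * deltaN N z ^ (Fintype.card (Q N) - 1 - j) = Dhat N z := by
  obtain ⟨H, hH⟩ := exists_identity_fam N (wa := 0) (fun _ _ => (1 : ℂ))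
    (fun γ q => is_invariant_const γ (1 : ℂ)) (fun q => mdifferentiable_const)
    (fun q => Filter.const_boundedAtFilter _ _)
  refine ⟨H, fun z => ?_⟩
  rw [hH z, one_mul]

/-- **The norm relation**: a cusp form on `Γ₀(N)` is a root of a monic polynomial whose lower
coefficients are level one cusp forms. -/
theorem exists_norm_relation {k : ℤ} {F : Type*} [FunLike F ℍ ℂ] [CuspFormClass F (G0 N) k]
    (f : F) :
    ∃ c : (j : ℕ) → CuspForm 𝒮ℒ (0 * (j : ℤ) + k * ((Fintype.card (Q N) : ℤ) - j)), ∀ z,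
      f z ^ Fintype.card (Q N) + ∑ j ∈ Finset.range (Fintype.card (Q N)), c j z * f z ^ j = 0 := by
  have h := fun j (hj : j < Fintype.card (Q N)) =>
    exists_norm_forms (piPerm N) (wa := k) (fun q => quotientFunc f q)
      (fun γ q => quotientFunc_slash _ γ q) (fun q => quotientFunc_mdiff _ q)
      (fun q => quotientFunc_zero_at _ q) j hj
  choose c hc using h
  refine ⟨fun j => if hj : j < Fintype.card (Q N) then c j hj else 0, fun z => ?_⟩
  have := normPoly_relation (fun q => quotientFunc f q z) q1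
  rw [quotientFunc_q1] at this
  rw [← this]
  congr 1
  refine Finset.sum_congr rfl fun j hj => ?_
  simp only [dif_pos (Finset.mem_range.mp hj), hc]

end Fermat.Agent.S23.H22
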