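import Fermat.Agent.S23.H22_Family

/-!
# The Lagrange interpolation identity (helper22, part of the S23 development)
-/

set_option autoImplicit false
set_option linter.unusedSectionVars false

open UpperHalfPlane ModularForm Polynomial SlashInvariantForm
open scoped MatrixGroups ModularForm Manifold

noncomputable section

namespace Fermat.Agent.S23.H22

section Algebra

variable {ι : Type} [Fintype ι] [DecidableEq ι]

/-- The coefficient of `X` in a product of linear polynomials. -/
lemma coeff_one_prod_linear (α β : ι → ℂ) :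
    (∏ i, (C (α i) * X + C (β i))).coeff 1 = ∑ i, α i * ∏ j ∈ Finset.univ.erase i, β j := by
  have h1 : (∏ i, (C (α i) * X + C (β i))).coeff 1 =
      (derivative (∏ i, (C (α i) * X + C (β i)))).coeff 0 := by
    rw [coeff_derivative]; simp
  rw [h1, coeff_zero_eq_eval_zero, derivative_prod_finset, eval_finsetSum]
  refine Finset.sum_congr rfl fun i _ => ?_
  rw [eval_mul, eval_prod, mul_comm]
  congr 1
  · simp
  · refine Finset.prod_congr rfl fun j _ => ?_
    simp

/-- The Lagrange polynomial `∑ i, a i d i ∏_{j ≠ i} (d j X - e j)`. -/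
def lagrPoly (a d e : ι → ℂ) : ℂ[X] :=
  ∑ i, C (a i * d i) * ∏ j ∈ Finset.univ.erase i, (C (d j) * X - C (e j))

lemma lagrPoly_eval (a d e : ι → ℂ) (x : ℂ) :
    (lagrPoly a d e).eval x = ∑ i, a i * d i * ∏ j ∈ Finset.univ.erase i, (d j * x - e j) := by
  simp [lagrPoly, eval_finsetSum, eval_prod]

lemma lagrPoly_eval_eq_coeff_one (a d e : ι → ℂ) (x : ℂ) :
    (lagrPoly a d e).eval x =
      (∏ i, (C (a i * d i) * X + C (x * d i - e i))).coeff 1 := by
  rw [lagrPoly_eval, coeff_one_prod_linear]
  refine Finset.sum_congr rfl fun i _ => ?_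
  congr 1
  refine Finset.prod_congr rfl fun j _ => ?_
  ring

lemma lagrPoly_natDegree_lt (a d e : ι → ℂ) (i₀ : ι) :
    (lagrPoly a d e).natDegree < Fintype.card ι := by
  have hcard : 0 < Fintype.card ι := Fintype.card_pos_iff.mpr ⟨i₀⟩
  have : (lagrPoly a d e).natDegree ≤ Fintype.card ι - 1 := by
    unfold lagrPoly
    refine natDegree_sum_le_of_forall_le _ _ fun i _ => ?_
    refine (natDegree_C_mul_le _ _).trans ?_
    refine (natDegree_prod_le _ _).trans ?_
    calc ∑ j ∈ Finset.univ.erase i, (C (d j) * X - C (e j)).natDegree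
        ≤ ∑ _j ∈ Finset.univ.erase i, 1 := by
          refine Finset.sum_le_sum fun j _ => ?_
          rw [sub_eq_add_neg, ← C_neg]
          exact natDegree_linear_le
      _ = Fintype.card ι - 1 := by
          simp [Finset.card_erase_of_mem, Finset.card_univ]
  omega

/-- **Lagrange identity** (homogeneous form). -/
lemma lagrange_identity (a d e : ι → ℂ) (i₀ : ι) (hd : d i₀ ≠ 0) :
    ∑ k ∈ Finset.range (Fintype.card ι),
        (lagrPoly a d e).coeff k * e i₀ ^ k * d i₀ ^ (Fintype.card ι - 1 - k) =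
      a i₀ * d i₀ * ∏ j ∈ Finset.univ.erase i₀, (e i₀ * d j - d i₀ * e j) := by
  have hlt := lagrPoly_natDegree_lt a d e i₀
  have h1 : ∑ k ∈ Finset.range (Fintype.card ι),
        (lagrPoly a d e).coeff k * e i₀ ^ k * d i₀ ^ (Fintype.card ι - 1 - k) =
      d i₀ ^ (Fintype.card ι - 1) * (lagrPoly a d e).eval (e i₀ / d i₀) := by
    rw [eval_eq_sum_range' hlt, Finset.mul_sum]
    refine Finset.sum_congr rfl fun k hk => ?_
    have hk' : k ≤ Fintype.card ι - 1 := by
      have := Finset.mem_range.mp hk; omega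
    have : d i₀ ^ (Fintype.card ι - 1) = d i₀ ^ (Fintype.card ι - 1 - k) * d i₀ ^ k := by
      rw [← pow_add]; congr 1; omega
    rw [this, div_pow]
    field_simp
  rw [h1, lagrPoly_eval, Finset.mul_sum]
  rw [Finset.sum_eq_single i₀]
  · have hc : (Finset.univ.erase i₀).card = Fintype.card ι - 1 := by
      simp [Finset.card_erase_of_mem, Finset.card_univ]
    rw [← hc, ← Finset.prod_const]
    rw [mul_left_comm, ← Finset.prod_mul_distrib]
    congr 1
    refine Finset.prod_congr rfl fun j _ => ?_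
    field_simp
  · intro i _ hi
    have : ∏ j ∈ Finset.univ.erase i, (d j * (e i₀ / d i₀) - e j) = 0 := by
      refine Finset.prod_eq_zero (i := i₀) (by simp [Ne.symm hi]) ?_
      field_simp
      ring
    rw [this]; ring
  · intro h; exact absurd (Finset.mem_univ _) h

end Algebra

lemma modularForm_sum_apply {Γ : Subgroup (GL (Fin 2) ℝ)} {k : ℤ} {κ : Type*} (s : Finset κ)
    (F : κ → ModularForm Γ k) (z : ℍ) : (∑ i ∈ s, F i) z = ∑ i ∈ s, F i z := by
  classical
  induction s using Finset.induction_on with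
  | empty => simp
  | insert i t hi IH => simp [Finset.sum_insert hi, IH]

section CoreThm

variable {ι : Type} [Fintype ι] [DecidableEq ι] (π : SL(2, ℤ) → Equiv.Perm ι)
  {wa w : ℤ} (a d e : ι → ℍ → ℂ)

/-- The weight of the Lagrange forms. -/
abbrev lagrWeight (ι : Type) [Fintype ι] (wa w : ℤ) : ℤ :=
  (wa + w) * ((1 : ℕ) : ℤ) + w * ((Fintype.card ι : ℤ) - ((1 : ℕ) : ℤ))

/-- The coefficients of the Lagrange polynomial of equivariant families are level one modular
forms. -/
theorem exists_lagrange_forms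
    (ha : ∀ γ i, a i ∣[wa] γ = a (π γ i)) (hd : ∀ γ i, d i ∣[w] γ = d (π γ i))
    (he : ∀ γ i, e i ∣[w] γ = e (π γ i))
    (hah : ∀ i, MDiff (a i)) (hdh : ∀ i, MDiff (d i)) (heh : ∀ i, MDiff (e i))
    (hab : ∀ i, IsBoundedAtImInfty (a i)) (hdb : ∀ i, IsBoundedAtImInfty (d i))
    (heb : ∀ i, IsBoundedAtImInfty (e i)) :
    ∃ H : ℕ → ModularForm 𝒮ℒ (lagrWeight ι wa w),
      ∀ k z, H k z = (lagrPoly (fun i => a i z) (fun i => d i z) (fun i => e i z)).coeff k := by
  -- the forms `P x`
  have hP : ∀ x : ℂ, ∃ P : ModularForm 𝒮ℒ (lagrWeight ι wa w), ∀ z,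
      P z = (lagrPoly (fun i => a i z) (fun i => d i z) (fun i => e i z)).eval x := by
    intro x
    obtain ⟨P, hP⟩ := exists_modularForm_coeff_famPoly π (a := wa + w) (b := w)
      (fun i => a i * d i) (fun i => x • d i - e i)
      (fun γ i => by rw [mul_slash_SL2, ha, hd])
      (fun γ i => by
        rw [sub_eq_add_neg, SlashAction.add_slash, SL_smul_slash, SlashAction.neg_slash, hd, he,
          ← sub_eq_add_neg])
      (fun i => (hah i).mul (hdh i))
      (fun i => ((hdh i).const_smul x).sub (heh i))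
      (fun i => (hab i).mul (hdb i))
      (fun i => by
        have h1 : IsBoundedAtImInfty (x • d i) := Filter.BoundedAtFilter.smul x (hdb i)
        have h2 : IsBoundedAtImInfty (-(e i)) := Filter.BoundedAtFilter.neg (heb i)
        have := Filter.BoundedAtFilter.add h1 h2
        rwa [← sub_eq_add_neg] at this) 1
    refine ⟨P, fun z => ?_⟩
    rw [hP z, lagrPoly_eval_eq_coeff_one]
    simp [famPoly]
  choose P hP using hP
  have hc := fun k => coeff_eq_sum_eval (Fintype.card ι) k
  choose c hc using hc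
  refine ⟨fun k => ∑ j ∈ Finset.range (Fintype.card ι + 1), c k j • P (j : ℂ), fun k z => ?_⟩
  rcases isEmpty_or_nonempty ι with hι | ⟨⟨i₀⟩⟩
  · simp [lagrPoly, hP]
  have hdeg := (lagrPoly_natDegree_lt (fun i => a i z) (fun i => d i z) (fun i => e i z) i₀).le
  rw [hc k _ hdeg]
  rw [modularForm_sum_apply]
  refine Finset.sum_congr rfl fun j _ => ?_
  rw [smul_apply, hP, smul_eq_mul]
  ring

/-- The norm polynomial `∏ i, (X - a i)`. -/
def normPoly (a : ι → ℂ) : ℂ[X] := ∏ i, (X - C (a i))

lemma normPoly_eq_famPoly (a : ι → ℍ → ℂ) (z : ℍ) :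
    normPoly (fun i => a i z) = famPoly (fun _ _ => (1 : ℂ)) (fun i => -a i) z := by
  simp [normPoly, famPoly, sub_eq_add_neg]

lemma normPoly_monic (a : ι → ℂ) : (normPoly a).Monic :=
  monic_prod_of_monic _ _ fun i _ => monic_X_sub_C (a i)

lemma normPoly_natDegree (a : ι → ℂ) : (normPoly a).natDegree = Fintype.card ι := by
  rw [normPoly, natDegree_prod_of_monic _ _ fun i _ => monic_X_sub_C (a i)]
  simp

lemma normPoly_eval_self (a : ι → ℂ) (i₀ : ι) : (normPoly a).eval (a i₀) = 0 := by
  rw [normPoly, eval_prod]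
  exact Finset.prod_eq_zero (Finset.mem_univ i₀) (by simp)

/-- The monic relation satisfied by each member of the family. -/
lemma normPoly_relation (a : ι → ℂ) (i₀ : ι) :
    a i₀ ^ Fintype.card ι + ∑ j ∈ Finset.range (Fintype.card ι), (normPoly a).coeff j * a i₀ ^ j
      = 0 := by
  have h := normPoly_eval_self a i₀
  rw [eval_eq_sum_range, normPoly_natDegree, Finset.sum_range_succ] at h
  have h2 : (normPoly a).coeff (Fintype.card ι) = 1 := by
    have := (normPoly_monic a).coeff_natDegree
    rwa [normPoly_natDegree] at this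
  rw [h2, one_mul] at h
  rw [add_comm]; exact h

/-- The lower coefficients of the norm polynomial of an equivariant family of functions vanishing
at `i∞` are level one cusp forms. -/
theorem exists_norm_forms (ha : ∀ γ i, a i ∣[wa] γ = a (π γ i)) (hah : ∀ i, MDiff (a i))
    (haz : ∀ i, IsZeroAtImInfty (a i)) (j : ℕ) (hj : j < Fintype.card ι) :
    ∃ F : CuspForm 𝒮ℒ (0 * (j : ℤ) + wa * ((Fintype.card ι : ℤ) - j)),
      ∀ z, F z = (normPoly (fun i => a i z)).coeff j := by
  have hinv := famPoly_coeff_slash π (a := 0) (b := wa) (fun _ _ => (1 : ℂ)) (fun i => -a i)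
    (fun γ i => by
      have := is_invariant_const γ (1 : ℂ)
      exact this)
    (fun γ i => by rw [SlashAction.neg_slash, ha]) j
  have hhol := famPoly_coeff_mdiff (fun _ _ => (1 : ℂ)) (fun i => -a i)
    (fun _ => mdifferentiable_const) (fun i => (hah i).neg) j
  have hzero : IsZeroAtImInfty (fun z => (famPoly (fun _ _ => (1 : ℂ)) (fun i => -a i) z).coeff j)
      := by
    obtain ⟨c, hc⟩ := coeff_eq_sum_eval (Fintype.card ι) j
    have h0 : ∑ l ∈ Finset.range (Fintype.card ι + 1), ((l : ℂ) ^ Fintype.card ι) * c l = 0 := by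
      have := hc (X ^ Fintype.card ι) (by simp)
      rw [coeff_X_pow, if_neg (Nat.ne_of_lt hj)] at this
      simpa using this.symm
    have heq : (fun z => (famPoly (fun _ _ => (1 : ℂ)) (fun i => -a i) z).coeff j) =
        fun z => ∑ l ∈ Finset.range (Fintype.card ι + 1), (∏ i, ((l : ℂ) - a i z)) * c l := by
      ext z
      rw [hc _ (famPoly_natDegree_le _ _ z)]
      refine Finset.sum_congr rfl fun l _ => ?_
      rw [famPoly_eval]
      simp [sub_eq_add_neg]
    rw [heq]
    unfold IsZeroAtImInfty Filter.ZeroAtFilter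
    rw [← h0]
    refine tendsto_finsetSum _ fun l _ => ?_
    refine Filter.Tendsto.mul_const _ ?_
    have : (l : ℂ) ^ Fintype.card ι = ∏ _i : ι, ((l : ℂ) - 0) := by simp
    rw [this]
    refine tendsto_finsetProd _ fun i _ => ?_
    exact tendsto_const_nhds.sub (haz i)
  refine ⟨mkLevelOneCusp _ _ hinv hhol hzero, fun z => ?_⟩
  rw [mkLevelOneCusp_apply, normPoly_eq_famPoly]

end CoreThm

end Fermat.Agent.S23.H22
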