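import Fermat.Agent.S23.H22_SymPoly
import Fermat.Prelude.Def_ModularForm_HeckeOperator
import Mathlib.NumberTheory.ModularForms.CongruenceSubgroups

/-!
# Coset families for `Γ₀(N) \ SL(2, ℤ)` (helper22, part of the S23 development)
-/

set_option autoImplicit false
set_option linter.unusedSectionVars false

open UpperHalfPlane ModularForm Polynomial SlashInvariantForm
open scoped MatrixGroups ModularForm Manifold Pointwise

noncomputable section

namespace Fermat.Agent.S23.H22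

variable (N : ℕ) [NeZero N]

/-- `Γ₀(N)` as a subgroup of `GL(2, ℝ)`. -/
abbrev G0 : Subgroup (GL (Fin 2) ℝ) := (CongruenceSubgroup.Gamma0 N : Subgroup (GL (Fin 2) ℝ))

/-- The coset space `SL(2, ℤ) / Γ₀(N)`. -/
abbrev Q : Type := ↥𝒮ℒ ⧸ (G0 N).subgroupOf 𝒮ℒ

instance instFiniteQ : Finite (Q N) := inferInstance

instance instFintypeQ : Fintype (Q N) := Fintype.ofFinite _

/-- The element of `𝒮ℒ` attached to `γ : SL(2, ℤ)`. -/
def toSL (γ : SL(2, ℤ)) : ↥𝒮ℒ := ⟨Matrix.SpecialLinearGroup.mapGL ℝ γ, ⟨γ, rfl⟩⟩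

/-- The permutation of the cosets induced by `γ`. -/
def piPerm (γ : SL(2, ℤ)) : Equiv.Perm (Q N) := MulAction.toPerm (toSL γ)⁻¹

variable {N}

lemma quotientFunc_slash {F : Type*} [FunLike F ℍ ℂ] {k : ℤ} [SlashInvariantFormClass F (G0 N) k]
    (f : F) (γ : SL(2, ℤ)) (q : Q N) :
    quotientFunc f q ∣[k] γ = quotientFunc f (piPerm N γ q) :=
  quotientFunc_smul f (toSL γ).2 q

lemma quotientFunc_mdiff {F : Type*} [FunLike F ℍ ℂ] {k : ℤ} [ModularFormClass F (G0 N) k]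
    (f : F) (q : Q N) : MDiff (quotientFunc f q) := by
  induction q using Quotient.inductionOn with
  | h r => exact (ModularForm.translate f r.1⁻¹).holo'

lemma quotientFunc_bdd {F : Type*} [FunLike F ℍ ℂ] {k : ℤ} [ModularFormClass F (G0 N) k]
    (f : F) (q : Q N) : IsBoundedAtImInfty (quotientFunc f q) := by
  induction q using Quotient.inductionOn with
  | h r =>
    obtain ⟨r, γ, rfl⟩ := r
    have := ModularFormClass.bdd_at_infty_slash f γ⁻¹
    rw [SL_slash, map_inv] at this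
    exact this

lemma quotientFunc_zero_at {F : Type*} [FunLike F ℍ ℂ] {k : ℤ} [CuspFormClass F (G0 N) k]
    (f : F) (q : Q N) : IsZeroAtImInfty (quotientFunc f q) := by
  induction q using Quotient.inductionOn with
  | h r =>
    obtain ⟨r, γ, rfl⟩ := r
    have := CuspFormClass.zero_at_infty_slash f γ⁻¹
    rw [SL_slash, map_inv] at this
    exact this

/-- The identity coset. -/
def q1 : Q N := ((1 : ↥𝒮ℒ) : Q N)

lemma quotientFunc_q1 {F : Type*} [FunLike F ℍ ℂ] {k : ℤ} [SlashInvariantFormClass F (G0 N) k]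
    (f : F) : quotientFunc f (q1 (N := N)) = f := by
  show quotientFunc f ⟦(1 : ↥𝒮ℒ)⟧ = f
  rw [quotientFunc_mk]
  simp

section LevelRaise

variable (N : ℕ) [NeZero N]

/-- The conjugate `α_N γ α_N⁻¹` of an element of `Γ₀(N)`, as an element of `SL(2, ℤ)`. -/
def conjGamma0 (γ : SL(2, ℤ)) (hγ : γ ∈ CongruenceSubgroup.Gamma0 N) : SL(2, ℤ) :=
  ⟨!![γ 0 0, N * γ 0 1; γ 1 0 / N, γ 1 1], by
    have h1 : (N : ℤ) ∣ γ 1 0 := by
      rw [CongruenceSubgroup.Gamma0_mem] at hγ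
      exact (ZMod.intCast_zmod_eq_zero_iff_dvd _ _).mp hγ
    obtain ⟨c, hc⟩ := h1
    have hN : (N : ℤ) ≠ 0 := by exact_mod_cast NeZero.ne N
    have hdet := γ.det_coe
    rw [Matrix.det_fin_two] at hdet
    rw [Matrix.det_fin_two_of, hc, Int.mul_ediv_cancel_left _ hN]
    rw [hc] at hdet
    linarith⟩

lemma coe_conjGamma0 (γ : SL(2, ℤ)) (hγ : γ ∈ CongruenceSubgroup.Gamma0 N) :
    (conjGamma0 N γ hγ : Matrix (Fin 2) (Fin 2) ℤ) = !![γ 0 0, N * γ 0 1; γ 1 0 / N, γ 1 1] := rfl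

lemma heckeDiag_mul_mapGL (γ : SL(2, ℤ)) (hγ : γ ∈ CongruenceSubgroup.Gamma0 N) :
    heckeDiagMatrix N * Matrix.SpecialLinearGroup.mapGL ℝ γ =
      Matrix.SpecialLinearGroup.mapGL ℝ (conjGamma0 N γ hγ) * heckeDiagMatrix N := by
  have h1 : (N : ℤ) ∣ γ 1 0 := by
    rw [CongruenceSubgroup.Gamma0_mem] at hγ
    exact (ZMod.intCast_zmod_eq_zero_iff_dvd _ _).mp hγ
  obtain ⟨c, hc⟩ := h1
  have hN : (N : ℤ) ≠ 0 := by exact_mod_cast NeZero.ne N
  have hN' : N ≠ 0 := NeZero.ne N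
  apply Matrix.GeneralLinearGroup.ext
  intro i j
  simp only [Matrix.GeneralLinearGroup.coe_mul, val_heckeDiagMatrix hN',
    Matrix.SpecialLinearGroup.mapGL_coe_matrix]
  fin_cases i <;> fin_cases j <;>
    simp [Matrix.mul_apply, Fin.sum_univ_two, coe_conjGamma0, hc, Int.mul_ediv_cancel_left _ hN,
      Matrix.SpecialLinearGroup.map_apply_coe, RingHom.mapMatrix_apply, Matrix.map_apply] <;>
    ring


lemma G0_le_conj : G0 N ≤ ConjAct.toConjAct (heckeDiagMatrix N)⁻¹ • 𝒮ℒ := by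
  intro h hh
  obtain ⟨γ, hγ, rfl⟩ := hh
  rw [Subgroup.mem_pointwise_smul_iff_inv_smul_mem, ← map_inv, inv_inv, ConjAct.smul_def,
    ConjAct.ofConjAct_toConjAct]
  refine ⟨conjGamma0 N γ hγ, ?_⟩
  rw [eq_mul_inv_iff_mul_eq]
  exact (heckeDiag_mul_mapGL N γ hγ).symm

/-- Raise the level: `F ∣[k] α_N` as a modular form on `Γ₀(N)`. -/
def levelRaise {k : ℤ} {F : Type*} [FunLike F ℍ ℂ] [ModularFormClass F 𝒮ℒ k] (f : F) :
    ModularForm (G0 N) k where
  toFun := (f : ℍ → ℂ) ∣[k] heckeDiagMatrix N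
  slash_action_eq' h hh := (ModularForm.translate f (heckeDiagMatrix N)).slash_action_eq' h
    (G0_le_conj N hh)
  holo' := (ModularForm.translate f (heckeDiagMatrix N)).holo'
  bdd_at_cusps' hc := (ModularForm.translate f (heckeDiagMatrix N)).bdd_at_cusps'
    (hc.mono (G0_le_conj N))

lemma levelRaise_coe {k : ℤ} {F : Type*} [FunLike F ℍ ℂ] [ModularFormClass F 𝒮ℒ k] (f : F) :
    (levelRaise N f : ℍ → ℂ) = (f : ℍ → ℂ) ∣[k] heckeDiagMatrix N := rfl

lemma levelRaise_apply {k : ℤ} {F : Type*} [FunLike F ℍ ℂ] [ModularFormClass F 𝒮ℒ k] (f : F)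
    (z : ℍ) :
    levelRaise N f z = (N : ℂ) ^ (k - 1) * f (heckeDiagMatrix N • z) := by
  rw [levelRaise_coe, slash_heckeDiagMatrix_apply k (NeZero.ne N)]


end LevelRaise

end Fermat.Agent.S23.H22
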