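import Fermat.Agent.S23.H22_LevelRaiseExp
import Fermat.Agent.S23.H96_Div

/-!
# Galois stability of `S_k(Γ₀(N))` (helper22, part of the S23 development)
-/

set_option autoImplicit false
set_option linter.unusedSectionVars false

open UpperHalfPlane ModularForm Polynomial SlashInvariantForm EisensteinSeries
open scoped MatrixGroups ModularForm Manifold

noncomputable section

namespace Fermat.Agent.S23.H22

variable (N : ℕ) [NeZero N]

/-- The function `∑_{j<μ} H j * e ^ j * δ ^ (μ - 1 - j)`. -/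
def combo {w : ℤ} (H : ℕ → ModularForm 𝒮ℒ w) : ℍ → ℂ :=
  ∑ j ∈ Finset.range (Fintype.card (Q N)),
    (H j : ℍ → ℂ) * (eN N : ℍ → ℂ) ^ j * (deltaN N : ℍ → ℂ) ^ (Fintype.card (Q N) - 1 - j)

lemma combo_apply {w : ℤ} (H : ℕ → ModularForm 𝒮ℒ w) (z : ℍ) :
    combo N H z = ∑ j ∈ Finset.range (Fintype.card (Q N)),
      H j z * eN N z ^ j * deltaN N z ^ (Fintype.card (Q N) - 1 - j) := by
  simp [combo, Finset.sum_apply]

lemma combo_nice {w : ℤ} (H : ℕ → ModularForm 𝒮ℒ w) : Nice 1 (combo N H) :=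
  Nice.sum _ fun j _ => ((nice_levelOne (H j)).mul ((nice_G0 N (eN N)).pow j)).mul
    ((nice_G0 N (deltaN N)).pow _)

lemma qExpansion_combo {w : ℤ} (H : ℕ → ModularForm 𝒮ℒ w) :
    qExpansion 1 (combo N H) = ∑ j ∈ Finset.range (Fintype.card (Q N)),
      qExpansion 1 (H j) * qExpansion 1 (eN N) ^ j *
        qExpansion 1 (deltaN N) ^ (Fintype.card (Q N) - 1 - j) := by
  unfold combo
  rw [Nice.qExpansion_sum one_pos _ fun j _ =>
    ((nice_levelOne (H j)).mul ((nice_G0 N (eN N)).pow j)).mul ((nice_G0 N (deltaN N)).pow _)]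
  refine Finset.sum_congr rfl fun j _ => ?_
  rw [Nice.qExpansion_mul one_pos ((nice_levelOne (H j)).mul ((nice_G0 N (eN N)).pow j))
      ((nice_G0 N (deltaN N)).pow _),
    Nice.qExpansion_mul one_pos (nice_levelOne (H j)) ((nice_G0 N (eN N)).pow j),
    Nice.qExpansion_pow one_pos (nice_G0 N (eN N)), Nice.qExpansion_pow one_pos (nice_G0 N (deltaN N))]

/-- Conjugating the coefficients of a combination. -/
lemma qExpansion_combo_conj (σ : ℂ →+* ℂ) {w : ℤ} (H H' : ℕ → ModularForm 𝒮ℒ w)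
    (hH : ∀ j, qExpansion 1 (H' j) = (qExpansion 1 (H j)).map σ) :
    qExpansion 1 (combo N H') = (qExpansion 1 (combo N H)).map σ := by
  rw [qExpansion_combo, qExpansion_combo, map_sum]
  refine Finset.sum_congr rfl fun j _ => ?_
  rw [map_mul, map_mul, map_pow, map_pow, hH,
    H96.map_eq_self_of_mem_intSeries (qExpansion_eN_mem_intSeries N),
    H96.map_eq_self_of_mem_intSeries (qExpansion_deltaN_mem_intSeries N)]

/-- Transformation of a combination under `Γ₀(N)`. -/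
lemma combo_smul {w : ℤ} (H : ℕ → ModularForm 𝒮ℒ w) (γ : SL(2, ℤ))
    (hγ : γ ∈ CongruenceSubgroup.Gamma0 N) (z : ℍ) :
    combo N H (γ • z) =
      denom γ z ^ (w + 12 * ((Fintype.card (Q N) : ℤ) - 1)) * combo N H z := by
  have hcard : 0 < Fintype.card (Q N) := Fintype.card_pos_iff.mpr ⟨q1⟩
  have hJ := denom_ne_zero γ z
  have h1 : ∀ j, H j (γ • z) = H j z * denom γ z ^ w := fun j =>
    apply_smul_of_slash (SlashInvariantFormClass.slash_action_eq (H j) _ ⟨γ, rfl⟩) z
  have hmem : (Matrix.SpecialLinearGroup.mapGL ℝ γ) ∈ G0 N := ⟨γ, hγ, rfl⟩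
  have h2 : eN N (γ • z) = eN N z * denom γ z ^ (12 : ℤ) :=
    apply_smul_of_slash (SlashInvariantFormClass.slash_action_eq (eN N) _ hmem) z
  have h3 : deltaN N (γ • z) = deltaN N z * denom γ z ^ (12 : ℤ) :=
    apply_smul_of_slash (SlashInvariantFormClass.slash_action_eq (deltaN N) _ hmem) z
  rw [combo_apply, combo_apply, Finset.mul_sum]
  refine Finset.sum_congr rfl fun j hj => ?_
  have hj' : j ≤ Fintype.card (Q N) - 1 := by have := Finset.mem_range.mp hj; omega
  rw [h1, h2, h3, mul_pow, mul_pow, ← zpow_natCast (denom γ z ^ (12 : ℤ)) j,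
    ← zpow_natCast (denom γ z ^ (12 : ℤ)) (Fintype.card (Q N) - 1 - j), ← zpow_mul, ← zpow_mul]
  have hexp : denom γ z ^ (w + 12 * ((Fintype.card (Q N) : ℤ) - 1)) =
      denom γ z ^ w * denom γ z ^ ((12 : ℤ) * (j : ℕ)) *
        denom γ z ^ ((12 : ℤ) * ((Fintype.card (Q N) - 1 - j : ℕ) : ℤ)) := by
    rw [← zpow_add₀ hJ, ← zpow_add₀ hJ]
    congr 1
    have : ((Fintype.card (Q N) - 1 - j : ℕ) : ℤ) = (Fintype.card (Q N) : ℤ) - 1 - j := by
      omega
    rw [this]; ring
  rw [hexp]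
  ring

end Fermat.Agent.S23.H22
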