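import Fermat.Agent.S23.H22_GS

/-!
# Galois stability of `S_k(Γ₀(N))`, main argument (helper22, part of the S23 development)
-/

set_option autoImplicit false
set_option linter.unusedSectionVars false

open UpperHalfPlane ModularForm Polynomial SlashInvariantForm EisensteinSeries
open scoped MatrixGroups ModularForm Manifold

noncomputable section

namespace Fermat.Agent.S23.H22

/-- The relation function `A ^ (μ+1) + ∑_{m ≤ μ} c m * B ^ (m+1) * A ^ (μ - m)`. -/
def relFun (μ : ℕ) (c : ℕ → ℍ → ℂ) (A B : ℍ → ℂ) : ℍ → ℂ :=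
  A ^ (μ + 1) + ∑ m ∈ Finset.range (μ + 1), c m * B ^ (m + 1) * A ^ (μ - m)

lemma relFun_apply (μ : ℕ) (c : ℕ → ℍ → ℂ) (A B : ℍ → ℂ) (z : ℍ) :
    relFun μ c A B z =
      A z ^ (μ + 1) + ∑ m ∈ Finset.range (μ + 1), c m z * B z ^ (m + 1) * A z ^ (μ - m) := by
  simp [relFun, Finset.sum_apply]

lemma relFun_nice (μ : ℕ) {c : ℕ → ℍ → ℂ} {A B : ℍ → ℂ} (hc : ∀ m, Nice 1 (c m))
    (hA : Nice 1 A) (hB : Nice 1 B) : Nice 1 (relFun μ c A B) :=
  (hA.pow _).add (Nice.sum _ fun m _ => ((hc m).mul (hB.pow _)).mul (hA.pow _))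

lemma qExpansion_relFun (μ : ℕ) {c : ℕ → ℍ → ℂ} {A B : ℍ → ℂ} (hc : ∀ m, Nice 1 (c m))
    (hA : Nice 1 A) (hB : Nice 1 B) :
    qExpansion 1 (relFun μ c A B) = qExpansion 1 A ^ (μ + 1) +
      ∑ m ∈ Finset.range (μ + 1),
        qExpansion 1 (c m) * qExpansion 1 B ^ (m + 1) * qExpansion 1 A ^ (μ - m) := by
  unfold relFun
  rw [Nice.qExpansion_add one_pos (hA.pow _)
      (Nice.sum _ fun m _ => ((hc m).mul (hB.pow _)).mul (hA.pow _)),
    Nice.qExpansion_pow one_pos hA,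
    Nice.qExpansion_sum one_pos _ fun m _ => ((hc m).mul (hB.pow _)).mul (hA.pow _)]
  congr 1
  refine Finset.sum_congr rfl fun m _ => ?_
  rw [Nice.qExpansion_mul one_pos ((hc m).mul (hB.pow _)) (hA.pow _),
    Nice.qExpansion_mul one_pos (hc m) (hB.pow _), Nice.qExpansion_pow one_pos hB,
    Nice.qExpansion_pow one_pos hA]

/-- If `x` satisfies the monic relation then `relFun` at `(x * D, D)` vanishes. -/
lemma relFun_mul_eq_zero (μ : ℕ) (c : ℕ → ℍ → ℂ) (x D : ℍ → ℂ)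
    (h : ∀ z, x z ^ (μ + 1) + ∑ m ∈ Finset.range (μ + 1), c m z * x z ^ (μ - m) = 0) :
    relFun μ c (x * D) D = 0 := by
  ext z
  rw [relFun_apply, Pi.zero_apply]
  have : (x * D) z ^ (μ + 1) +
      ∑ m ∈ Finset.range (μ + 1), c m z * D z ^ (m + 1) * (x * D) z ^ (μ - m) =
      D z ^ (μ + 1) * (x z ^ (μ + 1) + ∑ m ∈ Finset.range (μ + 1), c m z * x z ^ (μ - m)) := by
    rw [mul_add, Finset.mul_sum, Pi.mul_apply, mul_pow, mul_comm (x z ^ (μ + 1))]
    congr 1
    refine Finset.sum_congr rfl fun m hm => ?_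
    have hm' : m ≤ μ := Nat.lt_succ_iff.mp (Finset.mem_range.mp hm)
    have : D z ^ (μ + 1) = D z ^ (m + 1) * D z ^ (μ - m) := by
      rw [← pow_add]; congr 1; omega
    rw [this, mul_pow]
    ring
  rw [this, h z, mul_zero]

/-- Conversely, from the vanishing of `relFun` at `(x * D, D)` one recovers the monic relation. -/
lemma monic_rel_of_relFun_eq_zero (μ : ℕ) (c : ℕ → ℍ → ℂ) (x D : ℍ → ℂ)
    (hc : ∀ m, MDiff (c m)) (hx : MDiff x) (hD : MDiff D) (hD0 : D ≠ 0)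
    (h : relFun μ c (x * D) D = 0) :
    ∀ z, x z ^ (μ + 1) + ∑ m ∈ Finset.range (μ + 1), c m z * x z ^ (μ - m) = 0 := by
  set F : ℍ → ℂ := x ^ (μ + 1) + ∑ m ∈ Finset.range (μ + 1), c m * x ^ (μ - m) with hF
  have hFd : MDiff F :=
    (hx.pow _).add (MDifferentiable.sum fun m _ => (hc m).mul (hx.pow _))
  have hDp : MDiff (D ^ (μ + 1)) := hD.pow _
  have hDp0 : D ^ (μ + 1) ≠ 0 := by
    intro h0
    apply hD0
    ext z
    have := congrFun h0 z
    simpa using this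
  have hmul : ∀ z, F z * (D ^ (μ + 1)) z = 0 := by
    intro z
    have h1 := congrFun h z
    rw [relFun_apply, Pi.zero_apply] at h1
    rw [← h1, hF]
    simp only [Pi.add_apply, Pi.pow_apply, Finset.sum_apply, Pi.mul_apply]
    rw [add_mul, Finset.sum_mul, mul_pow]
    congr 1
    refine Finset.sum_congr rfl fun m hm => ?_
    have hm' : m ≤ μ := Nat.lt_succ_iff.mp (Finset.mem_range.mp hm)
    have : D z ^ (μ + 1) = D z ^ (m + 1) * D z ^ (μ - m) := by
      rw [← pow_add]; congr 1; omega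
    rw [this, mul_pow]
    ring
  have := H96.mdiff_eq_zero_of_mul_eq_zero F (D ^ (μ + 1)) hFd hDp hDp0 hmul
  intro z
  have h2 := congrFun this z
  simpa [hF, Finset.sum_apply] using h2

end Fermat.Agent.S23.H22
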