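import Mathlib.RingTheory.PowerSeries.Inverse
import Mathlib.RingTheory.IntegralClosure.IntegrallyClosed
import Mathlib.RingTheory.Algebraic.Integral
import Mathlib.RingTheory.Localization.Integral
import Mathlib.RingTheory.Polynomial.RationalRoot
import Mathlib.RingTheory.Int.Basic
import Mathlib.FieldTheory.AlgebraicClosure
import Mathlib.LinearAlgebra.Basis.VectorSpace
import Mathlib.Analysis.Complex.Basic

/-!
# Power series with algebraic-integer coefficients and bounded denominators (helper52, S23 P5)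

* `IsIntSeries P` : all coefficients of `P : PowerSeries ℂ` are algebraic integers.
* `exists_mul_eq_X_pow` (P5a) : an integral series whose leading coefficient is a unit of the ring of
  algebraic integers divides a power of `X` inside integral series.
* `bounded_denominators_abstract` (P5b) : the abstract bounded-denominators argument.
* `exists_mul_eq_X_pow_of_pow_eq_one` (P5c) : P5a for a root-of-unity leading coefficient.
-/

set_option autoImplicit false

namespace Fermat.Agent.S23.H52

open PowerSeries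

noncomputable section

/-- All coefficients are algebraic integers. -/
def IsIntSeries (P : PowerSeries ℂ) : Prop := ∀ n, IsIntegral ℤ (PowerSeries.coeff n P)

theorem isIntSeries_zero : IsIntSeries 0 := fun n => by
  rw [map_zero]; exact isIntegral_zero

theorem isIntSeries_one : IsIntSeries 1 := fun n => by
  rw [PowerSeries.coeff_one]
  split_ifs
  · exact isIntegral_one
  · exact isIntegral_zero

theorem isIntSeries_X : IsIntSeries PowerSeries.X := fun n => by
  rw [PowerSeries.coeff_X]
  split_ifs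
  · exact isIntegral_one
  · exact isIntegral_zero

theorem isIntSeries_C {a : ℂ} (ha : IsIntegral ℤ a) : IsIntSeries (PowerSeries.C a) := fun n => by
  rw [PowerSeries.coeff_C]
  split_ifs
  · exact ha
  · exact isIntegral_zero

theorem IsIntSeries.add {P Q : PowerSeries ℂ} (hP : IsIntSeries P) (hQ : IsIntSeries Q) :
    IsIntSeries (P + Q) := fun n => by
  rw [map_add]; exact (hP n).add (hQ n)

theorem IsIntSeries.neg {P : PowerSeries ℂ} (hP : IsIntSeries P) : IsIntSeries (-P) := fun n => by
  rw [map_neg]; exact (hP n).neg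

theorem IsIntSeries.sub {P Q : PowerSeries ℂ} (hP : IsIntSeries P) (hQ : IsIntSeries Q) :
    IsIntSeries (P - Q) := fun n => by
  rw [map_sub]; exact (hP n).sub (hQ n)

theorem IsIntSeries.mul {P Q : PowerSeries ℂ} (hP : IsIntSeries P) (hQ : IsIntSeries Q) :
    IsIntSeries (P * Q) := fun n => by
  rw [PowerSeries.coeff_mul]
  exact IsIntegral.sum _ fun p _ => (hP p.1).mul (hQ p.2)

theorem IsIntSeries.pow {P : PowerSeries ℂ} (hP : IsIntSeries P) (k : ℕ) :
    IsIntSeries (P ^ k) := by
  induction k with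
  | zero => rw [pow_zero]; exact isIntSeries_one
  | succ k ih => rw [pow_succ]; exact ih.mul hP

theorem isIntSeries_X_pow (k : ℕ) : IsIntSeries (PowerSeries.X ^ k) := isIntSeries_X.pow k

theorem IsIntSeries.smul {P : PowerSeries ℂ} (hP : IsIntSeries P) {a : ℂ} (ha : IsIntegral ℤ a) :
    IsIntSeries (a • P) := fun n => by
  rw [PowerSeries.coeff_smul]; exact ha.mul (hP n)

theorem IsIntSeries.sum {ι : Type*} (s : Finset ι) {P : ι → PowerSeries ℂ}
    (hP : ∀ i ∈ s, IsIntSeries (P i)) : IsIntSeries (∑ i ∈ s, P i) := fun n => by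
  rw [map_sum]
  exact IsIntegral.sum _ fun i hi => hP i hi n

theorem IsIntSeries.prod {ι : Type*} (s : Finset ι) {P : ι → PowerSeries ℂ}
    (hP : ∀ i ∈ s, IsIntSeries (P i)) : IsIntSeries (∏ i ∈ s, P i) := by
  classical
  induction s using Finset.induction_on with
  | empty => rw [Finset.prod_empty]; exact isIntSeries_one
  | insert i t hi ih =>
    rw [Finset.prod_insert hi]
    exact (hP i (Finset.mem_insert_self i t)).mul
      (ih fun j hj => hP j (Finset.mem_insert_of_mem hj))

theorem isIntSeries_intCast (z : ℤ) : IsIntSeries (z : PowerSeries ℂ) := by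
  have : (z : PowerSeries ℂ) = PowerSeries.C (z : ℂ) := by simp
  rw [this]
  exact isIntSeries_C isIntegral_algebraMap

theorem isIntSeries_natCast (z : ℕ) : IsIntSeries (z : PowerSeries ℂ) := by
  have : (z : PowerSeries ℂ) = PowerSeries.C (z : ℂ) := by simp
  rw [this]
  exact isIntSeries_C (by exact_mod_cast (isIntegral_algebraMap (R := ℤ) (A := ℂ) (x := (z : ℤ))))

/-- The ring of algebraic integers in `ℂ`. -/
abbrev AlgInt : Subalgebra ℤ ℂ := integralClosure ℤ ℂ

/-- An integral series is the image of a series over the ring of algebraic integers. -/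
theorem isIntSeries_iff_exists_map (P : PowerSeries ℂ) :
    IsIntSeries P ↔ ∃ Q : PowerSeries AlgInt, PowerSeries.map (algebraMap AlgInt ℂ) Q = P := by
  constructor
  · intro hP
    refine ⟨PowerSeries.mk fun n => ⟨PowerSeries.coeff n P, hP n⟩, ?_⟩
    ext n
    rw [PowerSeries.coeff_map, PowerSeries.coeff_mk]
    rfl
  · rintro ⟨Q, rfl⟩ n
    rw [PowerSeries.coeff_map]
    exact (PowerSeries.coeff n Q).2

/-- **P5a.** An integral series whose lowest coefficient is a unit among algebraic integers has an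
integral "inverse up to a power of `X`". -/
theorem exists_mul_eq_X_pow (P : PowerSeries ℂ) (hP : IsIntSeries P) (m : ℕ)
    (hlow : ∀ n < m, PowerSeries.coeff n P = 0)
    (hu : IsIntegral ℤ (PowerSeries.coeff m P)⁻¹) (h0 : PowerSeries.coeff m P ≠ 0) :
    ∃ V, IsIntSeries V ∧ P * V = PowerSeries.X ^ m := by
  -- the shifted series over the algebraic integers
  set Q₁ : PowerSeries AlgInt := PowerSeries.mk fun n => ⟨PowerSeries.coeff (n + m) P, hP (n + m)⟩
    with hQ₁
  have hPQ : P = PowerSeries.X ^ m * PowerSeries.map (algebraMap AlgInt ℂ) Q₁ := by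
    ext n
    rw [PowerSeries.coeff_X_pow_mul']
    split_ifs with h
    · rw [PowerSeries.coeff_map, hQ₁, PowerSeries.coeff_mk]
      show _ = PowerSeries.coeff (n - m + m) P
      rw [Nat.sub_add_cancel h]
    · exact hlow n (not_le.mp h)
  have hunit : IsUnit (PowerSeries.constantCoeff Q₁) := by
    have hc : PowerSeries.constantCoeff Q₁ = ⟨PowerSeries.coeff m P, hP m⟩ := by
      rw [← PowerSeries.coeff_zero_eq_constantCoeff_apply, hQ₁, PowerSeries.coeff_mk]
      apply Subtype.ext
      show PowerSeries.coeff (0 + m) P = PowerSeries.coeff m P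
      rw [zero_add]
    rw [hc]
    refine IsUnit.of_mul_eq_one (⟨(PowerSeries.coeff m P)⁻¹, hu⟩ : AlgInt) ?_
    apply Subtype.ext
    show PowerSeries.coeff m P * (PowerSeries.coeff m P)⁻¹ = 1
    exact mul_inv_cancel₀ h0
  obtain ⟨W, hW⟩ := (PowerSeries.isUnit_iff_constantCoeff.mpr hunit).exists_right_inv
  refine ⟨PowerSeries.map (algebraMap AlgInt ℂ) W, (isIntSeries_iff_exists_map _).mpr ⟨W, rfl⟩, ?_⟩
  rw [hPQ, mul_assoc, ← map_mul, hW, map_one, mul_one]

/-- **P5c.** P5a when the lowest coefficient is a root of unity. -/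
theorem exists_mul_eq_X_pow_of_pow_eq_one (P : PowerSeries ℂ) (hP : IsIntSeries P) (s : ℕ)
    (hlow : ∀ n < s, PowerSeries.coeff n P = 0) (k : ℕ) (hk : 0 < k)
    (hζ : (PowerSeries.coeff s P) ^ k = 1) :
    ∃ V, IsIntSeries V ∧ P * V = PowerSeries.X ^ s := by
  have h0 : PowerSeries.coeff s P ≠ 0 := by
    intro h
    rw [h, zero_pow hk.ne'] at hζ
    exact zero_ne_one hζ
  have hinv : (PowerSeries.coeff s P)⁻¹ = (PowerSeries.coeff s P) ^ (k - 1) := by
    apply inv_eq_of_mul_eq_one_right
    rw [← pow_succ', Nat.sub_add_cancel hk, hζ]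
  refine exists_mul_eq_X_pow P hP s hlow ?_ h0
  rw [hinv]
  exact (hP s).pow _

/-- A rational number which is an algebraic integer (in `ℂ`) is an integer. -/
theorem exists_int_of_isIntegral_rat {r : ℚ} (h : IsIntegral ℤ (r : ℂ)) : ∃ z : ℤ, (r : ℂ) = z := by
  have h1 : IsIntegral ℤ r := by
    have : (r : ℂ) = algebraMap ℚ ℂ r := rfl
    rw [this] at h
    exact (isIntegral_algebraMap_iff (algebraMap ℚ ℂ).injective).mp h
  obtain ⟨z, hz⟩ := IsIntegrallyClosed.isIntegral_iff.mp h1
  refine ⟨z, ?_⟩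
  rw [← hz]
  simp

/-- Finitely many complex numbers algebraic over `ℚ` have a common nonzero natural multiple which
makes all of them algebraic integers. -/
theorem exists_nat_mul_isIntegral {ι : Type*} [Fintype ι] (d : ι → ℂ)
    (hd : ∀ i, IsAlgebraic ℚ (d i)) :
    ∃ M : ℕ, M ≠ 0 ∧ ∀ i, IsIntegral ℤ ((M : ℂ) * d i) := by
  classical
  have hdZ : ∀ i, IsAlgebraic ℤ (d i) := fun i =>
    (IsFractionRing.isAlgebraic_iff ℤ ℚ ℂ).mpr (hd i)
  choose y hy0 hy using fun i => (hdZ i).exists_integral_multiple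
  refine ⟨(∏ i, y i).natAbs, ?_, fun i => ?_⟩
  · rw [Int.natAbs_ne_zero]
    exact Finset.prod_ne_zero_iff.mpr fun i _ => hy0 i
  · have h1 : IsIntegral ℤ (((∏ j, y j : ℤ) : ℂ) * d i) := by
      rw [← Finset.prod_erase_mul _ _ (Finset.mem_univ i)]
      push_cast
      rw [mul_assoc]
      have h2 : IsIntegral ℤ ((y i : ℂ) * d i) := by
        have := hy i
        rwa [Algebra.smul_def, eq_intCast] at this
      have h3 : IsIntegral ℤ (∏ j ∈ Finset.univ.erase i, (y j : ℂ)) :=
        IsIntegral.prod _ fun j _ => by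
          exact_mod_cast (isIntegral_algebraMap (R := ℤ) (A := ℂ) (x := y j))
      exact h3.mul h2
    rcases Int.natAbs_eq (∏ j, y j) with h | h
    · have : (((∏ j, y j).natAbs : ℕ) : ℂ) = ((∏ j, y j : ℤ) : ℂ) := by
        conv_rhs => rw [h]
        simp
      rw [this]; exact h1
    · have : (((∏ j, y j).natAbs : ℕ) : ℂ) = -((∏ j, y j : ℤ) : ℂ) := by
        conv_rhs => rw [h]
        simp
      rw [this, neg_mul]; exact h1.neg

/-- **P5b.** The abstract bounded-denominators argument. -/
theorem bounded_denominators_abstract {ι : Type} [Fintype ι] (f D G V : PowerSeries ℂ)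
    (C : ℂ) (hC : C ≠ 0) (m : ℕ) (hfD : f * D = G) (hDV : D * V = C • PowerSeries.X ^ m)
    (hV : IsIntSeries V) (b : ι → PowerSeries ℂ) (hb : ∀ i, IsIntSeries (b i)) (c : ι → ℂ)
    (hG : G = ∑ i, c i • b i) (hf : ∀ n, ∃ r : ℚ, PowerSeries.coeff n f = (r : ℂ)) :
    ∃ M : ℕ, M ≠ 0 ∧ ∀ n, ∃ z : ℤ, (M : ℂ) * PowerSeries.coeff n f = (z : ℂ) := by
  classical
  -- the integral series `T i = b i * V`
  set T : ι → PowerSeries ℂ := fun i => b i * V with hT
  have hTint : ∀ i, IsIntSeries (T i) := fun i => (hb i).mul hV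
  -- key identity: `C • (X^m * f) = ∑ c i • T i`
  have hkey : C • (PowerSeries.X ^ m * f) = ∑ i, c i • T i := by
    have h1 : f * (D * V) = G * V := by rw [← mul_assoc, hfD]
    rw [hDV, hG, Finset.sum_mul] at h1
    have h1' : C • (PowerSeries.X ^ m * f) = f * (C • PowerSeries.X ^ m) := by
      rw [mul_smul_comm, mul_comm]
    rw [h1', h1]
    refine Finset.sum_congr rfl fun i _ => ?_
    rw [smul_mul_assoc]
  -- coefficientwise
  have hcoeff : ∀ n, PowerSeries.coeff (n + m) (PowerSeries.X ^ m * f) = PowerSeries.coeff n f :=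
    fun n => PowerSeries.coeff_X_pow_mul f m n
  have hkeyn : ∀ n, PowerSeries.coeff n f = ∑ i, (c i / C) * PowerSeries.coeff (n + m) (T i) := by
    intro n
    have h1 := congrArg (PowerSeries.coeff (n + m)) hkey
    rw [PowerSeries.coeff_smul, hcoeff, map_sum, smul_eq_mul] at h1
    have h2 : PowerSeries.coeff n f = C⁻¹ * ∑ i, PowerSeries.coeff (n + m) (c i • T i) := by
      rw [← h1, ← mul_assoc, inv_mul_cancel₀ hC, one_mul]
    rw [h2, Finset.mul_sum]
    refine Finset.sum_congr rfl fun i _ => ?_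
    rw [PowerSeries.coeff_smul, smul_eq_mul]
    field_simp
  -- the field of algebraic numbers and a retraction
  let K : IntermediateField ℚ ℂ := algebraicClosure ℚ ℂ
  obtain ⟨lam, hlam⟩ := LinearMap.exists_leftInverse_of_injective
    (Algebra.linearMap K ℂ) (LinearMap.ker_eq_bot.mpr (algebraMap K ℂ).injective)
  have hlamK : ∀ x : K, lam (x : ℂ) = x := fun x => by
    have := LinearMap.congr_fun hlam x
    simpa using this
  have hintK : ∀ x : ℂ, IsIntegral ℤ x → x ∈ K := fun x hx =>
    mem_algebraicClosure_iff'.mpr hx.tower_top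
  -- the new coefficients
  set d : ι → ℂ := fun i => ((lam (c i / C) : K) : ℂ) with hd
  have hdalg : ∀ i, IsAlgebraic ℚ (d i) := fun i =>
    mem_algebraicClosure_iff.mp (lam (c i / C)).2
  have hkey' : ∀ n, PowerSeries.coeff n f = ∑ i, d i * PowerSeries.coeff (n + m) (T i) := by
    intro n
    obtain ⟨r, hr⟩ := hf n
    have hrK : (r : ℂ) ∈ K := by
      apply mem_algebraicClosure_iff'.mpr
      exact isIntegral_algebraMap (R := ℚ) (A := ℂ) (x := r)
    have h1 : lam (PowerSeries.coeff n f) = ⟨(r : ℂ), hrK⟩ := by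
      rw [hr]
      exact hlamK ⟨(r : ℂ), hrK⟩
    have h2 : lam (PowerSeries.coeff n f)
        = ∑ i, (⟨PowerSeries.coeff (n + m) (T i), hintK _ (hTint i (n + m))⟩ : K) • lam (c i / C) := by
      rw [hkeyn n, map_sum]
      refine Finset.sum_congr rfl fun i _ => ?_
      rw [← map_smul]
      congr 1
      rw [mul_comm]
      rfl
    have h3 := congrArg (fun x : K => (x : ℂ)) (h1.symm.trans h2)
    simp only at h3
    rw [hr, h3]
    push_cast
    refine Finset.sum_congr rfl fun i _ => ?_
    rw [hd, smul_eq_mul]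
    push_cast
    ring
  obtain ⟨M, hM0, hM⟩ := exists_nat_mul_isIntegral d hdalg
  refine ⟨M, hM0, fun n => ?_⟩
  obtain ⟨r, hr⟩ := hf n
  have hint : IsIntegral ℤ ((M : ℂ) * PowerSeries.coeff n f) := by
    rw [hkey' n, Finset.mul_sum]
    refine IsIntegral.sum _ fun i _ => ?_
    rw [← mul_assoc]
    exact (hM i).mul (hTint i (n + m))
  have hrat : (M : ℂ) * PowerSeries.coeff n f = (((M : ℚ) * r : ℚ) : ℂ) := by
    rw [hr]; push_cast; rfl
  rw [hrat] at hint ⊢
  exact exists_int_of_isIntegral_rat hint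

/-- P5a + P5b combined: if `D = C • U` with `U` integral with unit lowest coefficient. -/
theorem bounded_denominators_of_unit_leading {ι : Type} [Fintype ι] (f D G U : PowerSeries ℂ)
    (C : ℂ) (hC : C ≠ 0) (hD : D = C • U) (hU : IsIntSeries U) (m : ℕ)
    (hlow : ∀ n < m, PowerSeries.coeff n U = 0)
    (hu : IsIntegral ℤ (PowerSeries.coeff m U)⁻¹) (h0 : PowerSeries.coeff m U ≠ 0)
    (hfD : f * D = G) (b : ι → PowerSeries ℂ) (hb : ∀ i, IsIntSeries (b i)) (c : ι → ℂ)
    (hG : G = ∑ i, c i • b i) (hf : ∀ n, ∃ r : ℚ, PowerSeries.coeff n f = (r : ℂ)) :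
    ∃ M : ℕ, M ≠ 0 ∧ ∀ n, ∃ z : ℤ, (M : ℂ) * PowerSeries.coeff n f = (z : ℂ) := by
  obtain ⟨V, hV, hUV⟩ := exists_mul_eq_X_pow U hU m hlow hu h0
  refine bounded_denominators_abstract f D G V C hC m hfD ?_ hV b hb c hG hf
  rw [hD, smul_mul_assoc, hUV]

end

end Fermat.Agent.S23.H52
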