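import Mathlib

/-!
# Abstract bounded-denominators lemma (for S23)

If `φ ∈ ℚ⟦q⟧`, `U₁ ∈ 1 + q A⟦q⟧` (`A` = algebraic integers), and `φ * (q^r * U₁)` lies in the
`ℂ`-span of finitely many series with integer coefficients, then `φ` has bounded denominators.
-/

set_option autoImplicit false

namespace Fermat.Agent.S23.H77

open PowerSeries

/-- All coefficients are algebraic integers. -/
def IntCoeffs (φ : PowerSeries ℂ) : Prop := ∀ n : ℕ, IsIntegral ℤ (PowerSeries.coeff n φ)

theorem IntCoeffs.mul {φ ψ : PowerSeries ℂ} (hφ : IntCoeffs φ) (hψ : IntCoeffs ψ) :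
    IntCoeffs (φ * ψ) := by
  intro n
  rw [PowerSeries.coeff_mul]
  exact IsIntegral.sum _ fun p _ => (hφ p.1).mul (hψ p.2)

theorem IntCoeffs.exists_inverse {U : PowerSeries ℂ} (hU : IntCoeffs U)
    (h0 : PowerSeries.constantCoeff U = 1) : ∃ V : PowerSeries ℂ, U * V = 1 ∧ IntCoeffs V := by
  classical
  let A := integralClosure ℤ ℂ
  let U' : PowerSeries A := PowerSeries.mk fun n => ⟨PowerSeries.coeff n U, hU n⟩
  have hmap : PowerSeries.map (algebraMap A ℂ) U' = U := by
    ext n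
    simp [U']
  have hunit : IsUnit U' := by
    rw [PowerSeries.isUnit_iff_constantCoeff]
    have : PowerSeries.constantCoeff U' = 1 := by
      apply Subtype.ext
      simp only [U', ← PowerSeries.coeff_zero_eq_constantCoeff_apply, PowerSeries.coeff_mk]
      simpa [PowerSeries.coeff_zero_eq_constantCoeff_apply] using h0
    rw [this]
    exact isUnit_one
  obtain ⟨u, hu⟩ := hunit
  refine ⟨PowerSeries.map (algebraMap A ℂ) (↑u⁻¹ : PowerSeries A), ?_, ?_⟩
  · rw [← hmap, ← hu, ← map_mul]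
    simp
  · intro n
    rw [PowerSeries.coeff_map]
    exact (↑u⁻¹ : PowerSeries A).coeff n |>.2

/-- A rational number which is an algebraic integer is an integer. -/
theorem exists_int_of_isIntegral_rat {x : ℂ} (hx : IsIntegral ℤ x) (r : ℚ) (hr : x = (r : ℂ)) :
    ∃ m : ℤ, x = (m : ℂ) := by
  have h1 : IsIntegral ℤ (algebraMap ℚ ℂ r) := by
    have : algebraMap ℚ ℂ r = x := by rw [hr]; rfl
    rw [this]; exact hx
  have h2 : IsIntegral ℤ r := (isIntegral_algebraMap_iff (algebraMap ℚ ℂ).injective).1 h1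
  obtain ⟨m, hm⟩ := IsIntegrallyClosed.isIntegral_iff.1 h2
  refine ⟨m, ?_⟩
  rw [hr, ← hm]
  simp

/-- An element of `ℂ` algebraic over `ℚ` has a nonzero natural multiple which is an algebraic
integer. -/
theorem exists_nat_mul_isIntegral {z : ℂ} (hz : IsAlgebraic ℚ z) :
    ∃ M : ℕ, M ≠ 0 ∧ IsIntegral ℤ ((M : ℂ) * z) := by
  have hz' : IsAlgebraic ℤ z := (IsFractionRing.isAlgebraic_iff ℤ ℚ ℂ).2 hz
  obtain ⟨y, hy0, hy⟩ := hz'.exists_integral_multiple
  refine ⟨y.natAbs, Int.natAbs_ne_zero.2 hy0, ?_⟩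
  have h1 : IsIntegral ℤ ((y : ℂ) * z) := by
    simpa [zsmul_eq_mul] using hy
  rcases Int.natAbs_eq y with h | h
  · have : ((y.natAbs : ℕ) : ℂ) = (y : ℂ) := by
      conv_rhs => rw [h]
      simp
    rw [this]; exact h1
  · have : ((y.natAbs : ℕ) : ℂ) = -(y : ℂ) := by
      conv_rhs => rw [h]
      simp
    rw [this, neg_mul]
    exact h1.neg

/-- Finitely many algebraic numbers have a common nonzero natural multiplier making them all
algebraic integers. -/
theorem exists_nat_forall_mul_isIntegral {L : ℕ} (z : Fin L → ℂ)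
    (hz : ∀ l, IsAlgebraic ℚ (z l)) :
    ∃ M : ℕ, M ≠ 0 ∧ ∀ l, IsIntegral ℤ ((M : ℂ) * z l) := by
  classical
  choose m hm0 hm using fun l => exists_nat_mul_isIntegral (hz l)
  refine ⟨∏ l, m l, Finset.prod_ne_zero_iff.2 fun l _ => hm0 l, fun l => ?_⟩
  have hsplit : (∏ l', m l') = (∏ l' ∈ Finset.univ.erase l, m l') * m l := by
    rw [Finset.prod_erase_mul _ _ (Finset.mem_univ l)]
  rw [hsplit]
  push_cast
  rw [mul_assoc]
  exact (IsIntegral.prod _ fun l' _ => isIntegral_algebraMap (R := ℤ) (x := (m l' : ℤ))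
    |>.map (Algebra.ofId ℤ ℂ) |> fun h => by simpa using h).mul (hm l)

/-- Descent of a linear combination: if `F = ∑ z_l S_l` with `S_l` integral series and the
coefficients of `F` algebraic over `ℚ`, then the `z_l` may be taken algebraic. -/
theorem exists_algebraic_coeffs {L : ℕ} (S : Fin L → PowerSeries ℂ)
    (hS : ∀ l n, ∃ m : ℤ, PowerSeries.coeff n (S l) = (m : ℂ))
    (F : PowerSeries ℂ) (hF : ∀ n, IsAlgebraic ℚ (PowerSeries.coeff n F))
    (z : Fin L → ℂ) (hz : F = ∑ l, z l • S l) :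
    ∃ z' : Fin L → ℂ, (∀ l, IsAlgebraic ℚ (z' l)) ∧ F = ∑ l, z' l • S l := by
  classical
  let K := algebraicClosure ℚ ℂ
  -- a `K`-linear retraction `ℂ → K`
  obtain ⟨ρ, hρ⟩ := (Algebra.linearMap K ℂ).exists_leftInverse_of_injective
    (LinearMap.ker_eq_bot.2 (algebraMap K ℂ).injective)
  have hρ' : ∀ a : K, ρ (algebraMap K ℂ a) = a := fun a => by
    have := congrArg (fun f => f a) hρ
    simpa using this
  refine ⟨fun l => ((ρ (z l) : K) : ℂ), fun l => ?_, ?_⟩
  · exact (mem_algebraicClosure_iff).1 (ρ (z l)).2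
  · ext n
    choose m hm using hS
    have hFn : PowerSeries.coeff n F = ∑ l, z l * (m l n : ℂ) := by
      rw [hz, map_sum]
      refine Finset.sum_congr rfl fun l _ => ?_
      rw [PowerSeries.coeff_smul, hm, smul_eq_mul]
    have hFnK : PowerSeries.coeff n F ∈ K := (mem_algebraicClosure_iff).2 (hF n)
    have h1 : ρ (PowerSeries.coeff n F) = ⟨PowerSeries.coeff n F, hFnK⟩ :=
      hρ' ⟨PowerSeries.coeff n F, hFnK⟩
    have h2 : ρ (PowerSeries.coeff n F) = ∑ l, (m l n : K) * ρ (z l) := by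
      rw [hFn, map_sum]
      refine Finset.sum_congr rfl fun l _ => ?_
      have : z l * (m l n : ℂ) = (m l n : K) • z l := by
        rw [Algebra.smul_def]
        simp [mul_comm]
      rw [this, map_smul, smul_eq_mul]
    have h3 : PowerSeries.coeff n F = ((∑ l, (m l n : K) * ρ (z l) : K) : ℂ) := by
      rw [← h2, h1]
    rw [h3, map_sum]
    push_cast
    refine Finset.sum_congr rfl fun l _ => ?_
    rw [PowerSeries.coeff_smul, hm]
    simp [mul_comm]

/-- **Abstract bounded denominators.** -/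
theorem bounded_denominators_abstract
    (φ : PowerSeries ℂ) (hφ : ∀ n, ∃ r : ℚ, PowerSeries.coeff n φ = (r : ℂ))
    (U₁ : PowerSeries ℂ) (hU₁0 : PowerSeries.constantCoeff U₁ = 1) (hU₁ : IntCoeffs U₁)
    (r : ℕ) {L : ℕ} (S : Fin L → PowerSeries ℂ)
    (hS : ∀ l n, ∃ m : ℤ, PowerSeries.coeff n (S l) = (m : ℂ))
    (hspan : φ * ((PowerSeries.X : PowerSeries ℂ) ^ r * U₁) ∈ Submodule.span ℂ (Set.range S)) :
    ∃ M : ℕ, M ≠ 0 ∧ ∀ n, ∃ m : ℤ, (M : ℂ) * PowerSeries.coeff n φ = (m : ℂ) := by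
  classical
  set F : PowerSeries ℂ := φ * ((PowerSeries.X : PowerSeries ℂ) ^ r * U₁) with hFdef
  obtain ⟨z, hz⟩ := (Submodule.mem_span_range_iff_exists_fun ℂ).1 hspan
  -- coefficients of `F` are algebraic
  have hφalg : ∀ n, IsAlgebraic ℚ (PowerSeries.coeff n φ) := by
    intro n
    obtain ⟨q, hq⟩ := hφ n
    rw [hq]
    exact isAlgebraic_algebraMap (R := ℚ) (A := ℂ) q
  have hXint : IntCoeffs ((PowerSeries.X : PowerSeries ℂ) ^ r) := by
    intro n
    rw [PowerSeries.coeff_X_pow]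
    split_ifs
    · exact isIntegral_one
    · exact isIntegral_zero
  have hXU : IntCoeffs ((PowerSeries.X : PowerSeries ℂ) ^ r * U₁) := hXint.mul hU₁
  have hFalg : ∀ n, IsAlgebraic ℚ (PowerSeries.coeff n F) := by
    intro n
    rw [hFdef, PowerSeries.coeff_mul]
    rw [← mem_algebraicClosure_iff]
    refine sum_mem fun p _ => ?_
    refine mul_mem ((mem_algebraicClosure_iff).2 (hφalg p.1)) ?_
    have : IsAlgebraic ℤ (PowerSeries.coeff p.2 ((PowerSeries.X : PowerSeries ℂ) ^ r * U₁)) :=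
      (hXU p.2).isAlgebraic
    exact (mem_algebraicClosure_iff).2 ((IsFractionRing.isAlgebraic_iff ℤ ℚ ℂ).1 this)
  obtain ⟨z', hz'alg, hz'⟩ := exists_algebraic_coeffs S hS F hFalg z hz.symm
  obtain ⟨M, hM0, hM⟩ := exists_nat_forall_mul_isIntegral z' hz'alg
  refine ⟨M, hM0, fun n => ?_⟩
  -- `M • F` has integral coefficients
  have hMF : IntCoeffs ((M : ℂ) • F) := by
    intro k
    rw [hz', Finset.smul_sum, map_sum]
    refine IsIntegral.sum _ fun l _ => ?_
    rw [smul_smul, PowerSeries.coeff_smul]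
    obtain ⟨m, hm⟩ := hS l k
    rw [hm]
    exact (hM l).mul (by simpa using (isIntegral_algebraMap (R := ℤ) (A := ℂ) (x := m)))
  obtain ⟨V, hUV, hV⟩ := hU₁.exists_inverse hU₁0
  have hprod : ((M : ℂ) • F) * V = (M : ℂ) • (φ * (PowerSeries.X : PowerSeries ℂ) ^ r) := by
    rw [hFdef, smul_mul_assoc]
    congr 1
    rw [mul_assoc, mul_assoc, hUV, mul_one]
  have hint : IntCoeffs ((M : ℂ) • (φ * (PowerSeries.X : PowerSeries ℂ) ^ r)) := by
    rw [← hprod]; exact hMF.mul hV
  have hcoeff : PowerSeries.coeff (n + r) ((M : ℂ) • (φ * (PowerSeries.X : PowerSeries ℂ) ^ r))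
      = (M : ℂ) * PowerSeries.coeff n φ := by
    rw [PowerSeries.coeff_smul, PowerSeries.coeff_mul_X_pow, smul_eq_mul]
  have h1 := hint (n + r)
  rw [hcoeff] at h1
  obtain ⟨q, hq⟩ := hφ n
  exact exists_int_of_isIntegral_rat h1 ((M : ℚ) * q) (by rw [hq]; push_cast; rfl)

end Fermat.Agent.S23.H77
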