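import Mathlib

/-!
# Unit-leading power series and bounded denominators (helper96, package P4/H3-H4 of S23)

A power series `P` over `ℂ` is *unit-leading* (`UL P`) if, after scaling by a nonzero constant,
all its coefficients are algebraic integers and its lowest nonzero coefficient is a unit in the
ring of algebraic integers.

Main results:
* `UL.mul`, `UL.prod`: products of unit-leading series are unit-leading.
* `UL.of_expand`: passing from `P(X^N)` to `P`.
* `bounded_denominators_of_UL`: if `f` has rational coefficients, `U` is unit-leading and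
  `f * U` is a finite `ℂ`-linear combination of series with algebraic integer coefficients, then
  `f` has bounded denominators.
-/

set_option autoImplicit false

namespace Fermat.Agent.S23.H96

open PowerSeries

/-- Unit-leading power series: some nonzero scalar multiple has algebraic integer coefficients
and lowest coefficient a unit among algebraic integers. -/
def UL (P : PowerSeries ℂ) : Prop :=
  ∃ (c : ℂ) (m : ℕ), c ≠ 0 ∧ (∀ n, IsIntegral ℤ (c * P.coeff n)) ∧ (∀ i < m, P.coeff i = 0) ∧
    P.coeff m ≠ 0 ∧ IsIntegral ℤ (c * P.coeff m)⁻¹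

theorem UL.ne_zero {P : PowerSeries ℂ} (h : UL P) : P ≠ 0 := by
  obtain ⟨c, m, -, -, -, hm, -⟩ := h
  rintro rfl
  simp at hm

theorem UL.mul {P Q : PowerSeries ℂ} (hP : UL P) (hQ : UL Q) : UL (P * Q) := by
  obtain ⟨c, m, hc, hPint, hPlow, hPm, hPu⟩ := hP
  obtain ⟨d, l, hd, hQint, hQlow, hQl, hQu⟩ := hQ
  have hlead : (P * Q).coeff (m + l) = P.coeff m * Q.coeff l := by
    rw [PowerSeries.coeff_mul]
    apply Finset.sum_eq_single_of_mem (m, l) (by simp)
    rintro ⟨i, j⟩ hij hne
    rw [Finset.HasAntidiagonal.mem_antidiagonal] at hij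
    simp only at hij
    rcases lt_trichotomy i m with h | h | h
    · simp [hPlow i h]
    · subst h
      have : j = l := by omega
      subst this
      exact absurd rfl hne
    · have : j < l := by omega
      simp [hQlow j this]
  refine ⟨c * d, m + l, mul_ne_zero hc hd, fun n => ?_, fun i hi => ?_, ?_, ?_⟩
  · rw [PowerSeries.coeff_mul, Finset.mul_sum]
    refine IsIntegral.sum _ fun ij _ => ?_
    have : c * d * (P.coeff ij.1 * Q.coeff ij.2) = (c * P.coeff ij.1) * (d * Q.coeff ij.2) := by
      ring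
    rw [this]
    exact (hPint _).mul (hQint _)
  · rw [PowerSeries.coeff_mul]
    refine Finset.sum_eq_zero fun ij hij => ?_
    rw [Finset.HasAntidiagonal.mem_antidiagonal] at hij
    by_cases h : ij.1 < m
    · simp [hPlow _ h]
    · have : ij.2 < l := by omega
      simp [hQlow _ this]
  · rw [hlead]
    exact mul_ne_zero hPm hQl
  · rw [hlead]
    have : (c * d * (P.coeff m * Q.coeff l))⁻¹ = (c * P.coeff m)⁻¹ * (d * Q.coeff l)⁻¹ := by
      rw [← mul_inv]
      congr 1
      ring
    rw [this]
    exact hPu.mul hQu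

theorem UL.one : UL (1 : PowerSeries ℂ) :=
  ⟨1, 0, one_ne_zero, fun n => by
    rw [one_mul, PowerSeries.coeff_one]
    split_ifs
    · exact isIntegral_one
    · exact isIntegral_zero, fun i hi => absurd hi (Nat.not_lt_zero i), by simp, by
    simpa using isIntegral_one⟩

theorem UL.prod {ι : Type*} (s : Finset ι) (P : ι → PowerSeries ℂ) (h : ∀ i ∈ s, UL (P i)) :
    UL (∏ i ∈ s, P i) := by
  classical
  induction s using Finset.induction_on with
  | empty => simpa using UL.one
  | insert a s ha ih =>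
    rw [Finset.prod_insert ha]
    exact (h a (Finset.mem_insert_self a s)).mul
      (ih fun i hi => h i (Finset.mem_insert_of_mem hi))

/-- If `Q = P(X^N)` (coefficientwise) is unit-leading then so is `P`. -/
theorem UL.of_expand {P Q : PowerSeries ℂ} {N : ℕ} (hN : 0 < N)
    (hQP : ∀ n, Q.coeff n = if N ∣ n then P.coeff (n / N) else 0) (hQ : UL Q) : UL P := by
  obtain ⟨c, m, hc, hint, hlow, hm, hu⟩ := hQ
  have hPQ : ∀ k, P.coeff k = Q.coeff (N * k) := by
    intro k
    rw [hQP, if_pos (dvd_mul_right N k), Nat.mul_div_cancel_left k hN]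
  have hNm : N ∣ m := by
    by_contra h
    rw [hQP, if_neg h] at hm
    exact hm rfl
  obtain ⟨m', rfl⟩ := hNm
  refine ⟨c, m', hc, fun n => ?_, fun i hi => ?_, ?_, ?_⟩
  · rw [hPQ]; exact hint _
  · rw [hPQ]; exact hlow _ (Nat.mul_lt_mul_of_pos_left hi hN)
  · rw [hPQ]; exact hm
  · rw [hPQ]; exact hu

/-! ### Bounded denominators -/

/-- An algebraic integer is algebraic over `ℚ`. -/
theorem isIntegral_rat_of_isIntegral_int {x : ℂ} (hx : IsIntegral ℤ x) : IsIntegral ℚ x :=
  hx.tower_top

/-- A rational number which is an algebraic integer is an integer. -/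
theorem exists_int_of_isIntegral_rat {r : ℚ} (h : IsIntegral ℤ ((r : ℂ))) :
    ∃ z : ℤ, (r : ℂ) = (z : ℂ) := by
  have h1 : IsIntegral ℤ r := by
    have : IsIntegral ℤ (algebraMap ℚ ℂ r) := h
    exact (isIntegral_algebraMap_iff (algebraMap ℚ ℂ).injective).mp this
  obtain ⟨z, hz⟩ := IsIntegrallyClosed.isIntegral_iff.mp h1
  refine ⟨z, ?_⟩
  rw [← hz]
  simp

/-- Descent of linear relations to algebraic numbers: if a complex combination of vectors with
algebraic entries has algebraic entries, the coefficients can be chosen algebraic. -/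
theorem exists_algebraic_coeffs {ι κ : Type} [Fintype ι] (c : ι → ℂ) (b : ι → κ → ℂ)
    (x : κ → ℂ) (hb : ∀ i n, IsIntegral ℚ (b i n)) (hx : ∀ n, IsIntegral ℚ (x n))
    (h : ∀ n, x n = ∑ i, c i * b i n) :
    ∃ a : ι → ℂ, (∀ i, IsIntegral ℚ (a i)) ∧ ∀ n, x n = ∑ i, a i * b i n := by
  classical
  let K := algebraicClosure ℚ ℂ
  obtain ⟨π, hπ⟩ := LinearMap.exists_leftInverse_of_injective (Algebra.linearMap K ℂ)
    (LinearMap.ker_eq_bot.mpr (algebraMap K ℂ).injective)
  have hπ' : ∀ y : K, π (y : ℂ) = y := fun y => by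
    have := LinearMap.congr_fun hπ y
    simpa using this
  refine ⟨fun i => ((π (c i) : K) : ℂ), fun i => (π (c i)).2, fun n => ?_⟩
  have key : π (x n) = ∑ i, π (c i) * (⟨b i n, hb i n⟩ : K) := by
    rw [h n, map_sum]
    refine Finset.sum_congr rfl fun i _ => ?_
    have : c i * b i n = (⟨b i n, hb i n⟩ : K) • c i := by
      rw [Algebra.smul_def, mul_comm]
      rfl
    rw [this, map_smul, smul_eq_mul, mul_comm]
  have key2 : (⟨x n, hx n⟩ : K) = ∑ i, π (c i) * (⟨b i n, hb i n⟩ : K) := by
    rw [← key]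
    exact (hπ' ⟨x n, hx n⟩).symm
  have key3 := congrArg (fun y : K => (y : ℂ)) key2
  simp only [IntermediateField.coe_sum, IntermediateField.coe_mul] at key3
  exact key3

/-- Finitely many algebraic numbers have a common nonzero integer denominator. -/
theorem exists_common_int_multiple {ι : Type} [Fintype ι] (a : ι → ℂ)
    (ha : ∀ i, IsIntegral ℚ (a i)) :
    ∃ M : ℤ, M ≠ 0 ∧ ∀ i, IsIntegral ℤ ((M : ℂ) * a i) := by
  classical
  have h1 : ∀ i, ∃ y : ℤ, y ≠ 0 ∧ IsIntegral ℤ ((y : ℂ) * a i) := by
    intro i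
    have halg : IsAlgebraic ℤ (a i) :=
      (IsFractionRing.isAlgebraic_iff ℤ ℚ ℂ).mpr (ha i).isAlgebraic
    obtain ⟨y, hy, hint⟩ := halg.exists_integral_multiple
    refine ⟨y, hy, ?_⟩
    rwa [zsmul_eq_mul] at hint
  choose y hy hint using h1
  refine ⟨∏ i, y i, Finset.prod_ne_zero_iff.mpr fun i _ => hy i, fun i => ?_⟩
  have : ((∏ j, y j : ℤ) : ℂ) * a i = ((∏ j ∈ Finset.univ.erase i, y j : ℤ) : ℂ) * ((y i : ℂ) * a i) := by
    rw [← Finset.mul_prod_erase Finset.univ y (Finset.mem_univ i)]
    push_cast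
    ring
  rw [this]
  exact (isIntegral_algebraMap (R := ℤ) (A := ℂ) (x := ∏ j ∈ Finset.univ.erase i, y j)).mul (hint i)

/-- **Bounded denominators**: if `f` has rational coefficients, `U` is unit-leading, and `f * U`
is a finite complex linear combination of power series with algebraic integer coefficients, then
some nonzero integer multiple of `f` has integer coefficients. -/
theorem bounded_denominators_of_UL {ι : Type} [Fintype ι] (f U : PowerSeries ℂ) (hU : UL U)
    (hf : ∀ n, ∃ r : ℚ, f.coeff n = (r : ℂ)) (c : ι → ℂ) (B : ι → PowerSeries ℂ)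
    (hB : ∀ i n, IsIntegral ℤ ((B i).coeff n)) (h : f * U = ∑ i, c i • B i) :
    ∃ M : ℕ, M ≠ 0 ∧ ∀ n, ∃ z : ℤ, (M : ℂ) * f.coeff n = (z : ℂ) := by
  classical
  obtain ⟨c₀, m, hc₀, hint, hlow, hm, hu⟩ := hU
  -- the scaled series g = c₀ U
  set g : ℕ → ℂ := fun n => c₀ * U.coeff n with hg
  have hfalg : ∀ n, IsIntegral ℚ (f.coeff n) := by
    intro n
    obtain ⟨r, hr⟩ := hf n
    rw [hr]
    exact isIntegral_algebraMap (R := ℚ) (A := ℂ) (x := r)
  have hconv : ∀ n, c₀ * (f * U).coeff n
      = ∑ p ∈ (Finset.HasAntidiagonal.antidiagonal n : Finset (ℕ × ℕ)), f.coeff p.1 * g p.2 := by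
    intro n
    rw [PowerSeries.coeff_mul, Finset.mul_sum]
    refine Finset.sum_congr rfl fun p _ => ?_
    simp only [hg]; ring
  -- descend the coefficients to algebraic numbers
  obtain ⟨a, haalg, ha⟩ := exists_algebraic_coeffs (fun i => c₀ * c i)
    (fun i n => (B i).coeff n) (fun n => c₀ * (f * U).coeff n)
    (fun i n => isIntegral_rat_of_isIntegral_int (hB i n))
    (fun n => by
      rw [hconv]
      refine IsIntegral.sum _ fun p _ => ?_
      exact (hfalg _).mul (isIntegral_rat_of_isIntegral_int (hint _)))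
    (fun n => by
      rw [h, map_sum, Finset.mul_sum]
      refine Finset.sum_congr rfl fun i _ => ?_
      rw [PowerSeries.coeff_smul, smul_eq_mul]
      ring)
  obtain ⟨Mz, hMz, hMa⟩ := exists_common_int_multiple a haalg
  -- integrality of the scaled product
  have hprod : ∀ n, IsIntegral ℤ ((Mz : ℂ) * ∑ p ∈ (Finset.HasAntidiagonal.antidiagonal n : Finset (ℕ × ℕ)), f.coeff p.1 * g p.2) := by
    intro n
    rw [← hconv, ha n, Finset.mul_sum]
    refine IsIntegral.sum _ fun i _ => ?_
    rw [← mul_assoc]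
    exact (hMa i).mul (hB i n)
  -- the unit
  have hum : g m ≠ 0 := mul_ne_zero hc₀ hm
  -- induction
  have hind : ∀ n, IsIntegral ℤ ((Mz : ℂ) * f.coeff n) := by
    intro n
    induction n using Nat.strong_induction_on with
    | _ n ih =>
      have h1 := hprod (n + m)
      rw [Finset.Nat.sum_antidiagonal_eq_sum_range_succ (fun i j => f.coeff i * g j) (n + m)] at h1
      have hsplit : ∑ j ∈ Finset.range (n + m + 1), f.coeff j * g (n + m - j)
          = ∑ j ∈ Finset.range n, f.coeff j * g (n + m - j) + f.coeff n * g m := by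
        have hle : n + 1 ≤ n + m + 1 := by omega
        rw [← Finset.sum_range_add_sum_Ico _ hle]
        have hz : ∑ j ∈ Finset.Ico (n + 1) (n + m + 1), f.coeff j * g (n + m - j) = 0 := by
          refine Finset.sum_eq_zero fun j hj => ?_
          rw [Finset.mem_Ico] at hj
          have : n + m - j < m := by omega
          simp only [hg, hlow _ this, mul_zero]
        rw [hz, add_zero, Finset.sum_range_succ]
        congr 2
        congr 1
        omega
      rw [hsplit, mul_add, Finset.mul_sum] at h1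
      have h2 : IsIntegral ℤ (∑ j ∈ Finset.range n, (Mz : ℂ) * (f.coeff j * g (n + m - j))) := by
        refine IsIntegral.sum _ fun j hj => ?_
        rw [← mul_assoc]
        exact (ih j (Finset.mem_range.mp hj)).mul (hint _)
      have h3 : IsIntegral ℤ ((Mz : ℂ) * (f.coeff n * g m)) := by
        have := h1.sub h2
        simpa using this
      have h4 : (Mz : ℂ) * f.coeff n = ((Mz : ℂ) * (f.coeff n * g m)) * (g m)⁻¹ := by
        field_simp
      rw [h4]
      exact h3.mul hu
  refine ⟨Mz.natAbs, Int.natAbs_ne_zero.mpr hMz, fun n => ?_⟩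
  obtain ⟨r, hr⟩ := hf n
  have h5 : IsIntegral ℤ (((Mz * r : ℚ)) : ℂ) := by
    have := hind n
    rw [hr] at this
    push_cast
    exact this
  obtain ⟨z, hz⟩ := exists_int_of_isIntegral_rat h5
  have habs : ((Mz.natAbs : ℕ) : ℂ) = ((|Mz| : ℤ) : ℂ) := Nat.cast_natAbs Mz
  have hz' : (Mz : ℂ) * (r : ℂ) = (z : ℂ) := by
    rw [← hz]; push_cast; rfl
  rcases abs_cases Mz with ⟨hpos, -⟩ | ⟨hneg, -⟩
  · refine ⟨z, ?_⟩
    rw [hr, habs, hpos, hz']
  · refine ⟨-z, ?_⟩
    rw [hr, habs, hneg]
    push_cast
    rw [← hz']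
    ring

end Fermat.Agent.S23.H96
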